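import Fermat.Agent.HeckeCohom.Systems
import Fermat.Agent.HeckeLattice.Lattice
import Fermat.Agent.HeckeEigen.Characters
import Fermat.Agent.HeckeEigen.Integral
import Fermat.Agent.CuspIntStr.Main
import Mathlib.Algebra.Module.PID

/-!
# Eigen systems on parabolic homomorphisms are eigenform systems

Over any field of characteristic zero, given the Eichler–Shimura surjectivity for level `N`, a
simultaneous eigen homomorphism for the operators `T_ℓ`, `U_q` outside `S` gives a character of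
`heckeAlgebra N 2 S`, hence an eigenform.
-/

set_option autoImplicit false

noncomputable section

open CongruenceSubgroup ModularCurve ModularCurve.Period
open scoped MatrixGroups

namespace Fermat.Agent.HeckeCohom

open Fermat.Agent.HeckeLattice (ParGroup parHom factor factor_comp_parHom parHom_surjective)
open Fermat.Agent.HeckeEigen (eigenChar)

/-- `S₂(Γ₀(N)) × S₂(Γ₀(N))` exhausts the parabolic homomorphisms. -/
def EichlerShimuraSurjective (N : ℕ) : Prop :=
  parabolicHoms ℂ (Gamma0 N) ℂ ≤ LinearMap.range (periodHomPair N)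

variable (N : ℕ)

/-- `T_ℓ` or `U_ℓ` on homomorphisms of `Γ₀(N)`. -/
def heckeOp (ℓ : ℕ) (hℓ : ℓ.Prime) (B : Type*) [AddCommGroup B] :
    (Additive (Gamma0 N) →+ B) →+ (Additive (Gamma0 N) →+ B) :=
  haveI : Fact ℓ.Prime := ⟨hℓ⟩
  haveI : NeZero ℓ := ⟨hℓ.ne_zero⟩
  if h : ℓ ∣ N then transferU h else HeckeLattice.transfer h

/-- Away from the level `heckeOp` is `T_ℓ`. -/
lemma heckeOp_of_not_dvd {ℓ : ℕ} [Fact ℓ.Prime] (h : ¬ ℓ ∣ N) (B : Type*) [AddCommGroup B] :
    heckeOp N ℓ Fact.out B = HeckeLattice.transfer h := dif_neg h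

/-- At primes of the level `heckeOp` is `U_ℓ`. -/
lemma heckeOp_of_dvd {ℓ : ℕ} [Fact ℓ.Prime] [NeZero ℓ] (h : ℓ ∣ N) (B : Type*) [AddCommGroup B] :
    heckeOp N ℓ Fact.out B = transferU h := dif_pos h

/-- `heckeOp` commutes with maps of coefficients. -/
lemma comp_heckeOp (ℓ : ℕ) (hℓ : ℓ.Prime) {B C : Type*} [AddCommGroup B] [AddCommGroup C]
    (g : B →+ C) (φ : Additive (Gamma0 N) →+ B) :
    g.comp (heckeOp N ℓ hℓ B φ) = heckeOp N ℓ hℓ C (g.comp φ) := by
  have : Fact ℓ.Prime := ⟨hℓ⟩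
  have : NeZero ℓ := ⟨hℓ.ne_zero⟩
  by_cases h : ℓ ∣ N <;> simp only [heckeOp, h, ↓reduceDIte] <;>
    exact HeckeLattice.CosetSystem.comp_transfer _ g φ

/-- `heckeOp` is linear in the homomorphism. -/
lemma heckeOp_smul (ℓ : ℕ) (hℓ : ℓ.Prime) {R B : Type*} [Semiring R] [AddCommGroup B] [Module R B]
    (c : R) (φ : Additive (Gamma0 N) →+ B) :
    heckeOp N ℓ hℓ B (c • φ) = c • heckeOp N ℓ hℓ B φ := by
  have : Fact ℓ.Prime := ⟨hℓ⟩
  have : NeZero ℓ := ⟨hℓ.ne_zero⟩
  by_cases h : ℓ ∣ N <;> simp only [heckeOp, h, ↓reduceDIte] <;> exact transfer_smul _ c φ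

/-- Primes outside `S`. -/
abbrev OpIdx (S : Set ℕ) : Type := {ℓ : Nat.Primes // (ℓ : ℕ) ∉ S}

variable (S : Set ℕ)

/-- Formal words in the `T_ℓ`, `U_q` outside `S` acting on homomorphisms. -/
def wordAct (B : Type*) [AddCommGroup B] :
    FreeAlgebra ℤ (OpIdx S) →ₐ[ℤ] Module.End ℤ (Additive (Gamma0 N) →+ B) :=
  FreeAlgebra.lift ℤ fun ℓ => (heckeOp N ℓ.1 ℓ.1.2 B).toIntLinearMap

variable [NeZero N]

/-- Formal words in the Hecke algebra of cusp forms. -/
def wordEval : FreeAlgebra ℤ (OpIdx S) →ₐ[ℤ] CuspForm.heckeAlgebra N 2 S :=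
  FreeAlgebra.lift ℤ fun ℓ => if h : (ℓ.1 : ℕ) ∣ N then CuspForm.heckeAlgebra.U ℓ.1.2 h ℓ.2
    else CuspForm.heckeAlgebra.T ℓ.1.2 h ℓ.2

variable {N S}

/-- The free algebra on the generators maps onto the Hecke algebra. -/
lemma wordEval_surjective : Function.Surjective (wordEval N S) := by
  rintro ⟨t, ht⟩
  induction ht using Algebra.adjoin_induction with
  | mem x hx =>
    rcases hx with ⟨ℓ, hℓ, hℓN, hℓS, rfl⟩ | ⟨q, hqN, hq, hqS, rfl⟩
    · exact ⟨FreeAlgebra.ι ℤ ⟨⟨ℓ, hℓ⟩, hℓS⟩, Subtype.ext (by simp [wordEval, hℓN])⟩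
    · exact ⟨FreeAlgebra.ι ℤ ⟨⟨q, hq⟩, hqS⟩, Subtype.ext (by simp [wordEval, hqN])⟩
  | algebraMap r => exact ⟨algebraMap ℤ _ r, Subtype.ext (by simp)⟩
  | add x y _ _ hx hy =>
    obtain ⟨a, ha⟩ := hx
    obtain ⟨b, hb⟩ := hy
    exact ⟨a + b, by rw [map_add, ha, hb]; rfl⟩
  | mul x y _ _ hx hy =>
    obtain ⟨a, ha⟩ := hx
    obtain ⟨b, hb⟩ := hy
    exact ⟨a * b, by rw [map_mul, ha, hb]; rfl⟩

omit [NeZero N] in
/-- Words in the Hecke operators commute with maps of coefficients. -/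
lemma comp_wordAct {B C : Type*} [AddCommGroup B] [AddCommGroup C] (g : B →+ C)
    (P : FreeAlgebra ℤ (OpIdx S)) : ∀ φ : Additive (Gamma0 N) →+ B,
      g.comp (wordAct N S B P φ) = wordAct N S C P (g.comp φ) := by
  induction P using FreeAlgebra.induction with
  | grade0 r =>
    intro φ
    ext γ
    simp [wordAct]
  | grade1 ℓ =>
    intro φ
    simpa [wordAct] using comp_heckeOp N ℓ.1 ℓ.1.2 g φ
  | add a b ha hb =>
    intro φ
    simp only [map_add, LinearMap.add_apply]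
    rw [← ha, ← hb, AddMonoidHom.comp_add]
  | mul a b ha hb =>
    intro φ
    simp only [map_mul, Module.End.mul_apply]
    rw [ha, hb]

/-- `periodHomPair` intertwines the Hecke algebra with the formal words. -/
lemma wordAct_periodHomPair (P : FreeAlgebra ℤ (OpIdx S)) :
    ∀ p : CuspForm (Gamma0 N) 2 × CuspForm (Gamma0 N) 2,
      wordAct N S ℂ P (periodHomPair N p) = periodHomPair N
        ((wordEval N S P : Module.End ℂ (CuspForm (Gamma0 N) 2)) p.1,
          (wordEval N S P : Module.End ℂ (CuspForm (Gamma0 N) 2)) p.2) := by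
  induction P using FreeAlgebra.induction with
  | grade0 r =>
    intro p
    simp only [AlgHom.commutes, Module.algebraMap_end_apply, Subalgebra.coe_algebraMap]
    exact ((periodHomPair N).map_smul_of_tower r p).symm
  | grade1 ℓ =>
    intro p
    have := Fact.mk ℓ.1.2
    have : NeZero (ℓ.1 : ℕ) := ⟨ℓ.1.2.ne_zero⟩
    by_cases h : (ℓ.1 : ℕ) ∣ N
    · simpa [wordAct, wordEval, heckeOp, h] using (periodHomPair_heckeULin h p).symm
    · simpa [wordAct, wordEval, heckeOp, h] using (periodHomPair_heckeTLin ℓ.1.2 h p).symm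
  | add a b ha hb =>
    intro p
    simp only [map_add, LinearMap.add_apply, ha, hb]
    rw [← map_add]
    rfl
  | mul a b ha hb =>
    intro p
    simp only [map_mul, Module.End.mul_apply, ha, hb]
    rfl

/-- Words vanishing on cusp forms vanish on parabolic homomorphisms to torsion free groups. -/
theorem wordAct_eq_zero_of_wordEval_eq_zero (hES : EichlerShimuraSurjective N)
    {P : FreeAlgebra ℤ (OpIdx S)} (hP : wordEval N S P = 0) {B : Type*} [AddCommGroup B]
    [IsAddTorsionFree B] (φ : Additive (Gamma0 N) →+ B) (hφ : IsParabolicHom (Gamma0 N) φ) :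
    wordAct N S B P φ = 0 := by
  have hC : ∀ ψ : Additive (Gamma0 N) →+ ℂ, IsParabolicHom (Gamma0 N) ψ →
      wordAct N S ℂ P ψ = 0 := by
    intro ψ hψ
    obtain ⟨p, rfl⟩ := hES hψ
    rw [wordAct_periodHomPair, hP]
    exact map_zero (periodHomPair N)
  refine AddMonoidHom.ext fun γ => ?_
  set M := ParGroup N
  set y : M := wordAct N S M P (parHom N) γ with hy
  have hfac : wordAct N S B P φ γ = factor φ hφ y := by
    conv_lhs => rw [← factor_comp_parHom φ hφ, ← comp_wordAct]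
    rfl
  by_contra hne
  rw [hfac] at hne
  have hytor : y ∉ Submodule.torsion ℤ M := by
    rintro ⟨⟨n, hn⟩, hny⟩
    have h1 : n • factor φ hφ y = 0 := by rw [← map_zsmul, show n • y = 0 from hny, map_zero]
    exact (smul_eq_zero.mp h1).elim (nonZeroDivisors.ne_zero hn) hne
  set Q := M ⧸ Submodule.torsion ℤ M
  let b := Module.Free.chooseBasis ℤ Q
  have hyQ : (Submodule.Quotient.mk y : Q) ≠ 0 := fun h =>
    hytor ((Submodule.Quotient.mk_eq_zero _).mp h)
  obtain ⟨i, hi⟩ : ∃ i, b.repr (Submodule.Quotient.mk y) i ≠ 0 := by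
    by_contra! hall
    exact hyQ (b.repr.injective (Finsupp.ext fun i => by simpa using hall i))
  let g : M →+ ℂ := (Int.castAddHom ℂ).comp
    ((b.coord i).comp (Submodule.torsion ℤ M).mkQ).toAddMonoidHom
  have h2 := hC (g.comp (parHom N)) fun δ hδ => by
    rw [AddMonoidHom.comp_apply, HeckeLattice.parHom_isParabolicHom N δ hδ, map_zero]
  rw [← comp_wordAct] at h2
  have h3 : g y = 0 := DFunLike.congr_fun h2 γ
  exact hi (Int.cast_eq_zero.mp h3)

/-- A simultaneous eigen parabolic homomorphism gives a character of the Hecke algebra. -/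
theorem exists_ringHom_of_eigenHom (hES : EichlerShimuraSurjective N) {K : Type*} [Field K]
    [CharZero K] (φ : Additive (Gamma0 N) →+ K) (hφ : IsParabolicHom (Gamma0 N) φ) (hφ0 : φ ≠ 0)
    (a : ℕ → K) (ha : ∀ (ℓ : ℕ) (hℓ : ℓ.Prime), ℓ ∉ S → heckeOp N ℓ hℓ K φ = a ℓ • φ) :
    ∃ ψ : CuspForm.heckeAlgebra N 2 S →+* K,
      (∀ (ℓ : ℕ) (hℓ : ℓ.Prime) (hℓN : ¬ ℓ ∣ N) (hℓS : ℓ ∉ S),
        ψ (CuspForm.heckeAlgebra.T hℓ hℓN hℓS) = a ℓ) ∧
      (∀ (q : ℕ) (hq : q.Prime) (hqN : q ∣ N) (hqS : q ∉ S),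
        ψ (CuspForm.heckeAlgebra.U hq hqN hqS) = a q) := by
  let χ : FreeAlgebra ℤ (OpIdx S) →ₐ[ℤ] K := FreeAlgebra.lift ℤ fun ℓ => a (ℓ.1 : ℕ)
  have hχ : ∀ P, wordAct N S K P φ = χ P • φ := by
    intro P
    induction P using FreeAlgebra.induction with
    | grade0 r =>
      rw [AlgHom.commutes, AlgHom.commutes, Module.algebraMap_end_apply, algebraMap_int_eq,
        eq_intCast]
      exact (Int.cast_smul_eq_zsmul K r φ).symm
    | grade1 ℓ => simpa [wordAct, χ] using ha _ ℓ.1.2 ℓ.2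
    | add p q hp hq => simp only [map_add, LinearMap.add_apply, hp, hq, add_smul]
    | mul p q hp hq =>
      have hlin : ∀ (P : FreeAlgebra ℤ (OpIdx S)) (c : K) (ψ : Additive (Gamma0 N) →+ K),
          wordAct N S K P (c • ψ) = c • wordAct N S K P ψ := by
        intro P c
        have key := comp_wordAct (N := N) (AddMonoidHom.mulLeft c) P
        exact fun ψ => (key ψ).symm
      rw [map_mul, map_mul, Module.End.mul_apply, hq, hlin, hp, smul_smul, mul_comm]
  have hker : ∀ P Q, wordEval N S P = wordEval N S Q → χ P = χ Q := by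
    intro P Q hPQ
    refine smul_left_injective K hφ0 ?_
    show χ P • φ = χ Q • φ
    rw [← sub_eq_zero, ← hχ, ← hχ, ← LinearMap.sub_apply, ← map_sub]
    exact wordAct_eq_zero_of_wordEval_eq_zero hES (by rw [map_sub, hPQ, sub_self]) φ hφ
  let inv := Function.surjInv (wordEval_surjective (N := N) (S := S))
  have hinv : ∀ t, wordEval N S (inv t) = t := Function.surjInv_eq _
  refine ⟨{ toFun := fun t => χ (inv t), map_one' := ?_, map_mul' := ?_, map_zero' := ?_,
            map_add' := ?_ }, fun ℓ hℓ hℓN hℓS => ?_, fun q hq hqN hqS => ?_⟩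
  · rw [← map_one χ]; exact hker _ _ (by rw [hinv, map_one])
  · intro s t; rw [← map_mul]; exact hker _ _ (by rw [hinv, map_mul, hinv, hinv])
  · rw [← map_zero χ]; exact hker _ _ (by rw [hinv, map_zero])
  · intro s t; rw [← map_add]; exact hker _ _ (by rw [hinv, map_add, hinv, hinv])
  · refine (hker _ (FreeAlgebra.ι ℤ ⟨⟨ℓ, hℓ⟩, hℓS⟩) ?_).trans (by simp [χ])
    rw [hinv]
    simp [wordEval, hℓN]
  · refine (hker _ (FreeAlgebra.ι ℤ ⟨⟨q, hq⟩, hqS⟩) ?_).trans (by simp [χ])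
    rw [hinv]
    simp [wordEval, hqN]

/-- A character of the Hecke algebra to a field of characteristic zero is an embedded eigenform. -/
theorem exists_eigenform_of_ringHom_field {K : Type*} [Field K] [CharZero K]
    (ψ : CuspForm.heckeAlgebra N 2 S →+* K) :
    ∃ (f : CuspForm (Gamma0 N) 2) (hf : f.IsNormalizedEigenform)
      (ι : (eigenChar hf S).range →+* K), Function.Injective ι ∧
        ∀ t, ι ⟨eigenChar hf S t, t, rfl⟩ = ψ t := by
  have : (RingHom.ker ψ).IsPrime := RingHom.ker_isPrime ψ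
  obtain ⟨f, hf, hker⟩ := HeckeEigen.exists_eigenform_ker_le (RingHom.ker ψ)
  set e := (eigenChar hf S).rangeRestrict with he
  have hkere : RingHom.ker e ≤ RingHom.ker ψ := fun t ht => hker (congrArg Subtype.val ht)
  let ι := e.liftOfSurjective (eigenChar hf S).rangeRestrict_surjective ⟨ψ, hkere⟩
  have hι : ∀ t, ι (e t) = ψ t := fun t => RingHom.liftOfRightInverse_comp_apply _ _ _ _ t
  refine ⟨f, hf, ι, ?_, fun t => hι t⟩
  have hint : ∀ x : (eigenChar hf S).range, IsIntegral ℤ x := by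
    rintro ⟨_, t, rfl⟩
    have h := HeckeEigen.isIntegral_eigenChar (CuspIntStr.hasIntegralStructure N 2) hf t
    exact (isIntegral_algHom_iff ((eigenChar hf S).range.subtype.toIntAlgHom)
      Subtype.val_injective).mp h
  rw [RingHom.injective_iff_ker_eq_bot]
  have : Algebra.IsIntegral ℤ (eigenChar hf S).range := ⟨hint⟩
  have : (RingHom.ker ι).IsPrime := RingHom.ker_isPrime ι
  refine Ideal.eq_bot_of_comap_eq_bot (R := ℤ) ?_
  rw [eq_bot_iff]
  intro n hn
  rw [Ideal.mem_comap, RingHom.mem_ker] at hn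
  simpa using hn

/-- **Eigen parabolic homomorphisms are eigenforms.** -/
theorem exists_eigenform_of_eigenHom (hES : EichlerShimuraSurjective N) {K : Type*} [Field K]
    [CharZero K] (φ : Additive (Gamma0 N) →+ K) (hφ : IsParabolicHom (Gamma0 N) φ) (hφ0 : φ ≠ 0)
    (a : ℕ → K) (ha : ∀ (ℓ : ℕ) (hℓ : ℓ.Prime), ℓ ∉ S → heckeOp N ℓ hℓ K φ = a ℓ • φ) :
    ∃ (f : CuspForm (Gamma0 N) 2) (hf : f.IsNormalizedEigenform)
      (ι : (eigenChar hf S).range →+* K), Function.Injective ι ∧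
        ∀ ℓ : ℕ, ℓ.Prime → ℓ ∉ S → ∃ h : ModularFormClass.qCoeff f ℓ ∈ (eigenChar hf S).range,
          ι ⟨_, h⟩ = a ℓ := by
  obtain ⟨ψ, hT, hU⟩ := exists_ringHom_of_eigenHom hES φ hφ hφ0 a ha
  obtain ⟨f, hf, ι, hι, hιψ⟩ := exists_eigenform_of_ringHom_field ψ
  refine ⟨f, hf, ι, hι, fun ℓ hℓ hℓS => ?_⟩
  by_cases h : ℓ ∣ N
  · refine ⟨⟨_, HeckeEigen.eigenChar_U hf hℓ h hℓS⟩, ?_⟩
    rw [← hU ℓ hℓ h hℓS, ← hιψ]
    exact congrArg ι (Subtype.ext (HeckeEigen.eigenChar_U hf hℓ h hℓS).symm)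
  · refine ⟨⟨_, HeckeEigen.eigenChar_T hf hℓ h hℓS⟩, ?_⟩
    rw [← hT ℓ hℓ h hℓS, ← hιψ]
    exact congrArg ι (Subtype.ext (HeckeEigen.eigenChar_T hf hℓ h hℓS).symm)

end Fermat.Agent.HeckeCohom
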