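import Fermat.Agent.Patching.GroupAlgebra
import Mathlib.Data.ZMod.QuotientRing
import Mathlib.Data.ZMod.Units
import Mathlib.Algebra.Group.Pi.Units

/-!
# A character of `∏ ℤ/pᵛ` through the units at distinct primes

When the group of diamond operators is the product of quotients of `(ℤ/qᵢ)ˣ`, a character is
trivial on the units `≡ 1` at all `qᵢ`, `i ≠ j`, exactly when it is trivial on the `j`-th
generator.
-/

set_option autoImplicit false

namespace Fermat.Agent.HeckeCohom

open Fermat.Agent.Patching (DeltaV genV)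

/-- Units with prescribed residues at distinct primes dividing the modulus. -/
theorem exists_unit_residues {M : ℕ} [NeZero M] {r : ℕ} (q : Fin r → ℕ)
    (hq : ∀ i, (q i).Prime) (hinj : Function.Injective q) (hd : ∀ i, q i ∣ M)
    (x : ∀ i, (ZMod (q i))ˣ) : ∃ u : (ZMod M)ˣ, ∀ i, ZMod.unitsMap (hd i) u = x i := by
  have hcop : Pairwise (Function.onFun Nat.Coprime q) := fun i j hij =>
    (Nat.coprime_primes (hq i) (hq j)).2 fun h => hij (hinj h)
  have hdvd : (∏ i, q i) ∣ M := by
    rw [← Finset.prod_image (f := fun n => n) fun x _ y _ h => hinj h]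
    refine Finset.prod_primes_dvd M (fun x hx => ?_) fun x hx => ?_ <;>
      obtain ⟨i, -, rfl⟩ := Finset.mem_image.1 hx
    exacts [(hq i).prime, hd i]
  let e := ZMod.prodEquivPi q hcop
  obtain ⟨u, hu⟩ := ZMod.unitsMap_surjective hdvd
    (Units.map e.symm.toRingHom.toMonoidHom
      ((MulEquiv.piUnits (M := fun i => ZMod (q i))).symm x))
  refine ⟨u, fun i => Units.ext ?_⟩
  rw [← ZMod.unitsMap_comp (Finset.dvd_prod_of_mem q (Finset.mem_univ i)) hdvd,
    MonoidHom.comp_apply, hu]
  show ZMod.castHom (Finset.dvd_prod_of_mem q (Finset.mem_univ i)) (ZMod (q i))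
    (e.symm ((MulEquiv.piUnits (M := fun i => ZMod (q i))).symm x : Π i, ZMod (q i))) = _
  rw [← ZMod.prodEquivPi_apply q hcop, RingEquiv.apply_symm_apply]
  rfl

/-- A character is trivial on the units `≡ 1` away from `q j` iff it is trivial on `genV j`. -/
theorem forall_trivial_iff_genV {M : ℕ} [NeZero M] {p r : ℕ} (hp : p ≠ 0) {v : Fin r → ℕ}
    (q : Fin r → ℕ) (hq : ∀ i, (q i).Prime) (hinj : Function.Injective q) (hd : ∀ i, q i ∣ M)
    (c : ∀ i, (ZMod (q i))ˣ →* Multiplicative (ZMod (p ^ v i)))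
    (hc : ∀ i, Function.Surjective (c i))
    (cls : (ZMod M)ˣ → DeltaV p v) (hcls : ∀ u i, cls u i = c i (ZMod.unitsMap (hd i) u))
    {s : Finset ℕ} (hs : ∀ x, x ∈ s ↔ ∃ i, q i = x) {G : Type*} [Monoid G]
    (f : DeltaV p v →* G) (j : Fin r) :
    (∀ u : (ZMod M)ˣ, (∀ x ∈ s, x ≠ q j → ∀ hx : x ∣ M,
      ZMod.castHom hx (ZMod x) (u : ZMod M) = 1) → f (cls u) = 1) ↔ f (genV j) = 1 := by
  constructor
  · intro h
    obtain ⟨y, hy⟩ := hc j (Multiplicative.ofAdd 1)
    obtain ⟨u, hu⟩ := exists_unit_residues q hq hinj hd (Pi.mulSingle j y)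
    rw [show genV j = cls u from funext fun i => ?_]
    · refine h u fun x hx hxq hxM => ?_
      obtain ⟨i, rfl⟩ := (hs x).1 hx
      have := congrArg Units.val (hu i)
      rwa [Pi.mulSingle_eq_of_ne (fun e : i = j => hxq (e ▸ rfl)), Units.val_one] at this
    · rw [hcls, hu, genV]
      rcases eq_or_ne i j with rfl | hij
      · rw [Pi.mulSingle_eq_same, Pi.mulSingle_eq_same, hy]
      · rw [Pi.mulSingle_eq_of_ne hij, Pi.mulSingle_eq_of_ne hij, map_one]
  · intro h u hu
    have : NeZero (p ^ v j) := ⟨pow_ne_zero _ hp⟩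
    have hu' : cls u = genV j ^ (cls u j).toAdd.val := by
      funext i
      rw [Pi.pow_apply, genV]
      rcases eq_or_ne i j with rfl | hij
      · rw [Pi.mulSingle_eq_same, ← ofAdd_nsmul, nsmul_eq_mul, mul_one, ZMod.natCast_zmod_val,
          ofAdd_toAdd]
      · rw [Pi.mulSingle_eq_of_ne hij, one_pow, hcls]
        have h1 : ZMod.unitsMap (hd i) u = 1 := Units.ext
          (hu _ ((hs _).2 ⟨i, rfl⟩) (fun e => hij (hinj e)) (hd i))
        rw [h1, map_one]
    rw [hu', map_pow, h, one_pow]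

end Fermat.Agent.HeckeCohom
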