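import Fermat.Agent.HeckeCohom.ClassForms
import Fermat.Agent.KummerES.AssemblyEigen
import Fermat.Agent.CurveBaseChange.Complex

/-!
# Newforms at the points of the Hecke algebra with diamonds

Every point of a commutative algebra of diamond and Hecke operators on `Hom(Γ_H(M), O)_m` comes
from a class, hence from a newform of level dividing `M ∏ s` with the twisted eigenvalues and
exponent two exactly at the primes where the diamonds are nontrivial at the point.
-/

set_option autoImplicit false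

noncomputable section

open IsLocalRing CongruenceSubgroup
open scoped MatrixGroups

namespace Fermat.Agent.HeckeCohom

open Fermat.Agent.GroupH1 (GammaH GammaH_mono HMod HeckePoly toH primeOf deckLin diamond
  diamond_toLocM LocM toLocM toLocM_surjective toLocM_eq_zero_iff exists_toLocM_inv finite_locM
  free_locM heckeSystem resHom DoubleSystem smul_locM_eq_zero)

variable {M : ℕ} [NeZero M] {H : Subgroup (ZMod M)ˣ} {Δ : Type} [CommGroup Δ]
  (χ : (⊤ : Subgroup (ZMod M)ˣ) →* Δ) (hχ : Function.Surjective χ)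
  (hker : ∀ u : (⊤ : Subgroup (ZMod M)ˣ), (u : (ZMod M)ˣ) ∈ H ↔ χ u = 1)
  {O : Type} [CommRing O] [IsDomain O]

/-- Restriction of a class to `Γ₁(M)`. -/
def toG1Val (x : HMod M H O) : Additive (G1 M) →+ O :=
  resHom (GammaH_mono bot_le) (toH.symm x)

omit [NeZero M] in
lemma toG1_eq_comp (x : HMod M H O) :
    toG1 (K := FractionRing O) x
      = (algebraMap O (FractionRing O)).toAddMonoidHom.comp (toG1Val x) := rfl

lemma toG1Val_X_smul (ℓ : ℕ) [Fact ℓ.Prime] (x : HMod M H O) :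
    toG1Val ((MvPolynomial.X (primeOf ℓ) : HeckePoly O) • x)
      = (heckeSystem M ⊥ ℓ).transfer (toG1Val x) := by
  have h := toG1_X_smul (K := FractionRing O) ℓ x
  rw [toG1_eq_comp, toG1_eq_comp, ← HeckeLattice.CosetSystem.comp_transfer] at h
  exact AddMonoidHom.ext fun γ => IsFractionRing.injective O (FractionRing O)
    (DFunLike.congr_fun h γ)

lemma toG1Val_deck (u : (ZMod M)ˣ) (x : HMod M H O) :
    ((deckG1 M).conjSystem u).transfer (toG1Val x)
      = toG1Val (deckLin le_top χ hχ hker (classOf χ u) x) := by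
  refine AddMonoidHom.ext fun γ => ?_
  obtain ⟨γ, rfl⟩ := Additive.ofMul.surjective γ
  have h := DFunLike.congr_fun (toG1_deck (K := FractionRing O) χ hχ hker u x) (Additive.ofMul γ)
  rw [conjSystem_transfer_apply, toG1_eq_comp, toG1_eq_comp] at h
  rw [conjSystem_transfer_apply]
  exact IsFractionRing.injective O (FractionRing O) h

lemma toG1Val_eq_zero [CharZero O] {x : HMod M H O} (hx : toG1Val x = 0) : x = 0 := by
  have : CharZero (FractionRing O) :=
    charZero_of_injective_algebraMap (IsFractionRing.injective O _)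
  refine toG1_eq_zero (K := FractionRing O) ?_
  rw [toG1_eq_comp, hx]
  exact AddMonoidHom.comp_zero _

omit [NeZero M] [IsDomain O] in
/-- Finitely many classes killed by the localisation are killed by one element outside `m`. -/
theorem exists_kill (m : Ideal (HeckePoly O)) [m.IsMaximal] [IsNoetherianRing O]
    [Module.Finite O (HMod M H O)] :
    ∃ u : HeckePoly O, u ∉ m ∧ ∀ v : HMod M H O, toLocM m v = 0 → u • v = 0 := by
  classical
  obtain ⟨S, hS⟩ : ((LinearMap.ker (toLocM m : HMod M H O →ₗ[HeckePoly O] _)).restrictScalars O).FG :=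
    IsNoetherian.noetherian _
  have hmem : ∀ v ∈ S, ∃ u, u ∉ m ∧ u • v = 0 := fun v hv => by
    have : v ∈ (LinearMap.ker (toLocM m : HMod M H O →ₗ[HeckePoly O] _)).restrictScalars O :=
      hS ▸ Submodule.subset_span hv
    exact (toLocM_eq_zero_iff m).1 this
  choose f hf using hmem
  refine ⟨∏ v ∈ S.attach, f v v.2, fun h => ?_, fun v hv => ?_⟩
  · obtain ⟨w, -, hw⟩ := (Ideal.IsPrime.prod_mem_iff).1 h
    exact (hf w w.2).1 hw
  · have hv' : v ∈ Submodule.span O (S : Set (HMod M H O)) := by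
      rw [hS]; exact hv
    induction hv' using Submodule.span_induction with
    | mem x hx =>
      rw [← Finset.prod_erase_mul _ _ (Finset.mem_attach S ⟨x, hx⟩), mul_smul, (hf x hx).2,
        smul_zero]
    | zero => simp
    | add x y hx hy ihx ihy =>
      have hk : ∀ z, z ∈ Submodule.span O (S : Set (HMod M H O)) → toLocM m z = 0 :=
        fun z hz => by rw [hS] at hz; exact hz
      rw [smul_add, ihx (hk x hx), ihy (hk y hy), add_zero]
    | smul c x hx ih =>
      have hk : ∀ z, z ∈ Submodule.span O (S : Set (HMod M H O)) → toLocM m z = 0 :=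
        fun z hz => by rw [hS] at hz; exact hz
      rw [smul_comm, ih (hk x hx), smul_zero]

variable [IsDiscreteValuationRing O] [IsAdicComplete (maximalIdeal O) O] [CharZero O]
  (m : Ideal (HeckePoly O)) [m.IsMaximal]

/-- **A point gives a class.** -/
theorem exists_class (A : Subalgebra O (Module.End O (LocM m (HMod M H O))))
    (hcomm : ∀ x ∈ A, ∀ y ∈ A, x * y = y * x)
    (hdia : ∀ δ : Δ, diamond le_top χ hχ hker m δ ∈ A) {D : ℕ}
    (hX : ∀ ℓ : Nat.Primes, ¬ (ℓ : ℕ) ∣ D →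
      Algebra.lsmul O O (LocM m (HMod M H O)) (MvPolynomial.X ℓ : HeckePoly O) ∈ A)
    {K : Type} [Field K] [CharZero K] [Algebra O K] [FaithfulSMul O K] (ρ : A →ₐ[O] K) :
    ∃ φ : Additive (G1 M) →+ K, φ ≠ 0 ∧
      (∀ u : (ZMod M)ˣ, ((deckG1 M).conjSystem u).transfer φ
        = ρ ⟨diamond le_top χ hχ hker m (classOf χ u), hdia _⟩ • φ) ∧
      (∀ (ℓ : ℕ) [Fact ℓ.Prime] (hℓ : ¬ ℓ ∣ D), (heckeSystem M ⊥ ℓ).transfer φ
        = ρ ⟨Algebra.lsmul O O _ (MvPolynomial.X (primeOf ℓ) : HeckePoly O), hX (primeOf ℓ) hℓ⟩ • φ) ∧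
      ∀ (u : HeckePoly O) (hu : Algebra.lsmul O O (LocM m (HMod M H O)) u ∈ A), u ∉ m →
        ρ ⟨_, hu⟩ ≠ 0 := by
  classical
  set W := LocM m (HMod M H O)
  have : Module.Finite O W := finite_locM m
  have : Module.Free O W := free_locM m H
  let _ : CommRing A :=
    { (inferInstance : Ring A) with mul_comm := fun a b => Subtype.ext (hcomm _ a.2 _ b.2) }
  -- a section of the localisation map
  obtain ⟨u₀, hu₀, hkill⟩ := exists_kill (M := M) (H := H) m
  have hle : LinearMap.ker (toLocM m : HMod M H O →ₗ[HeckePoly O] W)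
      ≤ LinearMap.ker (LinearMap.lsmul (HeckePoly O) (HMod M H O) u₀) := fun v hv => hkill v hv
  let sec : W →ₗ[HeckePoly O] HMod M H O :=
    ((LinearMap.ker (toLocM m : HMod M H O →ₗ[HeckePoly O] W)).liftQ _ hle).comp
      ((toLocM m).quotKerEquivOfSurjective (toLocM_surjective O m)).symm.toLinearMap
  have hsec : ∀ v, sec (toLocM m v) = u₀ • v := fun v => by
    rw [show sec (toLocM m v) = (Submodule.liftQ _ _ hle)
      (((toLocM m).quotKerEquivOfSurjective (toLocM_surjective O m)).symm (toLocM m v)) from rfl,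
      LinearMap.quotKerEquivOfSurjective_symm_apply]
    rfl
  have hsec_inj : ∀ w, sec w = 0 → w = 0 := fun w hw => by
    obtain ⟨v, rfl⟩ := toLocM_surjective O m w
    rw [hsec] at hw
    exact (toLocM_eq_zero_iff m).2 ⟨u₀, hu₀, hw⟩
  -- evaluation functionals
  let E : Additive (G1 M) →+ Module.Dual O W :=
    { toFun := fun γ =>
        { toFun := fun w => toG1Val (sec w) γ
          map_add' := fun a b => by simp [toG1Val]
          map_smul' := fun c a => by
            rw [LinearMap.map_smul_of_tower, RingHom.id_apply]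
            simp [toG1Val]
            rfl }
      map_zero' := LinearMap.ext fun w => map_zero (toG1Val (sec w))
      map_add' := fun a b => LinearMap.ext fun w => map_add (toG1Val (sec w)) a b }
  have hE : ∀ w γ, E γ w = toG1Val (sec w) γ := fun _ _ => rfl
  -- the transpose action
  let act : A →+* AddMonoid.End (Module.Dual O W) :=
    { toFun := fun a => (LinearMap.lcomp O O (a : Module.End O W)).toAddMonoidHom
      map_one' := AddMonoidHom.ext fun f => LinearMap.ext fun w => rfl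
      map_mul' := fun a b => AddMonoidHom.ext fun f => LinearMap.ext fun w => by
        show f (((a * b : A) : Module.End O W) w) = f (((b : A) : Module.End O W) ((a : Module.End O W) w))
        rw [mul_comm a b]
        rfl
      map_zero' := AddMonoidHom.ext fun f => LinearMap.ext fun w => map_zero f
      map_add' := fun a b => AddMonoidHom.ext fun f => LinearMap.ext fun w => map_add f _ _ }
  let _ : Module A (Module.Dual O W) := Module.compHom _ act
  have hact : ∀ (a : A) (f : Module.Dual O W) (w : W), (a • f) w = f ((a : Module.End O W) w) :=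
    fun _ _ _ => rfl
  have : IsScalarTower O A (Module.Dual O W) := IsScalarTower.of_algebraMap_smul fun c f =>
    LinearMap.ext fun w => by
      rw [hact, LinearMap.smul_apply, ← map_smul]
      rfl
  have : Module.Finite A (Module.Dual O W) := Module.Finite.of_restrictScalars_finite O A _
  obtain ⟨x, hx0, hx⟩ := KummerES.Tate.exists_eigenfunctional (L := Module.Dual O W)
    (fun t ht => Subtype.ext (LinearMap.ext fun w => by
      refine (Module.forall_dual_apply_eq_zero_iff O _).1 fun f => ?_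
      rw [← hact, ht f]
      rfl)) (ρ : A →+* K)
  have hxsmul : ∀ (c : O) (f : Module.Dual O W), x (c • f) = algebraMap O K c * x f := fun c f => by
    rw [← algebraMap_smul A c f, hx]
    exact congrArg (· * x f) (ρ.commutes c)
  refine ⟨x.comp E, fun h0 => hx0 ?_, fun u => ?_, fun ℓ _ hℓ => ?_, fun u hu hum hz => ?_⟩
  · refine AddMonoidHom.ext fun f => ?_
    set W₀ := Submodule.span O (Set.range E) with hW₀
    obtain ⟨c, hc, hcf⟩ : ∃ c : O, c ≠ 0 ∧ c • f ∈ W₀ := by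
      by_contra hcon
      push Not at hcon
      set Q := Module.Dual O W ⧸ W₀
      set T := Submodule.torsion O Q
      have hf : (Submodule.Quotient.mk (Submodule.Quotient.mk f : Q) : Q ⧸ T) ≠ 0 := by
        rw [ne_eq, Submodule.Quotient.mk_eq_zero]
        rintro ⟨⟨c, hc⟩, hcf⟩
        refine hcon c (nonZeroDivisors.ne_zero hc) ((Submodule.Quotient.mk_eq_zero _).1 ?_)
        rw [Submodule.Quotient.mk_smul]
        exact hcf
      have : Module.Free O (Q ⧸ T) := Module.free_of_finite_type_torsion_free'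
      obtain ⟨g, hg⟩ := Module.Projective.exists_dual_ne_zero O hf
      let G : Module.Dual O (Module.Dual O W) := g.comp (T.mkQ.comp W₀.mkQ)
      obtain ⟨w, hw⟩ := (Module.bijective_dual_eval O W).2 G
      have hw0 : w = 0 := hsec_inj w (toG1Val_eq_zero (AddMonoidHom.ext fun γ => by
        have e := congrArg (fun z : Module.Dual O (Module.Dual O W) => z (E γ)) hw
        simp only [Module.Dual.eval_apply] at e
        rw [← hE, e]
        show g (T.mkQ (W₀.mkQ (E γ))) = 0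
        rw [show W₀.mkQ (E γ) = 0 from
          (Submodule.Quotient.mk_eq_zero _).2 (Submodule.subset_span ⟨γ, rfl⟩), map_zero, map_zero]))
      refine hg ?_
      have e := congrArg (fun z : Module.Dual O (Module.Dual O W) => z f) hw
      simp only [hw0, map_zero] at e
      exact e.symm
    have hzero : ∀ z ∈ W₀, x z = 0 := fun z hz => by
      induction hz using Submodule.span_induction with
      | mem y hy =>
        obtain ⟨γ, rfl⟩ := hy
        exact DFunLike.congr_fun h0 γ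
      | zero => exact map_zero x
      | add a b _ _ ha hb => rw [map_add, ha, hb, add_zero]
      | smul c a _ ha => rw [hxsmul, ha, mul_zero]
    have h1 := hzero _ hcf
    rw [hxsmul] at h1
    exact (mul_eq_zero.1 h1).resolve_left
      ((map_ne_zero_iff _ (FaithfulSMul.algebraMap_injective O K)).2 hc)
  · refine AddMonoidHom.ext fun γ => ?_
    obtain ⟨γ, rfl⟩ := Additive.ofMul.surjective γ
    rw [conjSystem_transfer_apply, AddMonoidHom.smul_apply, AddMonoidHom.comp_apply,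
      AddMonoidHom.comp_apply, smul_eq_mul]
    refine Eq.trans (congrArg x ?_) (hx _ _)
    refine LinearMap.ext fun w => ?_
    rw [hact, hE, hE]
    obtain ⟨v, rfl⟩ := toLocM_surjective O m w
    rw [hsec]
    show _ = toG1Val (sec (diamond le_top χ hχ hker m (classOf χ u) (toLocM m v))) _
    rw [diamond_toLocM, hsec, ← map_smul, ← toG1Val_deck χ hχ hker, conjSystem_transfer_apply]
  · rw [← HeckeLattice.CosetSystem.comp_transfer]
    refine AddMonoidHom.ext fun γ => ?_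
    rw [AddMonoidHom.smul_apply, AddMonoidHom.comp_apply, AddMonoidHom.comp_apply, smul_eq_mul]
    refine Eq.trans (congrArg x ?_) (hx _ _)
    refine LinearMap.ext fun w => ?_
    rw [hact, hE]
    let ev : Module.Dual O W →+ O := (Module.Dual.eval O W w).toAddMonoidHom
    show ev ((heckeSystem M ⊥ ℓ).transfer E γ)
      = toG1Val (sec ((MvPolynomial.X (primeOf ℓ) : HeckePoly O) • w)) γ
    rw [map_smul sec, toG1Val_X_smul]
    exact DFunLike.congr_fun (HeckeLattice.CosetSystem.comp_transfer _ ev E) γ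
  · obtain ⟨a, ha⟩ := exists_toLocM_inv m H hum
    refine hx0 (AddMonoidHom.ext fun f => ?_)
    set t : A := ⟨_, hu⟩
    have : f = t • (f.comp (Algebra.lsmul O O W a)) := LinearMap.ext fun w => by
      rw [hact]
      obtain ⟨v, rfl⟩ := toLocM_surjective O m w
      show f (toLocM m v) = f (a • u • toLocM m v)
      rw [← map_smul, ← map_smul, ha]
    rw [this, hx]
    show ρ t * _ = 0
    rw [hz, zero_mul]

/-- Countably many elements of a field of characteristic zero lie in a subfield with an embedding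
`σ` into `ℂ`, extended to a `σ`-semilinear functional nonzero at a given `x ≠ 0`. -/
theorem exists_complex_functional {K : Type} [Field K] [CharZero K] {S : Set K} (hS : S.Countable)
    {x : K} (hx : x ≠ 0) :
    ∃ (L : IntermediateField ℚ K) (σ : L →+* ℂ) (tr : K →+ ℂ),
      S ⊆ L ∧ (∀ (c : L) (z : K), tr ((c : K) * z) = σ c * tr z) ∧ tr x ≠ 0 := by
  let L : IntermediateField ℚ K := IntermediateField.adjoin ℚ S
  have : Countable L := by
    rw [← Cardinal.mk_le_aleph0_iff]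
    have h1 := IntermediateField.lift_cardinalMk_adjoin_le ℚ S
    simp only [Cardinal.lift_id] at h1
    refine h1.trans (max_le (max_le ?_ ?_) le_rfl)
    · simp
    · exact Cardinal.mk_le_aleph0_iff.2 hS.to_subtype
  obtain ⟨σ⟩ := CurveBaseChange.exists_ringHom_complex L
  obtain ⟨π, hπ⟩ := Module.Projective.exists_dual_ne_zero L hx
  have hπmul : ∀ (c : L) (z : K), π ((c : K) * z) = c * π z := fun c z => by
    rw [show (c : K) * z = c • z from rfl, map_smul, smul_eq_mul]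
  let tr : K →+ ℂ := σ.toAddMonoidHom.comp π.toAddMonoidHom
  have htr : ∀ (c : L) (z : K), tr ((c : K) * z) = σ c * tr z := fun c z => by
    show σ (π _) = _
    rw [hπmul, map_mul]
    rfl
  exact ⟨L, σ, tr, IntermediateField.subset_adjoin ℚ S, htr, fun h => hπ (σ.injective (by
    rw [map_zero]
    exact h))⟩

omit [NeZero M] [IsDomain O] [IsDiscreteValuationRing O] [IsAdicComplete (maximalIdeal O) O]
  [CharZero O] in
/-- A point at which the elements outside `m` do not vanish is not Eisenstein. -/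
theorem rho_X_ne_one_add (A : Subalgebra O (Module.End O (LocM m (HMod M H O)))) {K : Type}
    [Field K] [Algebra O K] (ρ : A →ₐ[O] K)
    (hρ : ∀ (u : HeckePoly O) (hu : Algebra.lsmul O O (LocM m (HMod M H O)) u ∈ A), u ∉ m →
      ρ ⟨_, hu⟩ ≠ 0) {ℓ : Nat.Primes}
    (hX : Algebra.lsmul O O (LocM m (HMod M H O)) (MvPolynomial.X ℓ : HeckePoly O) ∈ A)
    (hm : (MvPolynomial.X ℓ - MvPolynomial.C (((ℓ : ℕ) : O) + 1) : HeckePoly O) ∉ m) :
    ρ ⟨_, hX⟩ ≠ 1 + (ℓ : ℕ) := fun heq => by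
  have hmem : Algebra.lsmul O O (LocM m (HMod M H O))
      (MvPolynomial.X ℓ - MvPolynomial.C (((ℓ : ℕ) : O) + 1) : HeckePoly O) ∈ A := by
    rw [map_sub, ← MvPolynomial.algebraMap_eq, AlgHom.commutes]
    exact sub_mem (hX) (A.algebraMap_mem _)
  refine hρ _ hmem hm ?_
  have hd : Algebra.lsmul O O (LocM m (HMod M H O))
      (MvPolynomial.X ℓ - MvPolynomial.C (((ℓ : ℕ) : O) + 1) : HeckePoly O)
        = Algebra.lsmul O O (LocM m (HMod M H O)) (MvPolynomial.X ℓ : HeckePoly O)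
          - algebraMap O _ (((ℓ : ℕ) : O) + 1) := by
    rw [map_sub, ← MvPolynomial.algebraMap_eq, AlgHom.commutes]
  have hd' : (⟨_, hmem⟩ : A)
      = (⟨_, hX⟩ : A) - algebraMap O A (((ℓ : ℕ) : O) + 1) := Subtype.ext hd
  refine (congrArg ρ hd').trans ((map_sub ρ _ _).trans ?_)
  rw [AlgHom.commutes, heq, map_add, map_natCast, map_one]
  ring

/-- Complex numbers which are the images of given elements under an embedding of a subfield of `K`
generate a subring mapping back to `K`. -/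
theorem exists_subring_lift {K : Type} [Field K] [CharZero K] {L : IntermediateField ℚ K}
    (σ : L →+* ℂ) {p : ℕ → Prop} {a : ℕ → ℂ} {v : ℕ → L} (h : ∀ n, p n → a n = σ (v n)) :
    ∃ (R : Subring ℂ) (hR : ∀ n, p n → a n ∈ R) (ι : R →+* K),
      ∀ (n : ℕ) (hn : p n), ι ⟨_, hR n hn⟩ = v n := by
  let ev := (RingEquiv.ofBijective σ.rangeRestrict
    ⟨fun a b h => σ.injective (congrArg Subtype.val h), σ.rangeRestrict_surjective⟩)
  refine ⟨σ.range, fun n hn => ⟨v n, (h n hn).symm⟩, (L.val : L →+* K).comp ev.symm.toRingHom,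
    fun n hn => congrArg Subtype.val (ev.symm_apply_eq.2 (Subtype.ext (h n hn)))⟩

/-- **Newforms at points.** -/
theorem exists_newform_of_point (A : Subalgebra O (Module.End O (LocM m (HMod M H O))))
    (hcomm : ∀ x ∈ A, ∀ y ∈ A, x * y = y * x)
    (hdia : ∀ δ : Δ, diamond le_top χ hχ hker m δ ∈ A) {D : ℕ} (hD0 : D ≠ 0) (hD : M ∣ D)
    (hX : ∀ ℓ : Nat.Primes, ¬ (ℓ : ℕ) ∣ D →
      Algebra.lsmul O O (LocM m (HMod M H O)) (MvPolynomial.X ℓ : HeckePoly O) ∈ A)
    (e : ℕ) (he : ∀ δ : Δ, δ ^ (2 * e) = δ) {s : Finset ℕ}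
    (hs : ∀ q ∈ s, q.Prime ∧ q ∣ M ∧ ¬ q * q ∣ M)
    (hfac : ∀ u : (ZMod M)ˣ,
      (∀ q ∈ s, ∀ hq : q ∣ M, ZMod.castHom hq (ZMod q) (u : ZMod M) = 1) → u ∈ H)
    (h0 : ∃ ℓ₀ : Nat.Primes, ¬ (ℓ₀ : ℕ) ∣ D ∧ ((ℓ₀ : ℕ) : ZMod (M * ∏ q ∈ s, q)) = 1 ∧
      (MvPolynomial.X ℓ₀ - MvPolynomial.C (((ℓ₀ : ℕ) : O) + 1) : HeckePoly O) ∉ m)
    {K : Type} [Field K] [CharZero K] [Algebra O K] [FaithfulSMul O K] (ρ : A →ₐ[O] K) :
    ∃ (M' : ℕ) (_ : NeZero M') (g : CuspForm (Gamma0 M') 2), M' ∣ M * ∏ q ∈ s, q ∧ g.IsNewform ∧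
      (∃ (R : Subring ℂ)
        (hR : ∀ ℓ : ℕ, ℓ.Prime → ¬ ℓ ∣ D → ModularFormClass.qCoeff ⇑g ℓ ∈ R) (ι : R →+* K),
        ∀ (ℓ : ℕ) (hℓ : ℓ.Prime) (hℓD : ¬ ℓ ∣ D), ι ⟨_, hR ℓ hℓ hℓD⟩
          = ρ ⟨diamond le_top χ hχ hker m (classOf χ (unitAt M ℓ) ^ e), hdia _⟩ *
            ρ ⟨_, hX ⟨ℓ, hℓ⟩ hℓD⟩) ∧
      ∀ q ∈ s,
        ((∀ u : (ZMod M)ˣ, (∀ x ∈ s, x ≠ q → ∀ hx : x ∣ M,
            ZMod.castHom hx (ZMod x) (u : ZMod M) = 1) →
            ρ ⟨diamond le_top χ hχ hker m (classOf χ u), hdia _⟩ = 1) →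
          M'.factorization q ≤ 1) ∧
        ((∃ u : (ZMod M)ˣ, (∀ x ∈ s, x ≠ q → ∀ hx : x ∣ M,
            ZMod.castHom hx (ZMod x) (u : ZMod M) = 1) ∧
            ρ ⟨diamond le_top χ hχ hker m (classOf χ u), hdia _⟩ ≠ 1) →
          M'.factorization q = 2) := by
  classical
  obtain ⟨φ, hφ0, hφd, hφT, hφu⟩ := exists_class χ hχ hker m A hcomm hdia hX ρ
  set h := e - 1
  have hhe : ∀ δ : Δ, δ ^ (2 * h + 1) = 1 ∧ δ⁻¹ ^ h = δ ^ e := pow_two_mul_pred_succ he
  let dA : Δ →* A :=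
    { toFun := fun δ => ⟨diamond le_top χ hχ hker m δ, hdia δ⟩
      map_one' := Subtype.ext (map_one _)
      map_mul' := fun a b => Subtype.ext (map_mul _ a b) }
  let cl : (ZMod M)ˣ →* Δ := χ.comp Subgroup.topEquiv.symm.toMonoidHom
  have hcl : ∀ u, cl u = classOf χ u := fun _ => rfl
  let ωu : (ZMod M)ˣ →* K :=
    ((ρ : A →+* K).toMonoidHom.comp (dA.comp cl)).comp invMonoidHom
  let ω : ZMod M →* K := (MulChar.ofUnitHom ωu.toHomUnits).toMonoidHom
  have hω : ∀ u : (ZMod M)ˣ, ω u = ρ (dA (classOf χ u⁻¹)) := fun u => by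
    show MulChar.ofUnitHom ωu.toHomUnits (u : ZMod M) = _
    rw [MulChar.ofUnitHom_coe]
    rfl
  have hωchi : IsChiHom ω φ := isChiHom_iff_conjSystem.2 fun δ => by
    rw [hφd δ, hω, inv_inv]
    rfl
  set lam : ℕ → K := fun ℓ => if hℓ : ℓ.Prime ∧ ¬ ℓ ∣ D then ρ ⟨_, hX ⟨ℓ, hℓ.1⟩ hℓ.2⟩ else 0
    with hlamdef
  have hlam : ∀ (ℓ : ℕ) (hℓ : ℓ.Prime) (hn : ¬ ℓ ∣ D), lam ℓ = ρ ⟨_, hX ⟨ℓ, hℓ⟩ hn⟩ :=
    fun ℓ hℓ hn => dif_pos ⟨hℓ, hn⟩
  -- a countable field of definition
  obtain ⟨γ₀, hγ₀⟩ : ∃ γ, φ γ ≠ 0 := by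
    by_contra hcon
    push Not at hcon
    exact hφ0 (AddMonoidHom.ext hcon)
  obtain ⟨L, σ, tr, hL, htr, htr₀⟩ := exists_complex_functional
    (Set.countable_range (Sum.elim lam ω)) hγ₀
  have hmemω : ∀ z, ω z ∈ L := fun z => hL ⟨Sum.inr z, rfl⟩
  have hmeml : ∀ ℓ, lam ℓ ∈ L := fun ℓ => hL ⟨Sum.inl ℓ, rfl⟩
  let ωc : ZMod M →* ℂ :=
    { toFun := fun z => σ ⟨ω z, hmemω z⟩
      map_one' := (congrArg σ (Subtype.ext (map_one ω) : (⟨ω 1, _⟩ : L) = 1)).trans (map_one σ)
      map_mul' := fun a b => (congrArg σ (Subtype.ext (map_mul ω a b) :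
        (⟨ω (a * b), _⟩ : L) = ⟨ω a, hmemω a⟩ * ⟨ω b, hmemω b⟩)).trans (map_mul σ _ _) }
  have hωc : ∀ u : (ZMod M)ˣ, ωc u = 1 ↔ ρ (dA (classOf χ u⁻¹)) = 1 := fun u => by
    show σ ⟨ω u, hmemω u⟩ = 1 ↔ _
    rw [map_eq_one_iff σ σ.injective, Subtype.ext_iff, ← hω]
    rfl
  obtain ⟨⟨ℓ₀, hℓ₀p⟩, hℓ₀D, hℓ₀1, hℓ₀m⟩ := h0
  have := Fact.mk hℓ₀p
  have hlam₀ : lam ℓ₀ ≠ 1 + ℓ₀ := by
    rw [hlam ℓ₀ hℓ₀p hℓ₀D]
    exact rho_X_ne_one_add m A ρ hφu (hX ⟨ℓ₀, hℓ₀p⟩ hℓ₀D) hℓ₀m
  have hfacc : FactorsThrough s ωc := fun u hu => (hωc u).2 (by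
    have : classOf χ u⁻¹ = 1 := (hker ⟨u⁻¹, trivial⟩).1 (inv_mem (hfac u hu))
    rw [this, map_one, map_one])
  have hordc : ∀ u : (ZMod M)ˣ, ωc u ^ (2 * h + 1) = 1 := fun u => by
    rw [← map_pow, ← Units.val_pow_eq_pow_val, hωc,
      show classOf χ (u ^ (2 * h + 1))⁻¹ = classOf χ u⁻¹ ^ (2 * h + 1) by
        rw [← hcl, ← hcl, ← inv_pow, map_pow],
      (hhe _).1, map_one, map_one]
  have hchic : IsChiHom ωc (tr.comp φ) := fun g γ => by
    rw [AddMonoidHom.comp_apply, AddMonoidHom.comp_apply, hωchi g γ, smul_eq_mul, smul_eq_mul]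
    exact htr ⟨ω _, hmemω _⟩ _
  have hne : tr.comp φ ≠ 0 := fun h => htr₀ (DFunLike.congr_fun h γ₀)
  obtain ⟨M', hM0, g, hM', hg, hgl, hexp⟩ := exists_newform_of_class h hs hordc hfacc hchic hne
    hD0 hD (fun ℓ => σ ⟨lam ℓ, hmeml ℓ⟩) (fun ℓ hℓ hn => by
      rw [← HeckeLattice.CosetSystem.comp_transfer, hφT ℓ hn]
      refine AddMonoidHom.ext fun γ => ?_
      rw [AddMonoidHom.comp_apply, AddMonoidHom.smul_apply, AddMonoidHom.smul_apply, smul_eq_mul,
        smul_eq_mul, AddMonoidHom.comp_apply, ← hlam ℓ hℓ.out hn]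
      exact htr ⟨lam ℓ, hmeml ℓ⟩ _)
    ⟨ℓ₀, hℓ₀p, hℓ₀D, hℓ₀1, fun heq => hlam₀ (by
      have h1 : σ ⟨lam ℓ₀, hmeml ℓ₀⟩ = σ (1 + ℓ₀) := by rw [heq, map_add, map_one, map_natCast]
      simpa using congrArg (fun z : L => (z : K)) (σ.injective h1))⟩
  refine ⟨M', hM0, g, hM', hg, ?_, fun q hq => ?_⟩
  · obtain ⟨R, hR, ι, hι⟩ := exists_subring_lift σ (p := fun ℓ => ℓ.Prime ∧ ¬ ℓ ∣ D)
      (a := fun ℓ => ModularFormClass.qCoeff ⇑g ℓ)
      (v := fun ℓ => ⟨ω (ℓ : ZMod M), hmemω _⟩ ^ h * ⟨lam ℓ, hmeml ℓ⟩) fun ℓ hℓ => by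
        rw [hgl ℓ hℓ.1 hℓ.2, map_mul, map_pow]
        rfl
    refine ⟨R, fun ℓ hℓ hn => hR ℓ ⟨hℓ, hn⟩, ι, fun ℓ hℓ hn => ?_⟩
    have hu : ω (ℓ : ZMod M) ^ h = ρ (dA (classOf χ (unitAt M ℓ) ^ e)) := by
      rw [← coe_unitAt M hℓ fun hd => hn (hd.trans hD), hω, ← map_pow, ← map_pow,
        ← hcl, map_inv, hcl, (hhe _).2]
    rw [hι ℓ ⟨hℓ, hn⟩]
    push_cast
    rw [hu, hlam ℓ hℓ hn]
    rfl
  · have hinv : ∀ (u : (ZMod M)ˣ) {x : ℕ} (hx : x ∣ M),
        ZMod.castHom hx (ZMod x) (u : ZMod M) = 1 →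
          ZMod.castHom hx (ZMod x) ((u⁻¹ : (ZMod M)ˣ) : ZMod M) = 1 := fun u x hx hu => by
      have := congrArg (fun z : ZMod M => ZMod.castHom hx (ZMod x) z) u.mul_inv
      simp only [map_mul, map_one, hu, one_mul] at this
      exact this
    refine ⟨fun ht => (hexp q hq).1 fun u hu => (hωc u).2
      (ht u⁻¹ fun x hx hxq hxM => hinv u hxM (hu x hx hxq hxM)), fun ⟨u, hu, hne'⟩ =>
      (hexp q hq).2 fun ht => hne' ?_⟩
    have := (hωc u⁻¹).1 (ht u⁻¹ fun x hx hxq hxM => hinv u hxM (hu x hx hxq hxM))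
    rwa [inv_inv] at this

end Fermat.Agent.HeckeCohom
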