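import Fermat.Agent.HeckeCohom.TwistAll
import Fermat.Agent.GroupH1.TW
import Mathlib.NumberTheory.DirichletCharacter.Orthogonality
import Mathlib.FieldTheory.IsAlgClosed.AlgebraicClosure
import Mathlib.RingTheory.RootsOfUnity.AlgebraicallyClosed

/-!
# Twisted Hecke operators satisfy the relations of `heckeAlgebra (M ∏ s)`

Let `H ≤ (ZMod M)ˣ` have quotient `Δ` of exponent dividing `2 h + 1`, depending only on the
residues modulo primes `s` dividing `M` exactly once. Every relation between the `T_ℓ`, `ℓ ∉ S`, in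
the Hecke algebra of `S₂(Γ₀(M ∏ s))` holds between the operators `⟨ℓ⟩^(-1/2) T_ℓ` on
`Hom(Γ_H(M), O)` after applying `T_{ℓ₀} - (ℓ₀ + 1)`, `ℓ₀ ≡ 1 (mod M ∏ s)`.
-/

set_option autoImplicit false

noncomputable section

open Matrix CongruenceSubgroup
open scoped MatrixGroups

namespace Fermat.Agent.HeckeCohom

open Fermat.Agent.GroupH1 (GammaH GammaH_mono heckeSystem HMod HeckePoly toH primeOf X_smul_toH
  C_smul deckLin deckLin_toH DeckData deckDataGammaH heckePair resHom resHom_apply DoubleSystem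
  upperLeft coe_upperLeft)
open Fermat.Agent.HeckeLattice (toGL)

/-- The transfer of a deck transformation is evaluation at the conjugate. -/
lemma conjSystem_transfer_apply {Γ' Γ : Subgroup SL(2, ℤ)} {Δ : Type*} [CommGroup Δ]
    (P : DeckData Γ' Γ Δ) (δ : Δ) {B : Type*} [AddCommGroup B] (φ : Additive Γ' →+ B) (γ : Γ') :
    (P.conjSystem δ).transfer φ (Additive.ofMul γ)
      = φ (Additive.ofMul ⟨_, P.conj_mem δ γ.2⟩) := by
  rw [DoubleSystem.transfer_apply, Fintype.sum_unique]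
  exact congrArg (fun g => φ (Additive.ofMul g))
    ((P.conjSystem δ).eq_of_rep_mul (x := default) (y := default)
      (by simp [DeckData.conjSystem, toGL])).2

/-- If `δ ^ (2 e) = δ` for all `δ`, then `Δ` has exponent dividing `2 (e - 1) + 1` and
`δ⁻¹ ^ (e - 1) = δ ^ e`. -/
lemma pow_two_mul_pred_succ {Δ : Type*} [CommGroup Δ] {e : ℕ} (he : ∀ δ : Δ, δ ^ (2 * e) = δ)
    (δ : Δ) : δ ^ (2 * (e - 1) + 1) = 1 ∧ δ⁻¹ ^ (e - 1) = δ ^ e := by
  rcases Nat.eq_zero_or_pos e with h0 | h0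
  · obtain rfl : δ = 1 := by rw [← he δ, h0, mul_zero, pow_zero]
    simp
  · have h1 : δ ^ (2 * (e - 1) + 1) = 1 := by
      refine mul_right_cancel (b := δ) ?_
      rw [← pow_succ, show 2 * (e - 1) + 1 + 1 = 2 * e by omega, he, one_mul]
    refine ⟨h1, inv_pow δ (e - 1) ▸ inv_eq_of_mul_eq_one_left ?_⟩
    rw [← pow_add, show e + (e - 1) = 2 * (e - 1) + 1 by omega, h1]

section G1level

variable (M : ℕ) [NeZero M]

/-- `ℓ` as a unit mod `M` (or `1`). -/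
def unitAt (ℓ : ℕ) : (ZMod M)ˣ := if h : ℓ.Coprime M then ZMod.unitOfCoprime ℓ h else 1

omit [NeZero M] in
/-- Away from the level `unitAt M ℓ` is `ℓ`. -/
lemma coe_unitAt {ℓ : ℕ} (hℓ : ℓ.Prime) (h : ¬ ℓ ∣ M) :
    (unitAt M ℓ : ZMod M) = (ℓ : ZMod M) := by
  rw [unitAt, dif_pos (hℓ.coprime_iff_not_dvd.2 h), ZMod.coe_unitOfCoprime]

variable (h : ℕ) (R : Type*) [CommRing R] {B : Type*} [AddCommGroup B] [Module R B]

/-- `⟨ℓ⟩^(-1/2) T_ℓ` on homomorphisms of `Γ₁(M)`. -/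
def twOp (ℓ : ℕ) [Fact ℓ.Prime] : Module.End R (Additive (G1 M) →+ B) :=
  ((deckG1 M).conjSystem ((unitAt M ℓ)⁻¹ ^ h)).transferₗ R ∘ₗ
    (GroupH1.toDouble (heckeSystem M ⊥ ℓ)).transferₗ R

lemma twOp_apply (ℓ : ℕ) [Fact ℓ.Prime] (φ : Additive (G1 M) →+ B) :
    twOp M h R ℓ φ = ((deckG1 M).conjSystem ((unitAt M ℓ)⁻¹ ^ h)).transfer
      ((heckeSystem M ⊥ ℓ).transfer φ) := by
  simp [twOp, GroupH1.transfer_toDouble]

variable (S : Set ℕ)

/-- Words in the twisted operators. -/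
def twWord : FreeAlgebra ℤ (OpIdx S) →ₐ[ℤ] Module.End R (Additive (G1 M) →+ B) :=
  FreeAlgebra.lift ℤ fun ℓ => haveI : Fact (ℓ.1 : ℕ).Prime := ⟨ℓ.1.2⟩; twOp M h R (ℓ.1 : ℕ)

variable {M h R S}

/-- On a `χ`-homomorphism `twOp` is `χ(ℓ)^h T_ℓ`. -/
lemma twOp_of_isChiHom {χ : ZMod M →* R} {φ : Additive (G1 M) →+ B} (hφ : IsChiHom χ φ) {ℓ : ℕ}
    [Fact ℓ.Prime] (hℓ : ¬ ℓ ∣ M) :
    twOp M h R ℓ φ = χ (ℓ : ZMod M) ^ h • (heckeSystem M ⊥ ℓ).transfer φ := by
  rw [twOp_apply, isChiHom_iff_conjSystem.1 (hφ.transfer ℓ), inv_pow, inv_inv,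
    Units.val_pow_eq_pow_val, map_pow, coe_unitAt M Fact.out hℓ]

omit [NeZero M] [Module R B] in
lemma sum_transfer_comm {ι : Type*} (s : Finset ι) (ℓ : ℕ) [Fact ℓ.Prime]
    (f : ι → Additive (G1 M) →+ B) :
    (heckeSystem M ⊥ ℓ).transfer (∑ i ∈ s, f i) = ∑ i ∈ s, (heckeSystem M ⊥ ℓ).transfer (f i) :=
  map_sum _ _ _

omit [NeZero M] in
/-- Scalar multiples of homomorphisms with character `χ` have character `χ`. -/
lemma IsChiHom.smul' {χ : ZMod M →* R} {φ : Additive (G1 M) →+ B} (hφ : IsChiHom χ φ) (r : R) :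
    IsChiHom χ (r • φ) := fun g γ => by
  rw [AddMonoidHom.smul_apply, AddMonoidHom.smul_apply, hφ g γ, smul_comm]

end G1level

section field

variable {M : ℕ} [NeZero M] {h : ℕ} {S : Set ℕ} {K : Type*} [Field K] [CharZero K]

/-- On a `χ`-part: relations at level `M ∏ s` kill `T_{ℓ₀} - (1 + ℓ₀)`. -/
theorem twWord_eq_zero_of_isChiHom {s : Finset ℕ} {M' : ℕ} [NeZero M']
    (hM' : M' = M * ∏ q ∈ s, q) (hs : ∀ q ∈ s, q.Prime ∧ q ∣ M ∧ ¬ q * q ∣ M)
    (hS : ∀ ℓ : ℕ, ℓ.Prime → ℓ ∣ M → ℓ ∈ S) {P : FreeAlgebra ℤ (OpIdx S)}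
    (hP : wordEval M' S P = 0) {χ : ZMod M →* K}
    (hord : ∀ u : (ZMod M)ˣ, χ u ^ (2 * h + 1) = 1) (hfac : FactorsThrough s χ)
    {φ : Additive (G1 M) →+ K} (hφ : IsChiHom χ φ) {ℓ₀ : ℕ} [Fact ℓ₀.Prime]
    (h1 : (ℓ₀ : ZMod M') = 1) :
    twWord M h K S P ((heckeSystem M ⊥ ℓ₀).transfer φ - ((1 + ℓ₀ : ℤ) : K) • φ) = 0 := by
  obtain ⟨Φ, hΦ⟩ := exists_twistMap h s M M' hM' χ hs hord hfac
  have key : ∀ (P : FreeAlgebra ℤ (OpIdx S)) (ψ : Additive (G1 M) →+ K), IsChiHom χ ψ →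
      IsChiHom χ (twWord M h K S P ψ) ∧
        Φ (twWord M h K S P ψ) = wordAct M' S K P (Φ ψ) := by
    intro P
    induction P using FreeAlgebra.induction with
    | grade0 r =>
      intro ψ hψ
      rw [AlgHom.commutes, AlgHom.commutes, Module.algebraMap_end_apply,
        Module.algebraMap_end_apply, map_zsmul, ← Int.cast_smul_eq_zsmul K]
      exact ⟨hψ.smul' _, rfl⟩
    | grade1 ℓ =>
      intro ψ hψ
      have := Fact.mk ℓ.1.2
      have hℓM : ¬ (ℓ.1 : ℕ) ∣ M := fun e => ℓ.2 (hS _ ℓ.1.2 e)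
      rw [show twWord M h K S (FreeAlgebra.ι ℤ ℓ) = twOp M h K (B := K) (ℓ.1 : ℕ) by
          simp [twWord],
        twOp_of_isChiHom hψ hℓM]
      refine ⟨(hψ.transfer _).smul' _, ?_⟩
      rw [map_smul, ← (hΦ ψ hψ).2 _ hℓM]
      simp [wordAct]
    | add a b ha hb =>
      intro ψ hψ
      obtain ⟨a1, a2⟩ := ha ψ hψ
      obtain ⟨b1, b2⟩ := hb ψ hψ
      simp only [map_add, LinearMap.add_apply, a2, b2, and_true]
      exact fun g γ => by rw [AddMonoidHom.add_apply, AddMonoidHom.add_apply, a1, b1, smul_add]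
    | mul a b ha hb =>
      intro ψ hψ
      obtain ⟨b1, b2⟩ := hb ψ hψ
      obtain ⟨a1, a2⟩ := ha _ b1
      simp only [map_mul, Module.End.mul_apply]
      exact ⟨a1, by rw [a2, b2]⟩
  have hℓM : ¬ ℓ₀ ∣ M := fun e => not_dvd_of_cast_eq_one h1
    (e.trans (hM' ▸ dvd_mul_right M _))
  have h1M : (ℓ₀ : ZMod M) = 1 := by
    have := congrArg (ZMod.castHom (hM' ▸ dvd_mul_right M _ : M ∣ M') (ZMod M)) h1
    rwa [map_natCast, map_one] at this
  have hψ : IsChiHom χ ((heckeSystem M ⊥ ℓ₀).transfer φ - ((1 + ℓ₀ : ℤ) : K) • φ) := fun g γ => by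
    rw [AddMonoidHom.sub_apply, AddMonoidHom.sub_apply, hφ.transfer ℓ₀ g γ,
      (hφ.smul' ((1 + ℓ₀ : ℤ) : K)) g γ, smul_sub]
  obtain ⟨h2, h3⟩ := key P _ hψ
  refine (hΦ _ h2).1 ?_
  rw [h3, map_sub, map_smul, Int.cast_smul_eq_zsmul,
    show Φ ((heckeSystem M ⊥ ℓ₀).transfer φ) = heckeOp M' ℓ₀ Fact.out K (Φ φ) by
      rw [(hΦ φ hφ).2 ℓ₀ hℓM, h1M, map_one, one_pow, one_smul]]
  exact wordAct_heckeOp_sub hP h1 _

variable [IsSepClosed K]

/-- Relations at level `M ∏ s` kill `T_{ℓ₀} - (1 + ℓ₀)` on homomorphisms invariant under `H`. -/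
theorem twWord_eq_zero {s : Finset ℕ} {M' : ℕ} [NeZero M'] (hM' : M' = M * ∏ q ∈ s, q)
    (hs : ∀ q ∈ s, q.Prime ∧ q ∣ M ∧ ¬ q * q ∣ M) (hS : ∀ ℓ : ℕ, ℓ.Prime → ℓ ∣ M → ℓ ∈ S)
    {H : Subgroup (ZMod M)ˣ} (hord : ∀ u : (ZMod M)ˣ, u ^ (2 * h + 1) ∈ H)
    (hfac : ∀ u : (ZMod M)ˣ,
      (∀ q ∈ s, ∀ hq : q ∣ M, ZMod.castHom hq (ZMod q) (u : ZMod M) = 1) → u ∈ H)
    {P : FreeAlgebra ℤ (OpIdx S)} (hP : wordEval M' S P = 0) {φ : Additive (G1 M) →+ K}
    (hinv : ∀ u ∈ H, ((deckG1 M).conjSystem u).transfer φ = φ) {ℓ₀ : ℕ} [Fact ℓ₀.Prime]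
    (h1 : (ℓ₀ : ZMod M') = 1) :
    twWord M h K S P ((heckeSystem M ⊥ ℓ₀).transfer φ - ((1 + ℓ₀ : ℤ) : K) • φ) = 0 := by
  classical
  have : NeZero (Monoid.exponent (ZMod M)ˣ : K) :=
    ⟨Nat.cast_ne_zero.2 Monoid.exponent_ne_zero_of_finite⟩
  let pr : DirichletCharacter K M → Additive (G1 M) →+ K := fun ω =>
    ∑ u : (ZMod M)ˣ, ω (u : ZMod M) • ((deckG1 M).conjSystem u).transfer φ
  have hpr : ∀ ω (v : (ZMod M)ˣ), ((deckG1 M).conjSystem v).transfer (pr ω)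
      = ω ((v⁻¹ : (ZMod M)ˣ) : ZMod M) • pr ω := by
    intro ω v
    have hlin : ∀ (r : K) (ψ : Additive (G1 M) →+ K), ((deckG1 M).conjSystem v).transfer (r • ψ)
        = r • ((deckG1 M).conjSystem v).transfer ψ :=
      fun r ψ => (((deckG1 M).conjSystem v).transferₗ K).map_smul r ψ
    simp only [pr, map_sum, hlin, DeckData.conj_conj, Finset.smul_sum, smul_smul, ← map_mul,
      ← Units.val_mul]
    exact Fintype.sum_equiv (Equiv.mulRight v) _ _ fun u => by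
      simp [mul_comm u, mul_left_comm]
  have hchi : ∀ ω : DirichletCharacter K M, IsChiHom (ω.toMonoidHom : ZMod M →* K) (pr ω) :=
    fun ω => isChiHom_iff_conjSystem.2 (hpr ω)
  have hsum : ∑ ω : DirichletCharacter K M, pr ω = (M.totient : K) • φ := by
    simp only [pr]
    rw [Finset.sum_comm]
    simp only [← Finset.sum_smul, DirichletCharacter.sum_characters_eq K, ite_smul, zero_smul,
      Units.val_eq_one]
    rw [Finset.sum_ite_eq' Finset.univ (1 : (ZMod M)ˣ), if_pos (Finset.mem_univ _),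
      DeckData.conj_one]
  have hzero : ∀ ω : DirichletCharacter K M,
      twWord M h K S P ((heckeSystem M ⊥ ℓ₀).transfer (pr ω) - ((1 + ℓ₀ : ℤ) : K) • pr ω) = 0 := by
    intro ω
    by_cases htriv : ∀ u ∈ H, ω (u : ZMod M) = 1
    · exact twWord_eq_zero_of_isChiHom hM' hs hS hP (χ := ω.toMonoidHom)
        (fun u => by
          show ω (u : ZMod M) ^ _ = 1
          rw [← map_pow, ← Units.val_pow_eq_pow_val, htriv _ (hord u)])
        (fun u hu => htriv u (hfac u hu)) (hchi ω) h1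
    · push Not at htriv
      obtain ⟨v, hv, hv1⟩ := htriv
      have : pr ω = 0 := by
        have h2 : pr ω = ω (v : ZMod M) • pr ω := by
          simp only [pr, Finset.smul_sum, smul_smul, ← map_mul, ← Units.val_mul]
          refine (Fintype.sum_equiv (Equiv.mulLeft v) _ _ fun u => ?_).symm
          rw [Equiv.coe_mulLeft, ← DeckData.conj_conj, hinv v hv]
        by_contra h0
        exact hv1 ((smul_left_injective K h0) (h2.symm.trans (one_smul K _).symm))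
      rw [this, map_zero, smul_zero, sub_zero, map_zero]
  have htot : (M.totient : K) ≠ 0 := Nat.cast_ne_zero.2 (Nat.totient_pos.2 (NeZero.pos M)).ne'
  refine smul_right_injective (Additive (G1 M) →+ K) htot ?_
  show (M.totient : K) • _ = (M.totient : K) • (0 : Additive (G1 M) →+ K)
  rw [smul_zero, ← map_smul, smul_sub, ← transfer_smul, smul_comm, ← hsum, sum_transfer_comm,
    Finset.smul_sum, ← Finset.sum_sub_distrib, map_sum]
  exact Finset.sum_eq_zero fun ω _ => hzero ω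

end field

section lattice

variable {M : ℕ} [NeZero M] {H : Subgroup (ZMod M)ˣ} {Δ : Type} [CommGroup Δ]
  (χ : (⊤ : Subgroup (ZMod M)ˣ) →* Δ) (hχ : Function.Surjective χ)
  (hker : ∀ u : (⊤ : Subgroup (ZMod M)ˣ), (u : (ZMod M)ˣ) ∈ H ↔ χ u = 1)
  (h : ℕ) {O : Type} [CommRing O]

/-- The class of a unit in `Δ`. -/
def classOf (u : (ZMod M)ˣ) : Δ := χ ⟨u, trivial⟩

/-- `⟨ℓ⟩^(-1/2) T_ℓ` on `Hom(Γ_H(M), O)`. -/
def twistedEnd (ℓ : ℕ) [Fact ℓ.Prime] : Module.End (HeckePoly O) (HMod M H O) :=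
  deckLin le_top χ hχ hker ((classOf χ (unitAt M ℓ))⁻¹ ^ h) *
    ((MvPolynomial.X (primeOf ℓ) : HeckePoly O) • 1)

variable (S : Set ℕ)

/-- Words in the twisted operators on `Hom(Γ_H(M), O)`. -/
def twistedWord : FreeAlgebra ℤ (OpIdx S) →ₐ[ℤ] Module.End (HeckePoly O) (HMod M H O) :=
  FreeAlgebra.lift ℤ fun ℓ =>
    haveI : Fact (ℓ.1 : ℕ).Prime := ⟨ℓ.1.2⟩; twistedEnd χ hχ hker h (ℓ.1 : ℕ)

variable {S} {K : Type*} [Field K] [Algebra O K]

/-- A class as a homomorphism of `Γ₁(M)` to `K`. -/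
def toG1 (x : HMod M H O) : Additive (G1 M) →+ K :=
  (algebraMap O K).toAddMonoidHom.comp (resHom (GammaH_mono bot_le) (toH.symm x))

omit [NeZero M] in
/-- The value of a class restricted to `Γ₁(M)`. -/
lemma toG1_apply (x : HMod M H O) (γ : G1 M) :
    toG1 (K := K) x (Additive.ofMul γ)
      = algebraMap O K (toH.symm x (Additive.ofMul ⟨γ, GammaH_mono bot_le γ.2⟩)) := rfl

omit [NeZero M] in
lemma toG1_add (x y : HMod M H O) : toG1 (K := K) (x + y) = toG1 x + toG1 y := by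
  simp [toG1, AddMonoidHom.comp_add]

omit [NeZero M] in
lemma toG1_zsmul (n : ℤ) (x : HMod M H O) : toG1 (K := K) (n • x) = n • toG1 x :=
  map_zsmul (AddMonoidHom.mk' (toG1 (K := K)) toG1_add) n x

omit [NeZero M] in
lemma toG1_sub (x y : HMod M H O) : toG1 (K := K) (x - y) = toG1 x - toG1 y :=
  map_sub (AddMonoidHom.mk' (toG1 (K := K)) toG1_add) x y

/-- Restriction to `Γ₁(M)` intertwines `T_ℓ`. -/
lemma toG1_X_smul (ℓ : ℕ) [Fact ℓ.Prime] (x : HMod M H O) :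
    toG1 (K := K) ((MvPolynomial.X (primeOf ℓ) : HeckePoly O) • x)
      = (heckeSystem M ⊥ ℓ).transfer (toG1 x) := by
  obtain ⟨φ, rfl⟩ := toH.surjective x
  rw [X_smul_toH]
  rw [toG1, toG1, LinearEquiv.symm_apply_apply, LinearEquiv.symm_apply_apply]
  refine Eq.trans ?_ (HeckeLattice.CosetSystem.comp_transfer _ _ _)
  refine congrArg _ ?_
  -- restriction to `Γ₁(M)` through the deck data of `⊥ ≤ H`
  exact ((heckePair (bot_le : (⊥ : Subgroup (ZMod M)ˣ) ≤ H) (MonoidHom.id H)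
    Function.surjective_id (fun u => by simp [Subgroup.mem_bot]) ℓ).transfer_res φ).symm

/-- Restriction to `Γ₁(M)` intertwines the diamond operators. -/
lemma toG1_deck (u : (ZMod M)ˣ) (x : HMod M H O) :
    ((deckG1 M).conjSystem u).transfer (toG1 (K := K) x)
      = toG1 (deckLin le_top χ hχ hker (classOf χ u) x) := by
  obtain ⟨φ, rfl⟩ := toH.surjective x
  refine AddMonoidHom.ext fun γ => ?_
  rw [← ofMul_toMul γ, conjSystem_transfer_apply, toG1_apply, toG1_apply, deckLin_toH,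
    LinearEquiv.symm_apply_apply, LinearEquiv.symm_apply_apply, conjSystem_transfer_apply]
  refine congrArg (algebraMap O K) ?_
  set P := deckDataGammaH (le_top : H ≤ ⊤) χ hχ hker
  set s₁ := (deckG1 M).sec u
  set s₂ := P.sec (classOf χ u)
  have ht : ((s₁ * s₂⁻¹ : GammaH M (⊤ : Subgroup (ZMod M)ˣ)) : SL(2, ℤ)) ∈ GammaH M H := by
    refine (P.mem_iff _).2 ?_
    rw [map_mul, map_inv, P.χ_sec, mul_inv_eq_one]
    show χ (upperLeft M ⊤ s₁) = χ ⟨u, trivial⟩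
    exact congrArg χ (Subtype.ext ((deckG1 M).χ_sec u))
  set t : GammaH M H := ⟨_, ht⟩
  set c : GammaH M H := ⟨_, P.conj_mem (classOf χ u)
    (GammaH_mono (bot_le : (⊥ : Subgroup (ZMod M)ˣ) ≤ H) (Additive.toMul γ).2)⟩
  rw [show (⟨_, GammaH_mono bot_le (⟨_, (deckG1 M).conj_mem u (Additive.toMul γ).2⟩ : G1 M).2⟩ :
      GammaH M H) = t * c * t⁻¹ from Subtype.ext (by
        simp only [t, c, s₁, s₂, P, Subgroup.coe_mul, Subgroup.coe_inv]; group),
    ofMul_mul, ofMul_mul, ofMul_inv, map_add, map_add, map_neg]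
  abel

/-- `toG1` is injective. -/
lemma toG1_eq_zero [CharZero K] [FaithfulSMul O K]
    {x : HMod M H O} (hx : toG1 (K := K) x = 0) : x = 0 := by
  obtain ⟨φ, rfl⟩ := toH.surjective x
  refine (map_eq_zero_iff _ toH.injective).2 (AddMonoidHom.ext fun δ => ?_)
  rw [← ofMul_toMul δ]
  obtain ⟨n, hn, -, hnmem⟩ := Subgroup.exists_pow_mem_of_index_ne_zero
    (GammaH M (⊥ : Subgroup (ZMod M)ˣ)).index_ne_zero_of_finite
    ((Additive.toMul δ : GammaH M H) : SL(2, ℤ))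
  have h1 := DFunLike.congr_fun hx (Additive.ofMul (⟨_, hnmem⟩ : G1 M))
  rw [toG1_apply, LinearEquiv.symm_apply_apply,
    show (⟨_, GammaH_mono bot_le (⟨_, hnmem⟩ : G1 M).2⟩ : GammaH M H) = Additive.toMul δ ^ n from
      Subtype.ext rfl, ofMul_pow, map_nsmul, map_nsmul, AddMonoidHom.zero_apply] at h1
  have h2 : algebraMap O K (φ (Additive.ofMul (Additive.toMul δ))) = 0 :=
    (nsmul_eq_zero_iff.1 h1).resolve_right (Nat.pos_iff_ne_zero.1 hn)
  exact (map_eq_zero_iff _ (FaithfulSMul.algebraMap_injective O K)).1 h2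

lemma toG1_twistedWord (P : FreeAlgebra ℤ (OpIdx S)) :
    ∀ x : HMod M H O, toG1 (K := K) (twistedWord χ hχ hker h S P x)
      = twWord M h K S P (toG1 x) := by
  induction P using FreeAlgebra.induction with
  | grade0 r =>
    intro x
    rw [AlgHom.commutes, AlgHom.commutes, Module.algebraMap_end_apply,
      Module.algebraMap_end_apply, toG1_zsmul]
  | grade1 ℓ =>
    intro x
    have := Fact.mk ℓ.1.2
    have hc : (classOf χ (unitAt M (ℓ.1 : ℕ)))⁻¹ ^ h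
        = classOf χ ((unitAt M (ℓ.1 : ℕ))⁻¹ ^ h) :=
      (by simp only [classOf, ← map_inv, ← map_pow]; rfl)
    simp only [twistedWord, twWord, FreeAlgebra.lift_ι_apply, twistedEnd, twOp_apply,
      Module.End.mul_apply, LinearMap.smul_apply, Module.End.one_apply, hc, ← toG1_deck,
      toG1_X_smul]
  | add a b ha hb =>
    intro x
    simp only [map_add, LinearMap.add_apply, toG1_add, ha, hb]
  | mul a b ha hb =>
    intro x
    simp only [map_mul, Module.End.mul_apply, ha, hb]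

/-- **Twisted operators satisfy the relations at level `M ∏ s`.** -/
theorem twistedWord_eq_zero [IsDomain O] [CharZero O] {s : Finset ℕ} {M' : ℕ} [NeZero M']
    (hM' : M' = M * ∏ q ∈ s, q) (hs : ∀ q ∈ s, q.Prime ∧ q ∣ M ∧ ¬ q * q ∣ M)
    (hS : ∀ ℓ : ℕ, ℓ.Prime → ℓ ∣ M → ℓ ∈ S) (hord : ∀ δ : Δ, δ ^ (2 * h + 1) = 1)
    (hfac : ∀ u : (ZMod M)ˣ,
      (∀ q ∈ s, ∀ hq : q ∣ M, ZMod.castHom hq (ZMod q) (u : ZMod M) = 1) → u ∈ H)
    {P : FreeAlgebra ℤ (OpIdx S)} (hP : wordEval M' S P = 0) {ℓ₀ : ℕ} [Fact ℓ₀.Prime]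
    (h1 : (ℓ₀ : ZMod M') = 1) (x : HMod M H O) :
    (MvPolynomial.X (primeOf ℓ₀) - MvPolynomial.C ((ℓ₀ : O) + 1) : HeckePoly O) •
      twistedWord χ hχ hker h S P x = 0 := by
  let K := AlgebraicClosure (FractionRing O)
  have hinj : Function.Injective (algebraMap O K) := by
    rw [IsScalarTower.algebraMap_eq O (FractionRing O) K]
    exact (algebraMap (FractionRing O) K).injective.comp (IsFractionRing.injective O _)
  have : FaithfulSMul O K := (faithfulSMul_iff_algebraMap_injective O K).2 hinj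
  have : CharZero K := charZero_of_injective_ringHom hinj
  refine toG1_eq_zero (K := K) ?_
  rw [← map_smul, toG1_twistedWord, sub_smul, toG1_sub, toG1_X_smul, C_smul,
    show ((ℓ₀ : O) + 1) • x = ((1 + ℓ₀ : ℤ) : O) • x by push_cast; rw [add_comm],
    Int.cast_smul_eq_zsmul, toG1_zsmul, ← Int.cast_smul_eq_zsmul K]
  refine twWord_eq_zero hM' hs hS (H := H) (fun u => (hker ⟨_, trivial⟩).2 ?_) hfac hP
    (fun u hu => ?_) h1
  · exact (map_pow χ ⟨u, trivial⟩ _).trans (hord _)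
  · rw [toG1_deck χ hχ hker, show classOf χ u = 1 from (hker ⟨u, trivial⟩).1 hu]
    obtain ⟨φ, rfl⟩ := toH.surjective x
    rw [deckLin_toH, DeckData.conj_one]

end lattice

end Fermat.Agent.HeckeCohom
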