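import Fermat.Agent.HeckeCohom.LocalLift
import Fermat.Agent.HeckeCohom.TwistRelations

/-!
# `heckeLocal` at level `M ∏ s` acts on the localised `Hom(Γ_H(M), O)` through twisted operators

The operators `⟨ℓ⟩^(-1/2) T_ℓ` on `Hom(Γ_H(M), O)_m` make it a module over the local Hecke algebra
of `Γ₀(M ∏ s)`, so their `O`-algebra is a quotient of that local ring.
-/

set_option autoImplicit false

noncomputable section

open IsLocalRing CuspForm CongruenceSubgroup
open scoped MatrixGroups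

namespace Fermat.Agent.HeckeCohom

open Fermat.Agent.GroupH1 (GammaH HMod HeckePoly toH primeOf deckLin diamond diamond_toLocM LocM
  toLocM toLocM_surjective mapLocM mapLocM_toLocM smul_locM_eq_zero exists_toLocM_inv finite_locM)

variable {M : ℕ} [NeZero M] {H : Subgroup (ZMod M)ˣ} {Δ : Type} [CommGroup Δ]
  (χ : (⊤ : Subgroup (ZMod M)ˣ) →* Δ) (hχ : Function.Surjective χ)
  (hker : ∀ u : (⊤ : Subgroup (ZMod M)ˣ), (u : (ZMod M)ˣ) ∈ H ↔ χ u = 1)
  {O : Type} [CommRing O] [IsDomain O] [IsDiscreteValuationRing O]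
  [IsAdicComplete (maximalIdeal O) O] (m : Ideal (HeckePoly O)) [m.IsMaximal]

/-- The `O`-algebra of all Hecke operators and diamonds on the localisation. -/
def heckeDiamondAlgebra : Subalgebra O (Module.End O (LocM m (HMod M H O))) :=
  Algebra.adjoin O (Set.range (diamond le_top χ hχ hker m) ∪
    Set.range (Algebra.lsmul O O (LocM m (HMod M H O)) : HeckePoly O → _))

omit [IsDomain O] [IsDiscreteValuationRing O] [IsAdicComplete (maximalIdeal O) O] in
/-- Diamond operators commute with the Hecke operators. -/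
lemma commute_diamond_lsmul (δ : Δ) (a : HeckePoly O) :
    Commute (diamond le_top χ hχ hker m δ) (Algebra.lsmul O O (LocM m (HMod M H O)) a) :=
  LinearMap.ext fun x => map_smul (mapLocM m (deckLin le_top χ hχ hker δ)) a x

omit [IsDomain O] [IsDiscreteValuationRing O] [IsAdicComplete (maximalIdeal O) O] in
lemma heckeDiamondAlgebra_comm :
    ∀ x ∈ heckeDiamondAlgebra χ hχ hker (O := O) m, ∀ y ∈ heckeDiamondAlgebra χ hχ hker (O := O) m,
      x * y = y * x := by
  have := Algebra.isMulCommutative_adjoin O (A := Module.End O (LocM m (HMod M H O)))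
    (s := Set.range (diamond le_top χ hχ hker m) ∪
      Set.range (Algebra.lsmul O O (LocM m (HMod M H O)) : HeckePoly O → _)) (by
    rintro _ (⟨δ, rfl⟩ | ⟨a, rfl⟩) _ (⟨ε, rfl⟩ | ⟨b, rfl⟩)
    · rw [← map_mul, mul_comm, map_mul]
    · exact commute_diamond_lsmul χ hχ hker m δ b
    · exact (commute_diamond_lsmul χ hχ hker m ε a).symm
    · rw [← map_mul, mul_comm, map_mul])
  intro x hx y hy
  exact congrArg Subtype.val (mul_comm' (⟨x, hx⟩ : Algebra.adjoin O _) ⟨y, hy⟩)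

omit [IsAdicComplete (maximalIdeal O) O] in
/-- Diamonds of a `p`-group are residually unipotent. -/
lemma isResNilp_diamond_sub_one {p : ℕ} [Fact p.Prime] (hp : (p : O) ∈ maximalIdeal O)
    (hΔ : IsPGroup p Δ) (δ : Δ) : IsResNilp (diamond (O := O) le_top χ hχ hker m δ - 1) := by
  obtain ⟨k, hk⟩ := hΔ δ
  set D := diamond (O := O) le_top χ hχ hker m δ
  refine ⟨p ^ k, fun w => ?_⟩
  have h := (Commute.one_right (D - 1)).add_pow_prime_pow_eq (Fact.out : p.Prime) k
  rw [sub_add_cancel, ← map_pow, hk, map_one, one_pow] at h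
  obtain ⟨Z, hZ⟩ : ∃ Z, (D - 1) ^ p ^ k + (p : Module.End O (LocM m (HMod M H O))) * Z = 0 := by
    simp only [mul_assoc (p : Module.End O (LocM m (HMod M H O)))] at h
    exact ⟨_, add_left_cancel (a := (1 : Module.End O _))
      (by rw [add_zero, ← add_assoc, add_comm 1]; exact h.symm)⟩
  rw [eq_neg_of_add_eq_zero_left hZ, LinearMap.neg_apply, Module.End.mul_apply,
    Module.End.natCast_apply, ← Nat.cast_smul_eq_nsmul O]
  exact neg_mem (Submodule.smul_mem_smul hp trivial)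

/-- **The twisted local Hecke action.** For `e` with `δ^(2e) = δ` on `Δ`, the local Hecke algebra
of level `M ∏ s` acts on `Hom(Γ_H(M), O)_m` with `T_ℓ` acting as `⟨χ ℓ⟩^e T_ℓ`. -/
theorem exists_twistedLocalAct {p : ℕ} [Fact p.Prime] (hp : (p : O) ∈ maximalIdeal O) [CharZero O]
    (hΔ : IsPGroup p Δ) (e : ℕ) (he : ∀ δ : Δ, δ ^ (2 * e) = δ)
    {s : Finset ℕ} {M' : ℕ} [NeZero M'] (hM' : M' = M * ∏ q ∈ s, q)
    (hs : ∀ q ∈ s, q.Prime ∧ q ∣ M ∧ ¬ q * q ∣ M)
    (hfac : ∀ u : (ZMod M)ˣ,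
      (∀ q ∈ s, ∀ hq : q ∣ M, ZMod.castHom hq (ZMod q) (u : ZMod M) = 1) → u ∈ H)
    {S : Set ℕ} (hS : ∀ ℓ : ℕ, ℓ.Prime → ℓ ∣ M → ℓ ∈ S)
    (θ : heckeAlgebra M' 2 S →+* ResidueField O)
    (hθ : ∀ (ℓ : ℕ) (hℓ : ℓ.Prime) (hℓN : ¬ ℓ ∣ M') (hℓS : ℓ ∉ S), ∃ c : O,
      residue O c = θ (heckeAlgebra.T hℓ hℓN hℓS) ∧
        (MvPolynomial.X ⟨ℓ, hℓ⟩ - MvPolynomial.C c : HeckePoly O) ∈ m)
    (h0 : ∃ ℓ₀ : Nat.Primes, ((ℓ₀ : ℕ) : ZMod M') = 1 ∧
      (MvPolynomial.X ℓ₀ - MvPolynomial.C (((ℓ₀ : ℕ) : O) + 1) : HeckePoly O) ∉ m) :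
    ∃ act : heckeLocal M' S O θ →ₐ[O] Module.End O (LocM m (HMod M H O)),
      (∀ x, act x ∈ heckeDiamondAlgebra χ hχ hker (O := O) m) ∧
      ∀ (ℓ : ℕ) (hℓ : ℓ.Prime) (hℓN : ¬ ℓ ∣ M') (hℓS : ℓ ∉ S) (x : LocM m (HMod M H O)),
        act (heckeLocal.π M' S O θ (heckeAlgebra.T hℓ hℓN hℓS)) x =
          diamond le_top χ hχ hker m (classOf χ (unitAt M ℓ) ^ e)
            ((MvPolynomial.X ⟨ℓ, hℓ⟩ : HeckePoly O) • x) := by
  classical
  set h := e - 1
  have hhe : ∀ δ : Δ, δ ^ (2 * h + 1) = 1 ∧ δ⁻¹ ^ h = δ ^ e := pow_two_mul_pred_succ he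
  have hWfin : Module.Finite O (LocM m (HMod M H O)) := finite_locM m
  have hdvd : M ∣ M' := hM' ▸ dvd_mul_right M _
  have hS' : ∀ ℓ : ℕ, ℓ.Prime → ℓ ∣ M' → ℓ ∈ S := fun ℓ hℓ hd => by
    rcases hℓ.dvd_mul.1 (hM' ▸ hd) with h1 | h1
    · exact hS ℓ hℓ h1
    · obtain ⟨q, hq, hq'⟩ := (hℓ.prime.dvd_finsetProd_iff _).1 h1
      obtain rfl := (Nat.prime_dvd_prime_iff_eq hℓ (hs q hq).1).1 hq'
      exact hS ℓ hℓ (hs ℓ hq).2.1
  let f : FreeAlgebra ℤ (OpIdx S) →ₐ[ℤ] Module.End O (LocM m (HMod M H O)) :=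
    FreeAlgebra.lift ℤ fun i => haveI : Fact (i.1 : ℕ).Prime := ⟨i.1.2⟩
      (mapLocM m (twistedEnd χ hχ hker h (i.1 : ℕ))).restrictScalars O
  have hfι : ∀ i : OpIdx S, f (FreeAlgebra.ι ℤ i) =
      diamond le_top χ hχ hker m (classOf χ (unitAt M i.1) ^ e) *
        Algebra.lsmul O O (LocM m (HMod M H O)) (MvPolynomial.X i.1 : HeckePoly O) := by
    intro i
    have := Fact.mk i.1.2
    refine LinearMap.ext fun x => ?_
    obtain ⟨v, rfl⟩ := toLocM_surjective O m x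
    rw [show f (FreeAlgebra.ι ℤ i) =
      (mapLocM m (twistedEnd χ hχ hker h (i.1 : ℕ))).restrictScalars O from
        FreeAlgebra.lift_ι_apply _ _, LinearMap.restrictScalars_apply, mapLocM_toLocM,
      Module.End.mul_apply]
    show _ = diamond le_top χ hχ hker m _ ((MvPolynomial.X i.1 : HeckePoly O) • toLocM m v)
    rw [← map_smul, diamond_toLocM, ← (hhe _).2]
    rfl
  have hfP : ∀ P v, f P (toLocM m v) = toLocM m (twistedWord χ hχ hker h S P v) := by
    intro P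
    induction P using FreeAlgebra.induction with
    | grade0 r => intro v; simp only [AlgHom.commutes, Module.algebraMap_end_apply, map_zsmul]
    | grade1 i =>
      intro v
      have := Fact.mk i.1.2
      simp only [f, twistedWord, FreeAlgebra.lift_ι_apply, LinearMap.restrictScalars_apply,
        mapLocM_toLocM]
    | add a b ha hb => intro v; simp only [map_add, LinearMap.add_apply, ha, hb]
    | mul a b ha hb => intro v; simp only [map_mul, Module.End.mul_apply, ha, hb]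
  obtain ⟨⟨ℓ₀, hℓ₀⟩, hℓ1, hℓm⟩ := h0
  have := Fact.mk hℓ₀
  obtain ⟨act, hact, hactP⟩ := exists_localLift (θ := θ) (heckeDiamondAlgebra χ hχ hker (O := O) m)
    (heckeDiamondAlgebra_comm χ hχ hker m) f
    (fun i => hfι i ▸ mul_mem (Algebra.subset_adjoin (Or.inl ⟨_, rfl⟩))
      (Algebra.subset_adjoin (Or.inr ⟨_, rfl⟩)))
    (fun P hP => LinearMap.ext fun x => by
      obtain ⟨v, rfl⟩ := toLocM_surjective O m x
      refine smul_locM_eq_zero m hℓm ?_
      rw [hfP, ← map_smul, twistedWord_eq_zero χ hχ hker h hM' hs hS (fun δ => (hhe δ).1) hfac hP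
        hℓ1, map_zero])
    (fun i => by
      have hiN : ¬ (i.1 : ℕ) ∣ M' := fun hd => i.2 (hS' _ i.1.2 hd)
      obtain ⟨c, hc, hcm⟩ := hθ i.1 i.1.2 hiN i.2
      refine ⟨c, by rw [hc]; exact congrArg θ (by simp [wordEval, hiN]), ?_⟩
      let C := heckeDiamondAlgebra χ hχ hker (O := O) m
      let instC : CommRing C := { (inferInstance : Ring C) with
        mul_comm := fun a b => Subtype.ext (heckeDiamondAlgebra_comm χ hχ hker m _ a.2 _ b.2) }
      let D : C := ⟨_, Algebra.subset_adjoin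
        (Or.inl ⟨classOf χ (unitAt M i.1) ^ e, rfl⟩)⟩
      let X : C := ⟨_, Algebra.subset_adjoin (Or.inr ⟨(MvPolynomial.X i.1 : HeckePoly O), rfl⟩)⟩
      have hJ : ∀ y : C, IsResNilp (y : Module.End O (LocM m (HMod M H O))) →
          y ∈ (resKill O C (LocM m (HMod M H O))).radical := fun y hy => isResNilp_lsmul_iff.1 hy
      have hX : X - algebraMap O C c ∈ (resKill O C (LocM m (HMod M H O))).radical := hJ _ (by
        have h1 := isResNilp_of_mem (O := O) (W := LocM m (HMod M H O)) (fun t ht => by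
          obtain ⟨a, ha⟩ := exists_toLocM_inv m H ht
          refine ⟨a, fun w => ?_⟩
          obtain ⟨v, rfl⟩ := toLocM_surjective O m w
          rw [← map_smul, ← map_smul, ha]) hcm
        rwa [map_sub, ← MvPolynomial.algebraMap_eq, AlgHom.commutes] at h1)
      have hD : D - 1 ∈ (resKill O C (LocM m (HMod M H O))).radical :=
        hJ _ (isResNilp_diamond_sub_one χ hχ hker m hp hΔ _)
      have h2 : IsResNilp ((D * X - algebraMap O C c : C) :
          Module.End O (LocM m (HMod M H O))) := by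
        refine isResNilp_lsmul_iff.2 (?_ : (D * X - algebraMap O C c : C) ∈ _)
        rw [show D * X - algebraMap O C c = (D - 1) * X + (X - algebraMap O C c) by ring]
        exact add_mem (Ideal.mul_mem_right _ _ hD) hX
      rw [hfι]
      exact h2)
  refine ⟨act, hact, fun ℓ hℓ hℓN hℓS x => ?_⟩
  have h1 := hactP (FreeAlgebra.ι ℤ ⟨⟨ℓ, hℓ⟩, hℓS⟩)
  rw [show wordEval M' S (FreeAlgebra.ι ℤ ⟨⟨ℓ, hℓ⟩, hℓS⟩) = heckeAlgebra.T hℓ hℓN hℓS by
    simp [wordEval, hℓN], hfι] at h1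
  rw [h1]
  rfl

end Fermat.Agent.HeckeCohom
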