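import Fermat.Agent.GroupH1.Hecke
import Fermat.Agent.EichlerShimura.Primitive

/-!
# The action of `T_ℓ`, `ℓ ≡ 1 (mod M)`, on the boundary

For a parabolic element `γ` of `Γ_H(M)` and `ℓ ≡ 1 (mod M)` prime, the value of `T_ℓ φ` at `γ` is
`(1 + ℓ) φ γ` (up to `2`-torsion). Hence eigen homomorphisms with `a_ℓ - (1 + ℓ)` regular are
parabolic.
-/

set_option autoImplicit false

noncomputable section

open CongruenceSubgroup Matrix
open scoped MatrixGroups OnePoint

namespace Fermat.Agent.HeckeCohom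

open Fermat.Agent.GroupH1 (GammaH Adm HIdx repInt heckeSystem exists_eq_mul_repInt ofAdm
  Gamma1_le_GammaH realMat realMat_mul coe_mapGL coe_repGL det_repInt)
open Fermat.Agent.HeckeLattice (toGL CosetSystem)

/-- `[1, s; 0, 1]`. -/
def unipotentInt (s : ℤ) : SL(2, ℤ) := ⟨!![1, s; 0, 1], by simp [Matrix.det_fin_two_of]⟩

/-- The matrix of `unipotentInt s`. -/
lemma coe_unipotentInt (s : ℤ) :
    (unipotentInt s : Matrix (Fin 2) (Fin 2) ℤ) = !![1, s; 0, 1] := rfl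

lemma T_zpow_eq_unipotentInt (s : ℤ) : ModularGroup.T ^ s = unipotentInt s :=
  Subtype.ext (by rw [ModularGroup.coe_T_zpow, coe_unipotentInt])

/-- The representatives of `T_ℓ` congruent to the identity mod `M` (when `ℓ ≡ 1`). -/
def boundaryRep (M ℓ : ℕ) (x : OnePoint (ZMod ℓ)) : Matrix (Fin 2) (Fin 2) ℤ :=
  x.elim !![(ℓ : ℤ), 0; 0, 1] fun j => !![1, (M : ℤ) * j.val; 0, (ℓ : ℤ)]

variable {M ℓ : ℕ} [hℓ : Fact ℓ.Prime] {H : Subgroup (ZMod M)ˣ}

/-- A prime `ℓ ≡ 1 (mod M)` does not divide `M`. -/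
lemma not_dvd_of_cast_eq_one (h1 : (ℓ : ZMod M) = 1) : ¬ ℓ ∣ M := by
  intro hd
  have h2 := congrArg (ZMod.castHom hd (ZMod ℓ)) h1
  rw [map_natCast, map_one, ZMod.natCast_self] at h2
  exact zero_ne_one h2

lemma det_boundaryRep (x : OnePoint (ZMod ℓ)) : (boundaryRep M ℓ x).det = ℓ := by
  cases x using OnePoint.rec <;> simp [boundaryRep, Matrix.det_fin_two_of]

lemma adm_conj_boundaryRep (h1 : (ℓ : ZMod M) = 1) (g : SL(2, ℤ)) (x : OnePoint (ZMod ℓ)) :
    Adm M H (g.1 * boundaryRep M ℓ x * (g⁻¹ : SL(2, ℤ)).1) := by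
  set f := (Int.castRingHom (ZMod M)).mapMatrix (m := Fin 2)
  have hu : f (boundaryRep M ℓ x) = 1 := by
    ext i j
    cases x using OnePoint.rec <;> fin_cases i <;> fin_cases j <;> simp [f, boundaryRep, h1]
  have hone : f (g.1 * boundaryRep M ℓ x * (g⁻¹ : SL(2, ℤ)).1) = 1 := by
    rw [map_mul, map_mul, hu, mul_one, ← map_mul, ← Matrix.SpecialLinearGroup.coe_mul,
      mul_inv_cancel, Matrix.SpecialLinearGroup.coe_one, map_one]
  refine ⟨?_, 1, H.one_mem, ?_⟩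
  · simpa [f] using congrFun (congrFun hone 1) 0
  · simpa [f] using (congrFun (congrFun hone 0) 0).symm

lemma eq_of_mul_boundaryRep_eq (h1 : (ℓ : ZMod M) = 1) (u : SL(2, ℤ)) {x y : OnePoint (ZMod ℓ)}
    (h : u.1 * boundaryRep M ℓ x = boundaryRep M ℓ y) : x = y := by
  have hM0 : (M : ZMod ℓ) ≠ 0 := fun h0 =>
    not_dvd_of_cast_eq_one h1 ((ZMod.natCast_eq_zero_iff _ _).mp h0)
  have hone : ∀ z : ℤ, z * (ℓ : ℤ) ≠ 1 := fun z hz => hℓ.out.one_lt.ne'
    (by exact_mod_cast Int.eq_one_of_mul_eq_one_left (by positivity) hz)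
  have e00 := congrFun (congrFun h 0) 0
  have e01 := congrFun (congrFun h 0) 1
  have e10 := congrFun (congrFun h 1) 0
  have e11 := congrFun (congrFun h 1) 1
  cases x using OnePoint.rec with
  | infty =>
    cases y using OnePoint.rec with
    | infty => rfl
    | coe j =>
      simp [boundaryRep, Matrix.mul_apply, Fin.sum_univ_two] at e00
      exact absurd e00 (hone _)
  | coe i =>
    cases y using OnePoint.rec with
    | infty =>
      simp [boundaryRep, Matrix.mul_apply, Fin.sum_univ_two] at e10 e11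
      rw [e10, zero_mul, zero_add] at e11
      exact absurd e11 (hone _)
    | coe j =>
      simp [boundaryRep, Matrix.mul_apply, Fin.sum_univ_two, -ZMod.natCast_val] at e00 e01
      rw [e00, one_mul] at e01
      have := congrArg (Int.cast : ℤ → ZMod ℓ) e01
      push_cast at this
      rw [ZMod.natCast_zmod_val, ZMod.natCast_zmod_val, ZMod.natCast_self, mul_zero,
        add_zero] at this
      rw [mul_left_cancel₀ hM0 this]

/-- Conjugated by `g`, the representatives congruent to `1` are, up to `Γ_H(M)`, a permutation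
of the standard representatives of `T_ℓ`. -/
theorem exists_boundaryRep_bijection (h1 : (ℓ : ZMod M) = 1) (g : SL(2, ℤ)) :
    ∃ (e : OnePoint (ZMod ℓ) ≃ HIdx M ℓ) (k : OnePoint (ZMod ℓ) → GammaH M H), ∀ x,
      g.1 * boundaryRep M ℓ x * (g⁻¹ : SL(2, ℤ)).1 = (k x).1.1 * repInt M ℓ (e x).1 := by
  have hex : ∀ x : OnePoint (ZMod ℓ), ∃ (y : HIdx M ℓ) (k : GammaH M H),
      g.1 * boundaryRep M ℓ x * (g⁻¹ : SL(2, ℤ)).1 = k.1.1 * repInt M ℓ y.1 := by
    intro x
    have hd : (g.1 * boundaryRep M ℓ x * (g⁻¹ : SL(2, ℤ)).1).det = ℓ := by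
      rw [Matrix.det_mul, Matrix.det_mul, g.2, det_boundaryRep, (g⁻¹).2, one_mul, mul_one]
    obtain ⟨y, n, hn, hn'⟩ :=
      exists_eq_mul_repInt (adm_conj_boundaryRep (H := H) h1 g x) ⟨1, by rw [hd, mul_one]⟩
    have hn1 : n.det = 1 := by
      rw [hn, Matrix.det_mul, det_repInt (hℓ := hℓ)] at hd
      exact mul_right_cancel₀ (Int.natCast_ne_zero.2 hℓ.out.ne_zero) (by rw [hd, one_mul])
    exact ⟨y, ofAdm n hn1 hn', hn⟩
  choose e k hk using hex
  have hinj : Function.Injective e := by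
    intro x y hxy
    have hx := hk x
    rw [hxy] at hx
    refine eq_of_mul_boundaryRep_eq h1 (g⁻¹ * k y * (k x : SL(2, ℤ))⁻¹ * g) ?_
    have hmul : ∀ (a : SL(2, ℤ)), (a⁻¹ : SL(2, ℤ)).1 * a.1 = 1 := fun a => by
      rw [← Matrix.SpecialLinearGroup.coe_mul, inv_mul_cancel, Matrix.SpecialLinearGroup.coe_one]
    calc (g⁻¹ * k y * (k x : SL(2, ℤ))⁻¹ * g : SL(2, ℤ)).1 * boundaryRep M ℓ x
        = (g⁻¹ : SL(2, ℤ)).1 * (k y).1.1 * ((k x : SL(2, ℤ))⁻¹ : SL(2, ℤ)).1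
            * (g.1 * boundaryRep M ℓ x * (g⁻¹ : SL(2, ℤ)).1) * g.1 := by
          simp only [Matrix.SpecialLinearGroup.coe_mul, mul_assoc, hmul, mul_one]
      _ = (g⁻¹ : SL(2, ℤ)).1 * ((k y).1.1 * repInt M ℓ (e y).1) * g.1 := by
          rw [hx]
          simp only [mul_assoc]
          rw [← mul_assoc ((k x : SL(2, ℤ))⁻¹ : SL(2, ℤ)).1 (k x).1.1, hmul, one_mul]
      _ = boundaryRep M ℓ y := by
          rw [← hk y]
          simp only [mul_assoc, hmul, mul_one]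
          rw [← mul_assoc, hmul, one_mul]
  have hsurj : Function.Surjective e := by
    have : Finite (OnePoint (ZMod ℓ)) := inferInstanceAs (Finite (Option (ZMod ℓ)))
    refine hinj.surjective_of_finite (Equiv.subtypeUnivEquiv
      fun x hx => not_dvd_of_cast_eq_one h1).symm
  exact ⟨Equiv.ofBijective e ⟨hinj, hsurj⟩, k, hk⟩

/-- The exponents in the relation between the representatives translated by `[1, t; 0, 1]`, and
their sum. -/
theorem exists_boundary_exponents (h1 : (ℓ : ZMod M) = 1) (t : ℤ) {m : ℤ}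
    (hm : (ℓ : ℤ) - 1 = M * m) :
    ∃ i : ZMod ℓ → ℤ, (∀ j, ((ℓ : ℤ) - 1) * t + (M : ℤ) * ℓ * i j = (M : ℤ) * j.val
      - (M : ℤ) * (j + (t : ZMod ℓ) * (M : ZMod ℓ)⁻¹).val) ∧ ∑ j, i j = -(t * m) := by
  have hM0 : (M : ZMod ℓ) ≠ 0 := fun h0 =>
    not_dvd_of_cast_eq_one h1 ((ZMod.natCast_eq_zero_iff _ _).mp h0)
  set c : ZMod ℓ := (t : ZMod ℓ) * (M : ZMod ℓ)⁻¹ with hc
  have hi : ∀ j : ZMod ℓ, ∃ i : ℤ,
      ((ℓ : ℤ) - 1) * t + (M : ℤ) * ℓ * i = (M : ℤ) * j.val - (M : ℤ) * (j + c).val := by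
    intro j
    obtain ⟨b, hb⟩ : (ℓ : ℤ) ∣ (t + (M : ℤ) * j.val - (M : ℤ) * (j + c).val) := by
      rw [← ZMod.intCast_zmod_eq_zero_iff_dvd]
      push_cast
      rw [ZMod.natCast_zmod_val, ZMod.natCast_zmod_val]
      simp only [c]
      field_simp
      ring
    obtain ⟨i, hi⟩ : (M : ℤ) ∣ b - t := by
      refine (ZMod.intCast_zmod_eq_zero_iff_dvd _ _).mp ?_
      have := congrArg (Int.cast : ℤ → ZMod M) hb
      push_cast at this
      rw [ZMod.natCast_self, zero_mul, zero_mul, add_zero, sub_zero, h1, one_mul] at this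
      rw [Int.cast_sub, this, sub_self]
    exact ⟨i, by linear_combination -hb - (ℓ : ℤ) * hi⟩
  choose i hi using hi
  refine ⟨i, hi, ?_⟩
  have hM' : (M : ℤ) ≠ 0 := fun h => hM0 (by
    rw [show M = 0 from by exact_mod_cast h, Nat.cast_zero])
  have hℓ' : (ℓ : ℤ) ≠ 0 := Int.natCast_ne_zero.2 hℓ.out.ne_zero
  have h := Finset.sum_congr (rfl : (Finset.univ : Finset (ZMod ℓ)) = _) fun j _ => hi j
  rw [Finset.sum_add_distrib, Finset.sum_const, Finset.card_univ, ZMod.card, ← Finset.mul_sum,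
    Finset.sum_sub_distrib,
    show (∑ j, (M : ℤ) * ((j + c).val : ℤ)) = ∑ j : ZMod ℓ, (M : ℤ) * (j.val : ℤ) from
      Equiv.sum_comp (Equiv.addRight c) (fun j : ZMod ℓ => (M : ℤ) * (j.val : ℤ)),
    sub_self, hm, nsmul_eq_mul] at h
  refine mul_left_cancel₀ (mul_ne_zero hM' hℓ') ?_
  linear_combination h

/-- The representative at `∞` times `[1, t; 0, 1]`. -/
lemma boundaryRep_infty_mul_unipotentInt (t : ℤ) :
    boundaryRep M ℓ ∞ * (unipotentInt t).1 = (unipotentInt (t * ℓ)).1 * boundaryRep M ℓ ∞ := by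
  rw [coe_unipotentInt, coe_unipotentInt]
  ext a b
  fin_cases a <;> fin_cases b <;>
    simp [boundaryRep, Matrix.mul_apply, Fin.sum_univ_two, mul_comm]

omit hℓ in
/-- A finite representative times `[1, t; 0, 1]`. -/
lemma boundaryRep_coe_mul_unipotentInt {t i : ℤ} {j j' : ZMod ℓ}
    (h : ((ℓ : ℤ) - 1) * t + (M : ℤ) * ℓ * i = (M : ℤ) * j.val - (M : ℤ) * j'.val) :
    boundaryRep M ℓ j * (unipotentInt t).1
      = (unipotentInt (t + M * i)).1 * boundaryRep M ℓ j' := by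
  rw [coe_unipotentInt, coe_unipotentInt]
  ext a b
  fin_cases a <;> fin_cases b <;>
    simp [boundaryRep, Matrix.mul_apply, Fin.sum_univ_two, -ZMod.natCast_val]
  linear_combination -h

/-- The cocycle of `T_ℓ` at a conjugate of `[1, t; 0, 1]`, read off from the representatives
congruent to `1`. -/
theorem cocycle_eq_of_boundaryRep {g : SL(2, ℤ)} {t : ℤ} {π q : GammaH M H}
    (hπ : (π : SL(2, ℤ)) = g * unipotentInt t * g⁻¹) {e : OnePoint (ZMod ℓ) → HIdx M ℓ}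
    {k : OnePoint (ZMod ℓ) → GammaH M H}
    (hk : ∀ x, g.1 * boundaryRep M ℓ x * (g⁻¹ : SL(2, ℤ)).1 = (k x).1.1 * repInt M ℓ (e x).1)
    {x y : OnePoint (ZMod ℓ)} (hq : boundaryRep M ℓ x * (unipotentInt t).1
      = ((g⁻¹ * q * g : SL(2, ℤ))).1 * boundaryRep M ℓ y) :
    (heckeSystem M H ℓ).cocycle π (e x) = (k x)⁻¹ * q * k y := by
  refine ((heckeSystem M H ℓ).eq_of_rep_mul (y := e y) (Units.ext ?_)).2
  change ((GroupH1.repGL M ℓ (e x) * toGL π : GL (Fin 2) ℝ) : Matrix (Fin 2) (Fin 2) ℝ)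
    = ((toGL ((k x)⁻¹ * q * k y) * GroupH1.repGL M ℓ (e y) : GL (Fin 2) ℝ) :
        Matrix (Fin 2) (Fin 2) ℝ)
  simp only [Units.val_mul, coe_repGL, toGL, coe_mapGL, ← realMat_mul]
  congr 1
  have hmul : ∀ (a : SL(2, ℤ)), (a⁻¹ : SL(2, ℤ)).1 * a.1 = 1 := fun a => by
    rw [← Matrix.SpecialLinearGroup.coe_mul, inv_mul_cancel, Matrix.SpecialLinearGroup.coe_one]
  have hmul' : ∀ (a : SL(2, ℤ)), a.1 * (a⁻¹ : SL(2, ℤ)).1 = 1 := fun a => by
    rw [← Matrix.SpecialLinearGroup.coe_mul, mul_inv_cancel, Matrix.SpecialLinearGroup.coe_one]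
  calc repInt M ℓ (e x).1 * (π : SL(2, ℤ)).1
      = ((k x : SL(2, ℤ))⁻¹ : SL(2, ℤ)).1 * (g.1 * boundaryRep M ℓ x * (g⁻¹ : SL(2, ℤ)).1)
          * (g.1 * (unipotentInt t).1 * (g⁻¹ : SL(2, ℤ)).1) := by
        rw [hk x, ← mul_assoc ((k x : SL(2, ℤ))⁻¹ : SL(2, ℤ)).1, hmul, one_mul, hπ,
          Matrix.SpecialLinearGroup.coe_mul, Matrix.SpecialLinearGroup.coe_mul]
    _ = ((k x : SL(2, ℤ))⁻¹ : SL(2, ℤ)).1 * g.1 * (boundaryRep M ℓ x * (unipotentInt t).1)
          * (g⁻¹ : SL(2, ℤ)).1 := by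
        simp only [mul_assoc]
        rw [← mul_assoc (g⁻¹ : SL(2, ℤ)).1 g.1, hmul, one_mul]
    _ = ((k x : SL(2, ℤ))⁻¹ : SL(2, ℤ)).1 * (q : SL(2, ℤ)).1
          * (g.1 * boundaryRep M ℓ y * (g⁻¹ : SL(2, ℤ)).1) := by
        rw [hq]
        simp only [Matrix.SpecialLinearGroup.coe_mul, mul_assoc]
        rw [← mul_assoc g.1 (g⁻¹ : SL(2, ℤ)).1, hmul', one_mul]
    _ = _ := by
        rw [hk y]
        simp only [Subgroup.coe_mul, Subgroup.coe_inv, Matrix.SpecialLinearGroup.coe_mul,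
          mul_assoc]

variable [Fintype (HIdx M ℓ)]

/-- `T_ℓ` at a parabolic element of trace two: multiplication by `1 + ℓ`. -/
theorem transfer_apply_conj_T_zpow (h1 : (ℓ : ZMod M) = 1) {B : Type*} [AddCommGroup B]
    (φ : Additive (GammaH M H) →+ B) (π : GammaH M H) (g : SL(2, ℤ)) (t : ℤ)
    (hπ : (π : SL(2, ℤ)) = g * unipotentInt t * g⁻¹) :
    (heckeSystem M H ℓ).transfer φ (Additive.ofMul π)
      = (1 + ℓ : ℤ) • φ (Additive.ofMul π) := by
  have hT : ∀ a b : ℤ, unipotentInt a * unipotentInt b = unipotentInt (a + b) := fun a b => by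
    rw [← T_zpow_eq_unipotentInt, ← T_zpow_eq_unipotentInt, ← T_zpow_eq_unipotentInt, zpow_add]
  have hPmem : ∀ i : ℤ, g * unipotentInt (M * i) * g⁻¹ ∈ GammaH M H := fun i => by
    have hG : unipotentInt (M * i) ∈ CongruenceSubgroup.Gamma M := by
      rw [CongruenceSubgroup.Gamma_mem]
      simp [coe_unipotentInt]
    have h2 := (CongruenceSubgroup.Gamma_normal M).conj_mem _ hG g
    refine Gamma1_le_GammaH ?_
    rw [CongruenceSubgroup.Gamma_mem] at h2
    rw [CongruenceSubgroup.Gamma1_mem]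
    exact ⟨h2.1, h2.2.2.2, h2.2.2.1⟩
  let P : Additive (GammaH M H) := Additive.ofMul ⟨_, hPmem 1⟩
  have hP : ∀ i : ℤ, i • P = Additive.ofMul ⟨_, hPmem i⟩ := by
    intro i
    refine (ofMul_zpow i _).symm.trans (congrArg Additive.ofMul (Subtype.ext ?_))
    rw [SubgroupClass.coe_zpow]
    simp only [conj_zpow, ← T_zpow_eq_unipotentInt, ← zpow_mul, mul_one]
  have hMπ : (M : ℤ) • φ (Additive.ofMul π) = t • φ P := by
    rw [← map_zsmul φ (M : ℤ) (Additive.ofMul π), ← map_zsmul φ t P, hP t]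
    refine congrArg φ ((ofMul_zpow _ _).symm.trans (congrArg Additive.ofMul (Subtype.ext ?_)))
    rw [SubgroupClass.coe_zpow, hπ, conj_zpow, ← T_zpow_eq_unipotentInt, ← zpow_mul,
      T_zpow_eq_unipotentInt, mul_comm t]
  obtain ⟨m, hm⟩ : (M : ℤ) ∣ (ℓ : ℤ) - 1 := by
    rw [← ZMod.intCast_zmod_eq_zero_iff_dvd]
    push_cast
    rw [h1, sub_self]
  obtain ⟨eEq, k, hk⟩ := exists_boundaryRep_bijection (H := H) h1 g
  let : Fintype (OnePoint (ZMod ℓ)) := inferInstanceAs (Fintype (Option (ZMod ℓ)))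
  -- the permutation and the exponents
  let c : ZMod ℓ := (t : ZMod ℓ) * (M : ZMod ℓ)⁻¹
  let σ : OnePoint (ZMod ℓ) ≃ OnePoint (ZMod ℓ) := Equiv.optionCongr (Equiv.addRight c)
  obtain ⟨i, hi, hsum⟩ := exists_boundary_exponents h1 t hm
  have hs : ∀ x : OnePoint (ZMod ℓ), ∃ q : GammaH M H,
      boundaryRep M ℓ x * (unipotentInt t).1 = ((g⁻¹ * q * g : SL(2, ℤ))).1 * boundaryRep M ℓ (σ x) ∧
      φ (Additive.ofMul q) = x.elim ((ℓ : ℤ) • φ (Additive.ofMul π))
        fun j => φ (Additive.ofMul π) + i j • φ P := by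
    intro x
    cases x using OnePoint.rec with
    | infty =>
      refine ⟨π ^ (ℓ : ℤ), ?_, ?_⟩
      · rw [SubgroupClass.coe_zpow, hπ, conj_zpow, ← T_zpow_eq_unipotentInt t, ← zpow_mul,
          T_zpow_eq_unipotentInt, T_zpow_eq_unipotentInt,
          show g⁻¹ * (g * unipotentInt (t * ℓ) * g⁻¹) * g = unipotentInt (t * ℓ) by group]
        exact boundaryRep_infty_mul_unipotentInt t
      · rw [ofMul_zpow, map_zsmul]
        rfl
    | coe j =>
      refine ⟨π * ⟨_, hPmem (i j)⟩, ?_, ?_⟩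
      · rw [Subgroup.coe_mul, hπ,
          show g⁻¹ * (g * unipotentInt t * g⁻¹ * (g * unipotentInt (↑M * i j) * g⁻¹)) * g
            = unipotentInt t * unipotentInt (↑M * i j) by group,
          hT]
        exact boundaryRep_coe_mul_unipotentInt (hi j)
      · rw [ofMul_mul, map_add, ← hP, map_zsmul]
        rfl
  choose q hq hq' using hs
  have hco : ∀ x, (heckeSystem M H ℓ).cocycle π (eEq x) = (k x)⁻¹ * q x * k (σ x) :=
    fun x => cocycle_eq_of_boundaryRep hπ hk (hq x)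
  rw [CosetSystem.transfer_apply, ← eEq.sum_comp]
  change (∑ x, φ (Additive.ofMul ((heckeSystem M H ℓ).cocycle π (eEq x)))) = _
  simp only [hco, ofMul_mul, ofMul_inv, map_add, map_neg,
    Finset.sum_add_distrib, Finset.sum_neg_distrib, hq']
  rw [σ.sum_comp (fun x => φ (Additive.ofMul (k x)))]
  change -_ + ∑ x : Option (ZMod ℓ), Option.elim x ((ℓ : ℤ) • φ (Additive.ofMul π))
    (fun j => φ (Additive.ofMul π) + i j • φ P) + _ = _
  rw [Fintype.sum_option]
  simp only [Option.elim_none, Option.elim_some, Finset.sum_add_distrib, Finset.sum_const,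
    Finset.card_univ, ZMod.card, ← Finset.sum_smul]
  rw [hsum, neg_smul, mul_comm t m, mul_smul, ← hMπ, smul_smul,
    show m * (M : ℤ) = (ℓ : ℤ) - 1 by rw [hm, mul_comm], ← natCast_zsmul]
  module

/-- `T_ℓ`, `ℓ ≡ 1 (mod M)`, on the value at a parabolic element, up to `2`-torsion. -/
theorem two_nsmul_transfer_apply_parabolic (h1 : (ℓ : ZMod M) = 1) {B : Type*} [AddCommGroup B]
    (φ : Additive (GammaH M H) →+ B) (γ : GammaH M H)
    (hγ : ((γ : SL(2, ℤ)) : Matrix (Fin 2) (Fin 2) ℤ).trace ^ 2 = 4) :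
    2 • (heckeSystem M H ℓ).transfer φ (Additive.ofMul γ)
      = 2 • ((1 + ℓ : ℤ) • φ (Additive.ofMul γ)) := by
  obtain ⟨g, n, hn⟩ := EichlerShimura.exists_conj_eq_T_zpow _ hγ
  rw [smul_comm 2, ← map_nsmul φ 2 (Additive.ofMul γ),
    ← map_nsmul ((heckeSystem M H ℓ).transfer φ) 2 (Additive.ofMul γ), ← ofMul_pow]
  refine transfer_apply_conj_T_zpow h1 φ (γ ^ 2) g (n * 2) ?_
  rw [SubgroupClass.coe_pow, ← T_zpow_eq_unipotentInt]
  rcases hn with e | e <;> simp only [e, neg_sq] <;>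
    rw [conj_pow, ← zpow_natCast, ← zpow_mul] <;> rfl

/-- **Eigen homomorphisms away from the Eisenstein eigenvalue are parabolic.** -/
theorem isParabolicHom_of_eigen (h1 : (ℓ : ZMod M) = 1) {R B : Type*} [CommRing R]
    [AddCommGroup B] [Module R B] (h2 : IsSMulRegular B (2 : R)) (a : R)
    (ha : IsSMulRegular B (a - (1 + ℓ))) (φ : Additive (GammaH M H) →+ B) (m : ℕ)
    (hφ : (fun ψ => (heckeSystem M H ℓ).transfer ψ - a • ψ)^[m] φ = 0) :
    ModularCurve.Period.IsParabolicHom (GammaH M H) φ := by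
  induction m generalizing φ with
  | zero => exact fun γ _ => by rw [show φ = 0 from hφ]; rfl
  | succ m ih =>
    intro γ hγ
    rw [Function.iterate_succ_apply] at hφ
    have h := ih _ hφ γ hγ
    rw [AddMonoidHom.sub_apply, AddMonoidHom.smul_apply, sub_eq_zero] at h
    have h' := two_nsmul_transfer_apply_parabolic h1 φ γ hγ
    rw [h, ← Int.cast_smul_eq_zsmul R, ← Nat.cast_smul_eq_nsmul R, ← Nat.cast_smul_eq_nsmul R] at h'
    push_cast at h'
    refine ha.right_eq_zero_of_smul ?_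
    rw [sub_smul, h2 h', sub_self]

end Fermat.Agent.HeckeCohom
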