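import Fermat.Agent.HeckeCohom.Twist
import Mathlib.NumberTheory.JacobiSum.Basic

/-!
# Twisting back and averaging

`twist ψ⁻¹ (twist ψ φ) = ψ(-1) (q φ - ∑_c shift_c φ)`, and for `M = m q` and a character `χ` which
is ramified at `q`, averaging this over `[1, 0; M i, 1]` gives `q (q - 1) φ`. Hence twisting is
injective.
-/

set_option autoImplicit false

noncomputable section

open Matrix CongruenceSubgroup
open scoped MatrixGroups

namespace Fermat.Agent.HeckeCohom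

open Fermat.Agent.GroupH1 (mem_GammaH realMat realMat_mul coe_mapGL)
open Fermat.Agent.HeckeLattice (toGL)
open Matrix.SpecialLinearGroup (mapGL)

section twistTwist

variable {R B : Type*} [CommRing R] [IsDomain R] [AddCommGroup B] [Module R B]
variable {M M' M'' : ℕ} (q : ℕ) [hq : Fact q.Prime]

lemma shift_shift (hqM : q ∣ M) (hM : q * M ∣ M') (hqM' : q ∣ M') (hM' : q * M' ∣ M'')
    (hM'' : q * M ∣ M'') (a b : ℤ) (φ : Additive (G1 M) →+ B) :
    shift q hqM' hM' b B (shift q hqM hM a B φ) = shift q hqM hM'' (a + b) B φ := by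
  refine AddMonoidHom.ext fun γ => ?_
  rw [← ofMul_toMul γ, shift_apply, shift_apply, shift_apply]
  congr 2
  refine (shiftElt_eq_of_mul q hqM hM'' _ ?_).symm
  rw [← shiftGL_add, mul_assoc, shiftHom_spec q hqM' hM' b, ← mul_assoc,
    shiftHom_spec q hqM hM a, mul_assoc]

/-- The convolution of `ψ⁻¹` and `ψ`. -/
lemma sum_inv_mul_sub {ψ : MulChar (ZMod q) R} (hψ : ψ ≠ 1) (c : ZMod q) :
    ∑ b : ZMod q, ψ⁻¹ b * ψ (c - b)
      = ψ (-1) * ((if c = 0 then (q : R) else 0) - 1) := by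
  have hneg : ψ⁻¹ (-1) = ψ (-1) := by rw [MulChar.inv_apply', inv_neg, inv_one]
  have hterm : ∀ b : ZMod q, ψ⁻¹ b * ψ b = if b = 0 then 0 else 1 := by
    intro b
    rw [← MulChar.mul_apply, inv_mul_cancel]
    split_ifs with h
    · rw [h, MulChar.map_zero]
    · exact MulChar.one_apply (Ne.isUnit h)
  split_ifs with hc
  · subst hc
    have : ∀ b : ZMod q, ψ⁻¹ b * ψ (0 - b) = ψ (-1) * (if b = 0 then 0 else 1) := fun b => by
      rw [← hterm, zero_sub, show -b = -1 * b by ring, map_mul]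
      ring
    simp only [this, ← Finset.mul_sum]
    rw [Finset.sum_ite, Finset.sum_const_zero, zero_add, Finset.sum_const, nsmul_eq_mul, mul_one,
      Finset.filter_ne', Finset.card_erase_of_mem (Finset.mem_univ _), Finset.card_univ, ZMod.card,
      Nat.cast_sub hq.out.one_le, Nat.cast_one]
  · have hJ := jacobiSum_nontrivial_inv (χ := ψ⁻¹) (by rwa [ne_eq, inv_eq_one])
    rw [inv_inv, jacobiSum, hneg] at hJ
    rw [zero_sub, mul_neg, mul_one, ← hJ, ← Equiv.sum_comp (Equiv.mulLeft₀ c hc)]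
    refine Finset.sum_congr rfl fun t _ => ?_
    show ψ⁻¹ (c * t) * ψ (c - c * t) = ψ⁻¹ t * ψ (1 - t)
    rw [map_mul, show c - c * t = c * (1 - t) by ring, map_mul]
    have h1 := hterm c
    rw [if_neg hc] at h1
    linear_combination (ψ⁻¹ t * ψ (1 - t)) * h1

/-- `twist ψ⁻¹ ∘ twist ψ`. -/
theorem twist_twist {χ : ZMod M →* R} {φ : Additive (G1 M) →+ B} (hφ : IsChiHom χ φ)
    (hqM : q ∣ M) (hM : q * M ∣ M') (hqM' : q ∣ M') (hM' : q * M' ∣ M'') (hM'' : q * M ∣ M'')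
    {ψ : MulChar (ZMod q) R} (hψ : ψ ≠ 1) :
    twist q hqM' hM' ψ⁻¹ (twist q hqM hM ψ φ) = ψ (-1) •
      ((q : R) • shift q hqM hM'' 0 B φ - ∑ c : ZMod q, shift q hqM hM'' (c.val : ℤ) B φ) := by
  have hsum : ∀ a b : ZMod q, shift q hqM' hM' (b.val : ℤ) B (shift q hqM hM (a.val : ℤ) B φ)
      = shift q hqM hM'' ((a + b).val : ℤ) B φ := by
    intro a b
    rw [shift_shift q hqM hM hqM' hM' hM'']
    refine shift_congr q hqM hM'' hφ ?_
    rw [← ZMod.intCast_zmod_eq_zero_iff_dvd]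
    push_cast
    simp
  rw [twist_eq_sum, twist_eq_sum]
  simp only [map_sum, shift_smul, hsum, Finset.smul_sum, smul_smul]
  calc ∑ b : ZMod q, ∑ a : ZMod q, (ψ⁻¹ b * ψ a) • shift q hqM hM'' ((a + b).val : ℤ) B φ
      = ∑ b : ZMod q, ∑ c : ZMod q, (ψ⁻¹ b * ψ (c - b)) • shift q hqM hM'' (c.val : ℤ) B φ := by
        refine Finset.sum_congr rfl fun b _ => ?_
        rw [← Equiv.sum_comp (Equiv.subRight b)]
        simp [-ZMod.natCast_val]
    _ = ∑ c : ZMod q, (ψ (-1) * ((if c = 0 then (q : R) else 0) - 1)) •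
          shift q hqM hM'' (c.val : ℤ) B φ := by
        rw [Finset.sum_comm]
        simp only [← Finset.sum_smul, sum_inv_mul_sub q hψ]
    _ = _ := by
        simp only [mul_sub, sub_smul, mul_one, mul_smul, ite_smul, zero_smul, smul_ite,
          smul_zero, Finset.sum_sub_distrib]
        rw [Finset.sum_ite_eq' Finset.univ (0 : ZMod q), if_pos (Finset.mem_univ _), smul_sub,
          Finset.smul_sum, ZMod.val_zero, Nat.cast_zero]

end twistTwist

section average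

variable (m : ℕ) (q : ℕ) [hq : Fact q.Prime]

/-- The residue mod `m q` which is `1` mod `m` and `u` mod `q`. -/
def liftQFun (u : ZMod q) : ZMod (m * q) := ((1 + (m : ℤ) * ((u - 1) * (m : ZMod q)⁻¹).val : ℤ) : ZMod (m * q))

variable {m q}

lemma eq_liftQFun (hm : ¬ q ∣ m) {x : ℤ} {u : ZMod q} (h1 : (m : ℤ) ∣ x - 1)
    (h2 : (x : ZMod q) = u) : (x : ZMod (m * q)) = liftQFun m q u := by
  rw [liftQFun, ← sub_eq_zero, ← Int.cast_sub, ZMod.intCast_zmod_eq_zero_iff_dvd, Nat.cast_mul]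
  refine IsCoprime.mul_dvd ?_ ?_ ?_
  · exact Nat.isCoprime_iff_coprime.mpr ((hq.out.coprime_iff_not_dvd.2 hm).symm)
  · rw [show x - (1 + (m : ℤ) * (((u - 1) * (m : ZMod q)⁻¹).val : ℤ))
      = (x - 1) - (m : ℤ) * (((u - 1) * (m : ZMod q)⁻¹).val : ℤ) by ring]
    exact dvd_sub h1 (dvd_mul_right _ _)
  · rw [← ZMod.intCast_zmod_eq_zero_iff_dvd]
    push_cast
    rw [ZMod.natCast_zmod_val, h2]
    have : (m : ZMod q) ≠ 0 := fun h => hm ((ZMod.natCast_eq_zero_iff _ _).mp h)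
    field_simp
    ring

/-- `ZMod q → ZMod (m q)`, trivial mod `m`. -/
def liftQ (hm : ¬ q ∣ m) : ZMod q →* ZMod (m * q) where
  toFun := liftQFun m q
  map_one' := by rw [← eq_liftQFun hm (x := 1) (by simp) (by simp), Int.cast_one]
  map_mul' u v := by
    have hm0 : (m : ZMod q) ≠ 0 := fun h => hm ((ZMod.natCast_eq_zero_iff _ _).mp h)
    set a := (((u - 1) * (m : ZMod q)⁻¹).val : ℤ) with ha
    set b := (((v - 1) * (m : ZMod q)⁻¹).val : ℤ) with hb
    show liftQFun m q (u * v) = ((1 + (m : ℤ) * a : ℤ) : ZMod (m * q)) * ((1 + (m : ℤ) * b : ℤ) : ZMod (m * q))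
    rw [← Int.cast_mul]
    refine (eq_liftQFun hm ⟨a + b + (m : ℤ) * a * b, by ring⟩ ?_).symm
    rw [ha, hb]
    push_cast
    rw [ZMod.natCast_zmod_val, ZMod.natCast_zmod_val]
    field_simp
    ring

/-- `[1, 0; M i, 1]`. -/
def lowerElt (N : ℕ) (i : ℤ) : Gamma0 N :=
  ⟨(⟨!![1, 0; (N : ℤ) * i, 1], by simp [Matrix.det_fin_two_of]⟩ : SL(2, ℤ)),
    Gamma0_mem.mpr (show (((!![1, 0; (N : ℤ) * i, 1] : Matrix (Fin 2) (Fin 2) ℤ) 1 0 : ℤ) : ZMod N) = 0
      by simp)⟩

lemma coe_lowerElt (N : ℕ) (i : ℤ) :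
    ((lowerElt N i : SL(2, ℤ)) : Matrix (Fin 2) (Fin 2) ℤ) = !![1, 0; (N : ℤ) * i, 1] := rfl

/-- An element of `Γ₀(N)` from its entries. -/
def mkGamma0 (N : ℕ) (a b c d : ℤ) (hdet : a * d - b * c = 1) (hc : (N : ℤ) ∣ c) : Gamma0 N :=
  ⟨(⟨!![a, b; c, d], by rw [Matrix.det_fin_two_of]; exact hdet⟩ : SL(2, ℤ)),
    Gamma0_mem.mpr (show ((c : ℤ) : ZMod N) = 0 from (ZMod.intCast_zmod_eq_zero_iff_dvd _ _).mpr hc)⟩

lemma coe_mkGamma0 (N : ℕ) (a b c d : ℤ) (hdet : a * d - b * c = 1) (hc : (N : ℤ) ∣ c) :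
    ((mkGamma0 N a b c d hdet hc : SL(2, ℤ)) : Matrix (Fin 2) (Fin 2) ℤ) = !![a, b; c, d] := rfl

/-- Conjugation of `Γ(N')` by an element of `SL(2, ℤ)`, landing in `Γ₁(N')`. -/
def conjFull {N' : ℕ} (g : SL(2, ℤ)) (γ : CongruenceSubgroup.Gamma N') : G1 N' :=
  ⟨g * γ * g⁻¹, Gamma_le_G1 _ ((CongruenceSubgroup.Gamma_normal N').conj_mem _ γ.2 g)⟩

variable {M' : ℕ} {R B : Type*} [Field R] [AddCommGroup B] [Module R B]

lemma shift_conjFull_eq (hM : q * (m * q) ∣ M') (c c' : ℤ) (g : Gamma0 (m * q)) (h : Gamma0 (m * q))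
    (h' : SL(2, ℤ))
    (heq : shiftGL q c * toGL h = toGL g * (shiftGL q c' * mapGL ℝ h'))
    (γ : CongruenceSubgroup.Gamma M') :
    shiftHom q (dvd_mul_left q m) hM c (conjFull (h : SL(2, ℤ)) γ)
      = conjG1 g (shiftHom q (dvd_mul_left q m) hM c' (conjFull h' γ)) := by
  refine shiftElt_eq_of_mul q (dvd_mul_left q m) hM c ?_
  have hsp := shiftHom_spec q (dvd_mul_left q m) hM c' (conjFull h' γ)
  set δ := shiftHom q (dvd_mul_left q m) hM c' (conjFull h' γ)
  simp only [toGL, coe_conjG1, map_mul, map_inv, conjFull] at heq hsp ⊢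
  set A := shiftGL q c
  set A' := shiftGL q c'
  set G := mapGL ℝ (g : SL(2, ℤ))
  set H := mapGL ℝ (h : SL(2, ℤ))
  set H' := mapGL ℝ h'
  set D := mapGL ℝ (δ : SL(2, ℤ))
  set C := mapGL ℝ ((γ : SL(2, ℤ)))
  have e1 : A = G * (A' * H') * H⁻¹ := by rw [← heq, mul_inv_cancel_right]
  calc A * (H * C * H⁻¹) = (A * H) * C * H⁻¹ := by simp only [mul_assoc]
    _ = G * (A' * (H' * C * H'⁻¹)) * H' * H⁻¹ := by rw [heq]; group
    _ = G * D * (A' * H') * H⁻¹ := by rw [hsp]; group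
    _ = G * D * G⁻¹ * A := by rw [e1]; group

/-- A shift of a conjugate by `[1, 0; M i, 1]`, non-degenerate case. -/
theorem shift_conjFull_lowerElt_of_ne (hm : ¬ q ∣ m) (hM : q * (m * q) ∣ M')
    {χ : ZMod (m * q) →* R} {φ : Additive (G1 (m * q)) →+ B} (hφ : IsChiHom χ φ)
    (γ : CongruenceSubgroup.Gamma M') {c i : ZMod q} (h : 1 + c * m * i ≠ 0) :
    φ (Additive.ofMul (shiftHom q (dvd_mul_left q m) hM (c.val : ℤ)
        (conjFull (lowerElt (m * q) (i.val : ℤ) : SL(2, ℤ)) γ)))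
      = χ (liftQ hm (1 + c * m * i)⁻¹) • φ (Additive.ofMul (shiftHom q (dvd_mul_left q m) hM
          ((c * (1 + c * m * i)⁻¹).val : ℤ) (conjFull 1 γ))) := by
  have hmz : (m : ZMod q) ≠ 0 := fun h => hm ((ZMod.natCast_eq_zero_iff _ _).mp h)
  have hq' : (q : ℝ) ≠ 0 := Nat.cast_ne_zero.2 hq.out.ne_zero
  set c' := c * (1 + c * (m : ZMod q) * i)⁻¹ with hc'
  obtain ⟨e, he⟩ : (q : ℤ) ∣ (c.val : ℤ) - (1 + c.val * m * i.val) * c'.val := by
    rw [← ZMod.intCast_zmod_eq_zero_iff_dvd]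
    push_cast
    rw [ZMod.natCast_zmod_val, ZMod.natCast_zmod_val, ZMod.natCast_zmod_val, hc']
    field_simp
    ring
  let g : Gamma0 (m * q) := mkGamma0 (m * q) (1 + (c.val : ℤ) * m * i.val) e
    ((m : ℤ) * q * i.val) (1 - (m : ℤ) * i.val * c'.val)
    (by linear_combination ((m : ℤ) * i.val) * he) (by push_cast; exact dvd_mul_right _ _)
  have hrel : shiftGL q (c.val : ℤ) * toGL (lowerElt (m * q) (i.val : ℤ))
      = toGL g * (shiftGL q (c'.val : ℤ) * mapGL ℝ (1 : SL(2, ℤ))) := by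
    have heR : (c.val : ℝ) - (1 + c.val * m * i.val) * c'.val = q * e := by exact_mod_cast he
    rw [map_one, mul_one]
    ext a b
    fin_cases a <;> fin_cases b <;>
      simp [toGL, coe_lowerElt, g, coe_mkGamma0, Matrix.mul_apply, Fin.sum_univ_two,
        -ZMod.natCast_val] <;>
      field_simp <;> first | ring1 | linear_combination heR
  rw [shift_conjFull_eq hM _ _ g _ 1 hrel γ, hφ, Gamma0Map_apply]
  congr 2
  refine eq_liftQFun hm
    ⟨-(i.val * c'.val : ℤ), by simp [g, coe_mkGamma0, -ZMod.natCast_val]; ring⟩ ?_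
  show (((1 - (m : ℤ) * i.val * c'.val : ℤ)) : ZMod q) = _
  push_cast
  rw [ZMod.natCast_zmod_val, ZMod.natCast_zmod_val, hc']
  linear_combination -(mul_inv_cancel₀ h)

/-- A shift of a conjugate by `[1, 0; M i, 1]`, degenerate case. -/
theorem shift_conjFull_lowerElt_of_eq (hm : ¬ q ∣ m) (hM : q * (m * q) ∣ M')
    {χ : ZMod (m * q) →* R} {φ : Additive (G1 (m * q)) →+ B} (hφ : IsChiHom χ φ)
    (γ : CongruenceSubgroup.Gamma M') {c i i' : ZMod q} (hc : c ≠ 0) (hci : 1 + c * m * i = 0)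
    (hci' : 1 + m * i' = 0) :
    φ (Additive.ofMul (shiftHom q (dvd_mul_left q m) hM (c.val : ℤ)
        (conjFull (lowerElt (m * q) (i.val : ℤ) : SL(2, ℤ)) γ)))
      = χ (liftQ hm c⁻¹) • φ (Additive.ofMul (shiftHom q (dvd_mul_left q m) hM
          ((1 : ZMod q).val : ℤ) (conjFull (lowerElt (m * q) (i'.val : ℤ) : SL(2, ℤ)) γ))) := by
  have hmz : (m : ZMod q) ≠ 0 := fun h => hm ((ZMod.natCast_eq_zero_iff _ _).mp h)
  have hq' : (q : ℝ) ≠ 0 := Nat.cast_ne_zero.2 hq.out.ne_zero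
  obtain ⟨e, he⟩ : (q : ℤ) ∣ (c.val : ℤ) * (1 + m * i'.val) - (1 + c.val * m * i.val) := by
    rw [← ZMod.intCast_zmod_eq_zero_iff_dvd]
    push_cast
    rw [ZMod.natCast_zmod_val, ZMod.natCast_zmod_val, ZMod.natCast_zmod_val, hci, hci']
    ring
  let g : Gamma0 (m * q) := mkGamma0 (m * q) (1 + (c.val : ℤ) * m * i.val - c.val * m * i'.val) e
    ((m : ℤ) * q * (i.val - i'.val)) (1 - (m : ℤ) * i.val + m * i'.val)
    (by linear_combination ((m : ℤ) * (i.val - i'.val)) * he)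
    (by push_cast; exact dvd_mul_right _ _)
  have hrel : shiftGL q (c.val : ℤ) * toGL (lowerElt (m * q) (i.val : ℤ))
      = toGL g * (shiftGL q ((1 : ZMod q).val : ℤ) *
          mapGL ℝ ((lowerElt (m * q) (i'.val : ℤ)) : SL(2, ℤ))) := by
    have heR : (c.val : ℝ) * (1 + m * i'.val) - (1 + c.val * m * i.val) = q * e := by
      exact_mod_cast he
    rw [ZMod.val_one]
    ext a b
    fin_cases a <;> fin_cases b <;>
      simp [toGL, coe_lowerElt, g, coe_mkGamma0, Matrix.mul_apply, Fin.sum_univ_two, Matrix.vecMul,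
        dotProduct, -ZMod.natCast_val] <;>
      field_simp <;> first | ring1 | linear_combination heR | linear_combination -heR |
        linear_combination (m : ℝ) * i'.val * heR
  rw [shift_conjFull_eq hM _ _ g _ _ hrel γ, hφ, Gamma0Map_apply]
  refine congrArg (fun t => t • φ (Additive.ofMul _)) (congrArg χ (eq_liftQFun hm
    ⟨-(i.val : ℤ) + i'.val, by simp [g, coe_mkGamma0, -ZMod.natCast_val]; ring⟩ ?_))
  show (((1 - (m : ℤ) * i.val + m * i'.val : ℤ)) : ZMod q) = _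
  push_cast
  rw [ZMod.natCast_zmod_val, ZMod.natCast_zmod_val]
  field_simp
  linear_combination c * hci' - hci

/-- The non-degenerate terms cancel: they are a multiple of the sum of the character. -/
theorem sum_nondegenerate_eq_zero (hm : ¬ q ∣ m) {χ' : ZMod q →* R}
    (hsum : ∑ u : (ZMod q)ˣ, χ' (u : ZMod q) = 0) {F : ZMod q → ZMod q → B} {G : ZMod q → B}
    (hF : ∀ c i : ZMod q, 1 + c * m * i ≠ 0 →
      F c i = χ' (1 + c * m * i)⁻¹ • G (c * (1 + c * m * i)⁻¹)) :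
    ∑ c ∈ Finset.univ.filter (fun c : ZMod q => c ≠ 0),
      ∑ i ∈ Finset.univ.filter (fun i : ZMod q => 1 + c * m * i ≠ 0), F c i = 0 := by
  classical
  have hmz : (m : ZMod q) ≠ 0 := fun h => hm ((ZMod.natCast_eq_zero_iff _ _).mp h)
  let tog : (ZMod q)ˣ × (ZMod q)ˣ → ZMod q × ZMod q := fun p =>
    ((p.1 : ZMod q) * (p.2 : ZMod q)⁻¹,
      ((p.2 : ZMod q)⁻¹ - 1) * ((p.1 : ZMod q) * (p.2 : ZMod q)⁻¹ * m)⁻¹)
  have htog : ∀ p, 1 + (tog p).1 * m * (tog p).2 = (p.2 : ZMod q)⁻¹ := by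
    intro p
    have := p.1.ne_zero
    have := p.2.ne_zero
    simp only [tog]
    field_simp
    ring
  rw [← Finset.sum_finset_product' ((Finset.univ : Finset (ZMod q × ZMod q)).filter
      fun p : ZMod q × ZMod q => p.1 ≠ 0 ∧ 1 + p.1 * (m : ZMod q) * p.2 ≠ 0)
    (Finset.univ.filter fun c : ZMod q => c ≠ 0)
    (fun c => Finset.univ.filter fun i : ZMod q => 1 + c * (m : ZMod q) * i ≠ 0)
    (fun p => by simp)]
  calc _ = ∑ p : (ZMod q)ˣ × (ZMod q)ˣ, χ' (p.2 : ZMod q) • G p.1 := by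
        symm
        refine Finset.sum_bij (fun p _ => tog p) (fun p _ => ?_) (fun p _ p' _ h => ?_)
          (fun x hx => ?_) (fun p _ => ?_)
        · exact Finset.mem_filter.mpr ⟨Finset.mem_univ _,
            mul_ne_zero p.1.ne_zero (inv_ne_zero p.2.ne_zero),
            (htog p).trans_ne (inv_ne_zero p.2.ne_zero)⟩
        · have h2 : p.2 = p'.2 := Units.ext (inv_injective (by rw [← htog p, h, htog p']))
          refine Prod.ext (Units.ext ?_) h2
          have h1 := congrArg Prod.fst h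
          simp only [tog, h2] at h1
          exact mul_right_cancel₀ (inv_ne_zero p'.2.ne_zero) h1
        · simp only [Finset.mem_filter, Finset.mem_univ, true_and] at hx
          obtain ⟨hx1, hx2⟩ := hx
          refine ⟨(Units.mk0 (x.1 * (1 + x.1 * m * x.2)⁻¹) (mul_ne_zero hx1 (inv_ne_zero hx2)),
            Units.mk0 _ (inv_ne_zero hx2)), Finset.mem_univ _, ?_⟩
          simp only [tog, Units.val_mk0, inv_inv]
          refine Prod.ext ?_ ?_
          · show x.1 * (1 + x.1 * m * x.2)⁻¹ * (1 + x.1 * m * x.2) = x.1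
            rw [mul_assoc, inv_mul_cancel₀ hx2, mul_one]
          · show (1 + x.1 * m * x.2 - 1) *
              (x.1 * (1 + x.1 * m * x.2)⁻¹ * (1 + x.1 * m * x.2) * m)⁻¹ = x.2
            rw [mul_assoc x.1 (1 + x.1 * m * x.2)⁻¹, inv_mul_cancel₀ hx2, mul_one,
              add_sub_cancel_left]
            field_simp
        · rw [hF _ _ (by rw [htog p]; exact inv_ne_zero p.2.ne_zero), htog p, inv_inv]
          simp only [tog, inv_mul_cancel_right₀ p.2.ne_zero]
    _ = 0 := by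
        rw [Fintype.sum_prod_type]
        simp only [← Finset.sum_smul, hsum, zero_smul, Finset.sum_const_zero]

/-- The degenerate terms cancel: they are a multiple of the sum of the character. -/
theorem sum_degenerate_eq_zero {χ' : ZMod q →* R}
    (hsum : ∑ u : (ZMod q)ˣ, χ' (u : ZMod q) = 0) {F : ZMod q → B} {v : B}
    (hF : ∀ c : ZMod q, c ≠ 0 → F c = χ' c⁻¹ • v) :
    ∑ c ∈ Finset.univ.filter (fun c : ZMod q => c ≠ 0), F c = 0 := by
  classical
  calc _ = ∑ u : (ZMod q)ˣ, χ' (u : ZMod q) • v := by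
        symm
        refine Finset.sum_bij (fun u _ => ((u : ZMod q))⁻¹)
          (fun u _ => Finset.mem_filter.mpr ⟨Finset.mem_univ _, inv_ne_zero u.ne_zero⟩)
          (fun u _ u' _ h => Units.ext (inv_injective h)) (fun x hx => ?_) (fun u _ => ?_)
        · exact ⟨Units.mk0 x⁻¹ (inv_ne_zero (Finset.mem_filter.mp hx).2), Finset.mem_univ _,
            inv_inv x⟩
        · rw [hF _ (inv_ne_zero u.ne_zero), inv_inv]
    _ = 0 := by rw [← Finset.sum_smul, hsum, zero_smul]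

/-- **Averaging the twist-back over `[1, 0; M i, 1]`.** -/
theorem sum_lower_twistBack (hm : ¬ q ∣ m) (hM : q * (m * q) ∣ M') {χ : ZMod (m * q) →* R}
    (hχ : ∃ u : (ZMod q)ˣ, χ (liftQ hm u) ≠ 1) {φ : Additive (G1 (m * q)) →+ B}
    (hφ : IsChiHom χ φ) (γ : CongruenceSubgroup.Gamma M') :
    ∑ i : ZMod q, ((q : R) • shift q (dvd_mul_left q m) hM 0 B φ
        - ∑ c : ZMod q, shift q (dvd_mul_left q m) hM (c.val : ℤ) B φ)
        (Additive.ofMul (conjFull (lowerElt (m * q) (i.val : ℤ) : SL(2, ℤ)) γ))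
      = ((q : R) * (q - 1)) • φ (Additive.ofMul (shiftHom q (dvd_mul_left q m) hM 0 (conjFull 1 γ))) := by
  classical
  set P := φ (Additive.ofMul (shiftHom q (dvd_mul_left q m) hM 0 (conjFull 1 γ))) with hP
  let F : ZMod q → ZMod q → B := fun c i => φ (Additive.ofMul (shiftHom q (dvd_mul_left q m) hM
    (c.val : ℤ) (conjFull (lowerElt (m * q) (i.val : ℤ) : SL(2, ℤ)) γ)))
  let G : ZMod q → B := fun c => φ (Additive.ofMul (shiftHom q (dvd_mul_left q m) hM
    (c.val : ℤ) (conjFull 1 γ)))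
  have hmz : (m : ZMod q) ≠ 0 := fun h => hm ((ZMod.natCast_eq_zero_iff _ _).mp h)
  have hzero : ∀ i : ZMod q, φ (Additive.ofMul (shiftHom q (dvd_mul_left q m) hM 0
      (conjFull (lowerElt (m * q) (i.val : ℤ) : SL(2, ℤ)) γ))) = P := by
    intro i
    rw [shift_conjFull_eq hM 0 0 (lowerElt _ (i.val : ℤ)) (lowerElt _ (i.val : ℤ)) 1
      (by simp [show shiftGL q 0 = 1 by ext a b; fin_cases a <;> fin_cases b <;> simp]) γ,
      hφ, Gamma0Map_apply, coe_lowerElt]
    simp [hP]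
  -- non-degenerate terms
  have hnd : ∀ c i : ZMod q, 1 + c * m * i ≠ 0 →
      F c i = χ.comp (liftQ hm) (1 + c * m * i)⁻¹ • G (c * (1 + c * m * i)⁻¹) :=
    fun c i h => shift_conjFull_lowerElt_of_ne hm hM hφ γ h
  -- degenerate terms
  set i₀ : ZMod q → ZMod q := fun c => -(c * (m : ZMod q))⁻¹ with hi₀
  have hi₀' : ∀ c : ZMod q, c ≠ 0 → ∀ i, (1 + c * m * i = 0 ↔ i = i₀ c) := by
    intro c hc i
    simp only [hi₀]
    constructor
    · intro h
      field_simp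
      linear_combination h
    · rintro rfl
      field_simp
      ring
  have hdeg : ∀ c : ZMod q, c ≠ 0 → F c (i₀ c) = χ.comp (liftQ hm) c⁻¹ • F 1 (i₀ 1) :=
    fun c hc => shift_conjFull_lowerElt_of_eq hm hM hφ γ hc ((hi₀' c hc _).mpr rfl)
      (by simpa using (hi₀' 1 one_ne_zero (i₀ 1)).mpr rfl)
  -- the character sums
  have hsum : ∑ u : (ZMod q)ˣ, χ.comp (liftQ hm) (u : ZMod q) = 0 := by
    refine sum_hom_units_eq_zero ((χ.comp (liftQ hm)).comp (Units.coeHom _)) fun h => ?_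
    obtain ⟨u, hu⟩ := hχ
    exact hu (DFunLike.congr_fun h u)
  have hND : ∑ c ∈ Finset.univ.filter (fun c : ZMod q => c ≠ 0),
      ∑ i ∈ Finset.univ.filter (fun i : ZMod q => 1 + c * m * i ≠ 0), F c i = 0 :=
    sum_nondegenerate_eq_zero (χ' := χ.comp (liftQ hm)) (F := F) (G := G) hm hsum hnd
  have hD : ∑ c ∈ Finset.univ.filter (fun c : ZMod q => c ≠ 0), F c (i₀ c) = 0 :=
    sum_degenerate_eq_zero (χ' := χ.comp (liftQ hm)) (F := fun c => F c (i₀ c)) hsum hdeg
  -- assemble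
  have hrest : ∑ c ∈ Finset.univ.filter (fun c : ZMod q => c ≠ 0), ∑ i, F c i = 0 := by
    suffices h : ∀ c ∈ Finset.univ.filter (fun c : ZMod q => c ≠ 0), ∑ i, F c i
        = (∑ i ∈ Finset.univ.filter (fun i : ZMod q => 1 + c * m * i ≠ 0), F c i) + F c (i₀ c) by
      rw [Finset.sum_congr rfl h, Finset.sum_add_distrib, hND, hD, add_zero]
    intro c hc
    rw [← Finset.sum_filter_add_sum_filter_not Finset.univ (fun i => 1 + c * m * i ≠ 0)]
    refine congrArg₂ (· + ·) rfl ?_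
    rw [show Finset.univ.filter (fun i : ZMod q => ¬ (1 + c * (m : ZMod q) * i ≠ 0)) = {i₀ c} by
      ext i
      simp [hi₀' c (Finset.mem_filter.mp hc).2 i], Finset.sum_singleton]
  have hall : ∑ i, ∑ c, F c i = (q : R) • P := by
    rw [Finset.sum_comm, ← Finset.sum_filter_add_sum_filter_not Finset.univ
      (fun c : ZMod q => c ≠ 0), hrest, zero_add,
      show Finset.univ.filter (fun c : ZMod q => ¬ c ≠ 0) = {0} by ext c; simp,
      Finset.sum_singleton]
    simp only [F, ZMod.val_zero, Nat.cast_zero, hzero, Finset.sum_const, Finset.card_univ,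
      ZMod.card, Nat.cast_smul_eq_nsmul]
  simp only [AddMonoidHom.sub_apply, AddMonoidHom.smul_apply, AddMonoidHom.finsetSum_apply,
    shift_apply, hzero, Finset.sum_sub_distrib, Finset.sum_const, Finset.card_univ, ZMod.card]
  change q • ((q : R) • P) - ∑ i, ∑ c, F c i = _
  rw [hall, ← Nat.cast_smul_eq_nsmul R, smul_smul, ← sub_smul, mul_sub, mul_one]

/-- **Twisting is injective** on homomorphisms with character ramified at `q`. -/
theorem twist_injective [CharZero R] {ψ : MulChar (ZMod q) R} (hψ : ψ ≠ 1) (hm : ¬ q ∣ m)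
    (hM : q * (m * q) ∣ M') (hM0 : M' ≠ 0) {χ : ZMod (m * q) →* R}
    (hχ : ∃ u : (ZMod q)ˣ, χ (liftQ hm u) ≠ 1) {φ : Additive (G1 (m * q)) →+ B}
    (hφ : IsChiHom χ φ) (h : twist q (dvd_mul_left q m) hM ψ φ = 0) : φ = 0 := by
  have hq0 : (q : R) ≠ 0 := Nat.cast_ne_zero.2 hq.out.ne_zero
  have hq1 : (q : R) - 1 ≠ 0 := sub_ne_zero.mpr (Nat.cast_ne_one.2 hq.out.one_lt.ne')
  have hqM' : q ∣ M' := (dvd_mul_right q _).trans hM
  have hM'' : q * (m * q) ∣ q * M' := hM.trans (dvd_mul_left _ _)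
  have : NeZero (q * M') := ⟨mul_ne_zero hq.out.ne_zero hM0⟩
  have hω := twist_twist q hφ (dvd_mul_left q m) hM hqM' dvd_rfl hM'' hψ
  rw [h, map_zero] at hω
  have hψ1 : ψ (-1) ≠ 0 := ((isUnit_one.neg).map ψ.toMonoidHom).ne_zero
  have hω' := (smul_eq_zero.mp hω.symm).resolve_left hψ1
  refine AddMonoidHom.ext fun δ => ?_
  rw [← ofMul_toMul δ]
  set d : G1 (m * q) := Additive.toMul δ
  obtain ⟨n, hn, -, hnmem⟩ := Subgroup.exists_pow_mem_of_index_ne_zero
    (CongruenceSubgroup.instFiniteIndexGamma (q * M')).index_ne_zero (d : SL(2, ℤ))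
  have hsum := sum_lower_twistBack hm hM'' hχ hφ ⟨_, hnmem⟩
  rw [hω'] at hsum
  simp only [AddMonoidHom.zero_apply, Finset.sum_const_zero] at hsum
  have heq : shiftHom q (dvd_mul_left q m) hM'' 0 (conjFull 1 ⟨_, hnmem⟩) = d ^ n := by
    refine shiftElt_eq_of_mul q (dvd_mul_left q m) hM'' _ ?_
    rw [show shiftGL q 0 = 1 by ext a b; fin_cases a <;> fin_cases b <;> simp, one_mul, mul_one]
    simp [toGL, conjFull]
  rw [heq, ofMul_pow, map_nsmul, ← Nat.cast_smul_eq_nsmul R, smul_smul] at hsum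
  exact (smul_eq_zero.mp hsum.symm).resolve_left
    (mul_ne_zero (mul_ne_zero hq0 hq1) (Nat.cast_ne_zero.2 (by omega)))

end average

end Fermat.Agent.HeckeCohom
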