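import Fermat.Agent.HeckeCohom.TwistExponent
import Fermat.Agent.HeckeCohom.TwistRelations

/-!
# The newform of a complex class with nebentypus

For an eigen homomorphism of `Γ₁(M)` with character of odd order through primes `s` dividing `M`
exactly once, a newform of level dividing `M ∏ s` has the twisted eigenvalues, with exponent two
exactly at the primes where the character is ramified.
-/

set_option autoImplicit false

noncomputable section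

open Matrix CongruenceSubgroup UpperHalfPlane ModularCurve ModularCurve.Period
open scoped MatrixGroups ModularForm

namespace Fermat.Agent.HeckeCohom

open Fermat.Agent.GroupH1 (heckeSystem)

/-- The character is trivial at `q`: it kills the residues `≡ 1` at the other primes of `s`. -/
def TrivialAtPrime {K : Type*} [Field K] {M : ℕ} (s : Finset ℕ) (q : ℕ) (χ : ZMod M →* K) : Prop :=
  ∀ u : (ZMod M)ˣ, (∀ x ∈ s, x ≠ q → ∀ hx : x ∣ M,
    ZMod.castHom hx (ZMod x) (u : ZMod M) = 1) → χ u = 1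

variable {M : ℕ} [NeZero M] {K : Type*} [Field K]

/-- Removing a prime at which the character is trivial. -/
theorem FactorsThrough.sdiff [CharZero K] {s : Finset ℕ} {χ : ZMod M →* K}
    (hs : ∀ x ∈ s, x.Prime ∧ x ∣ M ∧ ¬ x * x ∣ M) (hfac : FactorsThrough s χ) (r : Finset ℕ) :
    r ⊆ s → (∀ q ∈ r, TrivialAtPrime s q χ) → FactorsThrough (s \ r) χ := by
  classical
  induction r using Finset.induction with
  | empty => intro _ _; simpa using hfac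
  | insert q r hqr ih =>
    intro hsub htriv u hu
    have hqs : q ∈ s := hsub (Finset.mem_insert_self q r)
    obtain ⟨hqp, hqM, hqq⟩ := hs q hqs
    have : Fact q.Prime := ⟨hqp⟩
    obtain ⟨m, rfl⟩ := exists_eq_mul_left_of_dvd hqM
    have hm : ¬ q ∣ m := fun hd => hqq (Nat.mul_dvd_mul_right hd q)
    set c : ZMod (m * q) →* ZMod q := ↑(ZMod.castHom (dvd_mul_left q m) (ZMod q))
    set w : (ZMod (m * q))ˣ := Units.map (liftQ hm) (Units.map c u)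
    have hw : χ w = 1 := htriv q (Finset.mem_insert_self q r) w fun x hx hxq hxM => by
      have hxp := (hs x hx).1
      have hxm : x ∣ m := (hxp.dvd_mul.1 hxM).resolve_right fun e =>
        hxq ((Nat.prime_dvd_prime_iff_eq hxp hqp).1 e)
      show ZMod.castHom hxM (ZMod x) (liftQ hm (c u)) = 1
      rw [show ZMod.castHom hxM (ZMod x) (liftQ hm (c u)) = ZMod.castHom hxm (ZMod x)
        (ZMod.castHom (dvd_mul_right m q) (ZMod m) (liftQ hm (c u))) from by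
          obtain ⟨y, hy⟩ := ZMod.intCast_surjective (liftQ hm (c u))
          simp [← hy], castHom_liftQ_left, map_one]
    have hrest : χ ((u * w⁻¹ : (ZMod (m * q))ˣ) : ZMod (m * q)) = 1 := by
      refine ih (fun x hx => hsub (Finset.mem_insert_of_mem hx))
        (fun x hx => htriv x (Finset.mem_insert_of_mem hx)) _ fun x hx hxM => ?_
      let cx : ZMod (m * q) →* ZMod x := ↑(ZMod.castHom hxM (ZMod x))
      suffices Units.map cx u = Units.map cx w by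
        show ((Units.map cx (u * w⁻¹) : (ZMod x)ˣ) : ZMod x) = 1
        rw [map_mul, map_inv, this, mul_inv_cancel, Units.val_one]
      refine Units.ext ?_
      show ZMod.castHom hxM (ZMod x) u = ZMod.castHom hxM (ZMod x) (liftQ hm (c u))
      by_cases hxq : x = q
      · subst hxq
        exact (castHom_liftQ_right hm _).symm
      · obtain ⟨hxs, hxr⟩ := Finset.mem_sdiff.1 hx
        have hxp := (hs x hxs).1
        have hxm : x ∣ m := (hxp.dvd_mul.1 hxM).resolve_right fun e =>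
          hxq ((Nat.prime_dvd_prime_iff_eq hxp hqp).1 e)
        rw [hu x (Finset.mem_sdiff.2 ⟨hxs, fun e => (Finset.mem_insert.1 e).elim hxq hxr⟩) hxM,
          show ZMod.castHom hxM (ZMod x) (liftQ hm (c u)) = ZMod.castHom hxm (ZMod x)
            (ZMod.castHom (dvd_mul_right m q) (ZMod m) (liftQ hm (c u))) from by
              obtain ⟨y, hy⟩ := ZMod.intCast_surjective (liftQ hm (c u))
              simp [← hy], castHom_liftQ_left, map_one]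
    calc χ u = χ ((u * w⁻¹ : (ZMod (m * q))ˣ) : ZMod (m * q)) * χ w := by
          rw [← map_mul, ← Units.val_mul, inv_mul_cancel_right]
      _ = 1 := by rw [hrest, hw, mul_one]

omit [NeZero M] in
/-- A nonzero parabolic eigen homomorphism of `Γ₀(N)` gives a newform of level dividing `N` with
the same eigenvalues. -/
theorem exists_newform_of_heckeOp_eigen {N : ℕ} [NeZero N] {Φ : Additive (Gamma0 N) →+ ℂ}
    (hΦ0 : Φ ≠ 0) (hpar : IsParabolicHom (Gamma0 N) Φ) {D : ℕ}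
    (hND : ∀ {ℓ : ℕ}, ℓ.Prime → ¬ ℓ ∣ D → ¬ ℓ ∣ N) (lam : ℕ → ℂ)
    (hT : ∀ (ℓ : ℕ) [Fact ℓ.Prime], ¬ ℓ ∣ D → heckeOp N ℓ Fact.out ℂ Φ = lam ℓ • Φ) :
    ∃ (M' : ℕ) (_ : NeZero M') (g : CuspForm (Gamma0 M') 2), M' ∣ N ∧ g.IsNewform ∧
      ∀ ℓ : ℕ, ℓ.Prime → ¬ ℓ ∣ D → ModularFormClass.qCoeff ⇑g ℓ = lam ℓ := by
  obtain ⟨p, hp⟩ := eichlerShimuraSurjective N hpar
  have heig : ∀ (ℓ : ℕ) (hℓ : ℓ.Prime) (hn : ¬ ℓ ∣ N), ¬ ℓ ∣ D →
      CuspForm.heckeTLin 2 hℓ hn p.1 = lam ℓ • p.1 ∧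
        CuspForm.heckeTLin 2 hℓ hn p.2 = lam ℓ • p.2 := fun ℓ hℓ hn hn' =>
    heckeTLin_eq_smul_of_periodHomPair hp hℓ hn (@hT ℓ ⟨hℓ⟩ hn')
  obtain ⟨w, hw0, hwe⟩ : ∃ w : CuspForm (Gamma0 N) 2, w ≠ 0 ∧
      ∀ (ℓ : ℕ) (hℓ : ℓ.Prime) (hn : ¬ ℓ ∣ N), ¬ ℓ ∣ D →
        CuspForm.heckeTLin 2 hℓ hn w = lam ℓ • w := by
    by_cases hu : p.1 = 0
    · refine ⟨p.2, fun hv => hΦ0 ?_, fun ℓ hℓ hn hn' => (heig ℓ hℓ hn hn').2⟩
      rw [← hp, show p = 0 from Prod.ext hu hv, map_zero]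
    · exact ⟨p.1, hu, fun ℓ hℓ hn hn' => (heig ℓ hℓ hn hn').1⟩
  obtain ⟨g₀, hg₀, hg₀T⟩ := Newforms.exists_eigenform_of_eigenvector hw0
    (fun ℓ => ℓ.Prime ∧ ¬ ℓ ∣ D) lam (fun ℓ hℓ => ⟨hℓ.1, hND hℓ.1 hℓ.2⟩)
    (fun ℓ hℓ => congrArg (fun f : CuspForm (Gamma0 N) 2 => (⇑f : ℍ → ℂ))
      (hwe ℓ hℓ.1 (hND hℓ.1 hℓ.2) hℓ.2))
  obtain ⟨M', hM', hpos, g, hg, hgood⟩ := Newforms.exists_newform N g₀ hg₀
  have : NeZero M' := ⟨hpos.ne'⟩
  have hgl : ∀ ℓ : ℕ, ℓ.Prime → ¬ ℓ ∣ D → ModularFormClass.qCoeff ⇑g ℓ = lam ℓ :=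
    fun ℓ hℓ hn => (hgood ℓ hℓ (hND hℓ hn)).trans (hg₀T ℓ ⟨hℓ, hn⟩)
  exact ⟨M', ⟨hpos.ne'⟩, g, hM', hg, hgl⟩

/-- A prime dividing `M` exactly once divides a divisor of `M ∏ t`, `q ∉ t`, at most once. -/
theorem factorization_le_one_of_dvd_mul_prod {q : ℕ} (hqp : q.Prime) (hqq : ¬ q * q ∣ M)
    {s' : Finset ℕ} (hs' : ∀ x ∈ s', x.Prime) (hqs' : q ∉ s') {M' : ℕ} (hM'0 : M' ≠ 0)
    (hM' : M' ∣ M * ∏ x ∈ s', x) : M'.factorization q ≤ 1 := by
  have hp0 : ∏ x ∈ s', x ≠ 0 := Finset.prod_ne_zero_iff.2 fun x hx => (hs' x hx).ne_zero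
  have h1 := (Nat.factorization_le_iff_dvd hM'0 (mul_ne_zero (NeZero.ne M) hp0)).2 hM' q
  rw [Nat.factorization_mul (NeZero.ne M) hp0, Finsupp.add_apply,
    Nat.factorization_eq_zero_of_not_dvd (n := ∏ x ∈ s', x) (fun e => ?_), add_zero] at h1
  · refine h1.trans ?_
    by_contra hlt
    exact hqq (by
      rw [← pow_two]; exact (hqp.pow_dvd_iff_le_factorization (NeZero.ne M)).2 (by omega))
  · obtain ⟨x, hx, hx'⟩ := (hqp.prime.dvd_finsetProd_iff _).1 e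
    exact hqs' ((Nat.prime_dvd_prime_iff_eq hqp (hs' x hx)).1 hx' ▸ hx)

omit [NeZero M] in
/-- If `χ₁` mod `m q` agrees with `χ` away from the other primes of `s'` and `χ` is not trivial at
`q`, then `χ₁` is ramified at `q`. -/
theorem exists_liftQ_ne_one {s s' : Finset ℕ} (hsub : s' ⊆ s)
    (hs : ∀ x ∈ s, x.Prime ∧ x ∣ M ∧ ¬ x * x ∣ M)
    {χ : ZMod M →* K} (hfac : FactorsThrough s χ) {m q : ℕ} [Fact q.Prime] [NeZero (m * q)]
    (hqM : q ∣ M) (hm : ¬ q ∣ m) (hd : M ∣ m * q) (hntq : ¬ TrivialAtPrime s q χ)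
    {χ₁ : ZMod (m * q) →* K}
    (hagree : ∀ u : (ZMod (m * q))ˣ,
      (∀ x ∈ s'.erase q, ∀ hxd : x ∣ m * q,
        ZMod.castHom hxd (ZMod x) (u : ZMod (m * q)) = 1) →
      χ₁ u = χ (ZMod.castHom hd (ZMod M) (u : ZMod (m * q)))) :
    ∃ u : (ZMod q)ˣ, χ₁ (liftQ hm u) ≠ 1 := by
  have hqp : q.Prime := Fact.out
  by_contra hcon
  push Not at hcon
  refine hntq fun w hw => ?_
  set c : ZMod M →* ZMod q := ↑(ZMod.castHom hqM (ZMod q))
  set v : (ZMod (m * q))ˣ := Units.map (liftQ hm) (Units.map c w)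
  have hxm : ∀ x ∈ s, x ≠ q → ∀ hx : x ∣ M, x ∣ m := fun x hxs hxq hxM => by
    have hxp := (hs x hxs).1
    exact (hxp.dvd_mul.1 (hxM.trans hd)).resolve_right fun e =>
      hxq ((Nat.prime_dvd_prime_iff_eq hxp hqp).1 e)
  have hvx : ∀ {x : ℕ} (hxm : x ∣ m), ZMod.castHom (hxm.trans (dvd_mul_right m q)) (ZMod x)
      (v : ZMod (m * q)) = 1 := fun {x} hxm => by
    rw [show ZMod.castHom (hxm.trans (dvd_mul_right m q)) (ZMod x) (v : ZMod (m * q))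
      = ZMod.castHom hxm (ZMod x) (ZMod.castHom (dvd_mul_right m q) (ZMod m)
          (liftQ hm (c w))) from by
        obtain ⟨y, hy⟩ := ZMod.intCast_surjective (liftQ hm (c w))
        simp [v, ← hy], castHom_liftQ_left, map_one]
  have h1 := hagree v fun x hx hxd => hvx (hxm x (hsub (Finset.mem_of_mem_erase hx))
    (Finset.ne_of_mem_erase hx) (hs x (hsub (Finset.mem_of_mem_erase hx))).2.1)
  rw [show χ₁ v = 1 from hcon _] at h1
  set cM : ZMod (m * q) →* ZMod M := ↑(ZMod.castHom hd (ZMod M))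
  have hz : χ ((w * (Units.map cM v)⁻¹ : (ZMod M)ˣ) : ZMod M) = 1 := by
    refine hfac _ fun x hx hxM => ?_
    let cx : ZMod M →* ZMod x := ↑(ZMod.castHom hxM (ZMod x))
    suffices Units.map cx w = Units.map cx (Units.map cM v) by
      show ((Units.map cx (w * (Units.map cM v)⁻¹) : (ZMod x)ˣ) : ZMod x) = 1
      rw [map_mul, map_inv, this, mul_inv_cancel, Units.val_one]
    refine Units.ext ?_
    show ZMod.castHom hxM (ZMod x) w = ZMod.castHom hxM (ZMod x) (cM v)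
    have hcc : ZMod.castHom hxM (ZMod x) (cM v)
        = ZMod.castHom (hxM.trans hd) (ZMod x) (v : ZMod (m * q)) := by
      obtain ⟨y, hy⟩ := ZMod.intCast_surjective (v : ZMod (m * q))
      simp [cM, ← hy]
    rw [hcc]
    by_cases hxq : x = q
    · subst hxq
      exact (castHom_liftQ_right hm _).symm
    · rw [hw x hx hxq hxM, hvx (hxm x hx hxq hxM)]
  calc χ w = χ ((w * (Units.map cM v)⁻¹ : (ZMod M)ˣ) : ZMod M)
      * χ (Units.map cM v : (ZMod M)ˣ) := by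
        rw [← map_mul, ← Units.val_mul, inv_mul_cancel_right]
    _ = 1 := by rw [hz, one_mul]; exact h1.symm

/-- **The newform of a complex class.** -/
theorem exists_newform_of_class (h : ℕ) {s : Finset ℕ}
    (hs : ∀ x ∈ s, x.Prime ∧ x ∣ M ∧ ¬ x * x ∣ M) {χ : ZMod M →* ℂ}
    (hord : ∀ u : (ZMod M)ˣ, χ u ^ (2 * h + 1) = 1) (hfac : FactorsThrough s χ)
    {φ : Additive (G1 M) →+ ℂ} (hφ : IsChiHom χ φ) (hφ0 : φ ≠ 0)
    {D : ℕ} (hD0 : D ≠ 0) (hD : M ∣ D) (lam : ℕ → ℂ)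
    (hlam : ∀ (ℓ : ℕ) [Fact ℓ.Prime], ¬ ℓ ∣ D → (heckeSystem M ⊥ ℓ).transfer φ = lam ℓ • φ)
    (hℓ₀ : ∃ ℓ₀ : ℕ, ℓ₀.Prime ∧ ¬ ℓ₀ ∣ D ∧ (ℓ₀ : ZMod (M * ∏ x ∈ s, x)) = 1 ∧
      lam ℓ₀ ≠ 1 + ℓ₀) :
    ∃ (M' : ℕ) (_ : NeZero M') (g : CuspForm (Gamma0 M') 2), M' ∣ M * ∏ x ∈ s, x ∧ g.IsNewform ∧
      (∀ ℓ : ℕ, ℓ.Prime → ¬ ℓ ∣ D →
        ModularFormClass.qCoeff ⇑g ℓ = χ (ℓ : ZMod M) ^ h * lam ℓ) ∧
      ∀ q ∈ s, (TrivialAtPrime s q χ → M'.factorization q ≤ 1) ∧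
        (¬ TrivialAtPrime s q χ → M'.factorization q = 2) := by
  classical
  obtain ⟨ℓ₀, hℓ₀p, hℓ₀D, hℓ₀1, hℓ₀ne⟩ := hℓ₀
  have := Fact.mk hℓ₀p
  set t := s.filter fun q => TrivialAtPrime s q χ with ht
  set s' := s \ t with hs'def
  have hsub : s' ⊆ s := Finset.sdiff_subset
  have hs' : ∀ x ∈ s', x.Prime ∧ x ∣ M ∧ ¬ x * x ∣ M := fun x hx => hs x (hsub hx)
  have hfac' : FactorsThrough s' χ :=
    hfac.sdiff hs t (Finset.filter_subset _ _) fun q hq => (Finset.mem_filter.1 hq).2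
  have hp0 : ∀ r : Finset ℕ, r ⊆ s → ∏ x ∈ r, x ≠ 0 := fun r hr =>
    Finset.prod_ne_zero_iff.2 fun x hx => (hs x (hr hx)).1.ne_zero
  set N := M * ∏ x ∈ s', x with hN
  have : NeZero N := ⟨mul_ne_zero (NeZero.ne M) (hp0 s' hsub)⟩
  have hNs : N ∣ M * ∏ x ∈ s, x :=
    mul_dvd_mul_left M (Finset.prod_dvd_prod_of_subset _ _ _ hsub)
  have hND : ∀ {ℓ : ℕ}, ℓ.Prime → ¬ ℓ ∣ D → ¬ ℓ ∣ N := fun {ℓ} hℓ hn e => by
    rcases hℓ.dvd_mul.1 e with e | e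
    · exact hn (e.trans hD)
    · obtain ⟨x, hx, hx'⟩ := (hℓ.prime.dvd_finsetProd_iff _).1 e
      obtain rfl := (Nat.prime_dvd_prime_iff_eq hℓ (hs' x hx).1).1 hx'
      exact hn ((hs' ℓ hx).2.1.trans hD)
  -- the class on `Γ₀`
  obtain ⟨Φ, hΦ⟩ := exists_twistMap h s' M N hN χ hs' hord hfac'
  set lam' : ℕ → ℂ := fun ℓ => χ (ℓ : ZMod M) ^ h * lam ℓ with hlam'
  have hΦ0 : Φ φ ≠ 0 := fun e => hφ0 ((hΦ φ hφ).1 e)
  have hTΦ : ∀ (ℓ : ℕ) [Fact ℓ.Prime], ¬ ℓ ∣ D →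
      heckeOp N ℓ Fact.out ℂ (Φ φ) = lam' ℓ • Φ φ := fun ℓ _ hn => by
    rw [(hΦ φ hφ).2 ℓ fun e => hn (e.trans hD), hlam ℓ hn, map_smul, smul_smul]
  have hℓ₀N : (ℓ₀ : ZMod N) = 1 := by
    have := congrArg (ZMod.castHom hNs (ZMod N)) hℓ₀1
    rwa [map_natCast, map_one] at this
  have hℓ₀M : (ℓ₀ : ZMod M) = 1 := by
    have := congrArg (ZMod.castHom (dvd_mul_right M _ : M ∣ N) (ZMod M)) hℓ₀N
    rwa [map_natCast, map_one] at this
  have hpar : IsParabolicHom (Gamma0 N) (Φ φ) := by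
    refine isParabolicHom_of_heckeOp_eq_smul hℓ₀N (c := lam ℓ₀) hℓ₀ne ?_
    rw [hTΦ ℓ₀ hℓ₀D, show lam' ℓ₀ = lam ℓ₀ by simp [hlam', hℓ₀M]]
  obtain ⟨M', hM0, g, hM', hg, hgl⟩ :=
    exists_newform_of_heckeOp_eigen hΦ0 hpar hND lam' hTΦ
  have hpos : 0 < M' := Nat.pos_of_ne_zero hM0.out
  refine ⟨M', ⟨hpos.ne'⟩, g, hM'.trans hNs, hg, hgl, fun q hq => ?_⟩
  obtain ⟨hqp, hqM, hqq⟩ := hs q hq
  have : Fact q.Prime := ⟨hqp⟩
  constructor
  · intro htq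
    have hqs' : q ∉ s' := fun e =>
      (Finset.mem_sdiff.1 e).2 (Finset.mem_filter.2 ⟨hq, htq⟩)
    exact factorization_le_one_of_dvd_mul_prod hqp hqq (fun x hx => (hs' x hx).1) hqs' hpos.ne'
      (hN ▸ hM')
  · intro hntq
    have hqs' : q ∈ s' := Finset.mem_sdiff.2 ⟨hq, fun e => hntq (Finset.mem_filter.1 e).2⟩
    obtain ⟨m₀, hm₀⟩ := exists_eq_mul_left_of_dvd hqM
    set R := ∏ x ∈ s'.erase q, x with hR
    have hR0 : R ≠ 0 := hp0 _ ((Finset.erase_subset q s').trans hsub)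
    set m := m₀ * R with hmdef
    have hM2 : m * q = M * R := by rw [hmdef, hm₀]; ring
    have : NeZero (m * q) := ⟨hM2 ▸ mul_ne_zero (NeZero.ne M) hR0⟩
    have : NeZero m := ⟨fun e => NeZero.ne (m * q) (by rw [e, zero_mul])⟩
    have : NeZero (q * (m * q)) := ⟨mul_ne_zero hqp.ne_zero (NeZero.ne _)⟩
    have hN2 : q * (m * q) = N := by
      rw [hM2, hN, ← Finset.mul_prod_erase s' (fun x => x) hqs', ← hR]; ring
    have hm : ¬ q ∣ m := fun e => by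
      rcases hqp.dvd_mul.1 e with e | e
      · exact hqq (hm₀ ▸ Nat.mul_dvd_mul_right e q)
      · obtain ⟨x, hx, hx'⟩ := (hqp.prime.dvd_finsetProd_iff _).1 e
        exact Finset.ne_of_mem_erase hx ((Nat.prime_dvd_prime_iff_eq hqp
          (hs' x (Finset.mem_of_mem_erase hx)).1).1 hx').symm
    obtain ⟨χ₁, hord₁, hfac₁, hagree, T, hT⟩ := exists_twistPartial h (s'.erase q) M (m * q) hM2
      {q} χ (fun x hx => hs' x (Finset.mem_of_mem_erase hx))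
      (fun x hx => by
        rw [Finset.mem_singleton.1 hx]
        exact ⟨hqp, Finset.notMem_erase q s'⟩) hord
      (by rwa [Finset.union_comm, ← Finset.insert_eq, Finset.insert_erase hqs'])
    obtain ⟨hT1, hT2, hT3⟩ := hT φ hφ
    have hd : M ∣ m * q := hM2 ▸ dvd_mul_right M R
    have hram : ∃ u : (ZMod q)ˣ, χ₁ (liftQ hm u) ≠ 1 :=
      exists_liftQ_ne_one hsub hs hfac hqM hm hd hntq (hagree hd)
    set D' := D * R with hD'
    have hD'0 : D' ≠ 0 := mul_ne_zero hD0 hR0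
    have hDD' : ∀ {ℓ : ℕ}, ¬ ℓ ∣ D' → ¬ ℓ ∣ D := fun hn e => hn (e.mul_right R)
    have hmqD : m * q ∣ D' := by rw [hM2]; exact mul_dvd_mul_right hD R
    have hne₁ : ∀ ℓ : ℕ, ℓ.Prime → ¬ ℓ ∣ m * q → χ₁ (ℓ : ZMod (m * q)) ≠ 0 := fun ℓ hℓ hn =>
      (IsUnit.map χ₁ ((ZMod.isUnit_iff_coprime _ _).2 (hℓ.coprime_iff_not_dvd.2 hn))).ne_zero
    refine factorization_eq_two_of_eigenHom hm h hord₁ hfac₁ hram hT1 (fun e => hφ0 (hT2 e))
      hD'0 hmqD (fun ℓ => (χ₁ (ℓ : ZMod (m * q)) ^ h)⁻¹ * lam' ℓ) (fun ℓ hℓ hn => ?_)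
      ⟨ℓ₀, hℓ₀p, fun e => ?_, ?_, ?_⟩ (hN2 ▸ hM') hg.1 (fun ℓ hℓ hn => ?_)
    · have h2 := hT3 ℓ fun e => hDD' hn (e.trans hD)
      rw [hlam ℓ (hDD' hn), map_smul, smul_smul] at h2
      rw [mul_smul, ← h2, smul_smul, inv_mul_cancel₀
        (pow_ne_zero _ (hne₁ ℓ hℓ.out fun e => hn (e.trans hmqD))), one_smul]
    · rcases hℓ₀p.dvd_mul.1 e with e | e
      · exact hℓ₀D e
      · exact hND hℓ₀p hℓ₀D (e.trans ((Finset.prod_dvd_prod_of_subset _ _ _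
          (Finset.erase_subset q s')).trans (dvd_mul_left _ M)))
    · have := congrArg (ZMod.castHom (hN2 ▸ hNs : q * (m * q) ∣ M * ∏ x ∈ s, x)
        (ZMod (q * (m * q)))) hℓ₀1
      rwa [map_natCast, map_one] at this
    · have e1 : (ℓ₀ : ZMod (m * q)) = 1 := by
        have := congrArg (ZMod.castHom (((hN2 ▸ dvd_mul_left _ _ : m * q ∣ N)).trans hNs)
          (ZMod (m * q))) hℓ₀1
        rwa [map_natCast, map_one] at this
      simp only [e1, map_one, one_pow, inv_one, one_mul, hlam', hℓ₀M]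
      exact hℓ₀ne
    · rw [hgl ℓ hℓ (hDD' hn), ← mul_assoc, mul_inv_cancel₀
        (pow_ne_zero _ (hne₁ ℓ hℓ fun e => hn (e.trans hmqD))), one_mul]

end Fermat.Agent.HeckeCohom
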