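import Fermat.Agent.HeckeLattice.Periods
import Fermat.Prelude.Sol.S_ModularForm_heckeU_slash_eq_self_of_mem_Gamma0

/-!
# Coset systems for all `T_ℓ`, `U_q` and their compatibility with periods and with `J`

A sum of slashes over a coset system becomes the transfer on periods; the transfer commutes with
conjugation by `diag(1, -1)` as soon as that conjugation permutes the coset representatives up to
left multiplication by the group.
-/

set_option autoImplicit false

noncomputable section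

open UpperHalfPlane hiding I
open Complex CongruenceSubgroup ModularCurve ModularCurve.Period
open Matrix.SpecialLinearGroup (mapGL)
open scoped MatrixGroups ModularForm

namespace Fermat.Agent.HeckeCohom

open Fermat.Agent.HeckeLattice (CosetSystem toGL rep Idx gamma0System isPrim_comp_gl isPrim_sum
  periodMap_eq_of_isPrim toGL_mul toGL_injective)

variable {N : ℕ}

section periods

variable [NeZero N] {ι : Type*} [Fintype ι]

/-- If `g = ∑ f|β_x` over a coset system, the periods of `g` are the transfer of those of `f`. -/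
theorem periodMap_of_eq_sum_slash (D : CosetSystem (Gamma0 N) ι)
    (hdet : ∀ x, (0 : ℝ) < ((D.β x : GL (Fin 2) ℝ) : Matrix (Fin 2) (Fin 2) ℝ).det)
    (f g : CuspForm (Gamma0 N) 2) (hg : ⇑g = ∑ x, ⇑f ∣[(2 : ℤ)] D.β x) :
    periodMap N g = D.transfer (periodMap N f) := by
  obtain ⟨F, hF⟩ := EichlerShimura.exists_primitive N f
  have hG : EichlerShimura.IsPrim (g : ℍ → ℂ) (∑ x, fun τ => F (D.β x • τ)) := by
    rw [hg]
    exact isPrim_sum _ fun x => isPrim_comp_gl hF.1 (D.β x) (hdet x)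
  refine AddMonoidHom.ext fun γ => ?_
  rw [← ofMul_toMul γ, periodMap_eq_of_isPrim _ hG (Additive.toMul γ) UpperHalfPlane.I,
    CosetSystem.transfer_apply, Finset.sum_apply, Finset.sum_apply]
  set γ' := Additive.toMul γ
  have hstep : ∀ x, F (D.β x • ((γ' : SL(2, ℤ)) • UpperHalfPlane.I))
      = periodMap N f (Additive.ofMul (D.cocycle γ' x))
        + F (D.β (D.next γ' x) • UpperHalfPlane.I) := by
    intro x
    rw [EichlerShimura.periodMap_apply N f hF _ (D.β (D.next γ' x) • UpperHalfPlane.I),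
      sub_add_cancel]
    change F (D.β x • (toGL γ' • UpperHalfPlane.I))
      = F (toGL (D.cocycle γ' x) • (D.β (D.next γ' x) • UpperHalfPlane.I))
    rw [← mul_smul, ← mul_smul]
    exact congrArg (fun A => F (A • UpperHalfPlane.I)) (D.rep_mul γ' x)
  rw [Finset.sum_congr rfl fun x _ => hstep x, Finset.sum_add_distrib]
  rw [show (∑ x, F (D.β (D.next γ' x) • UpperHalfPlane.I)) = ∑ x, F (D.β x • UpperHalfPlane.I) from
    Equiv.sum_comp (D.nextPerm γ') (fun y => F (D.β y • UpperHalfPlane.I))]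
  ring

end periods

section functorial

variable {Γ Δ : Subgroup SL(2, ℤ)} {ι κ : Type*} [Fintype ι] [Fintype κ]

/-- Naturality of the transfer under a conjugation `Φ` of `GL₂(ℝ)` which maps `Γ` to `Δ` by `j`
and one coset system to another, up to left multiplication by `Δ` and a bijection of indices. -/
theorem transfer_comp (D : CosetSystem Γ ι) (E : CosetSystem Δ κ)
    (Φ : GL (Fin 2) ℝ →* GL (Fin 2) ℝ) (j : Γ →* Δ) (hj : ∀ γ, Φ (toGL γ) = toGL (j γ))
    (e : ι ≃ κ) (u : ι → Δ) (hu : ∀ x, Φ (D.β x) = toGL (u x) * E.β (e x))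
    {B : Type*} [AddCommGroup B] (φ : Additive Δ →+ B) :
    (E.transfer φ).comp (MonoidHom.toAdditive j) = D.transfer (φ.comp (MonoidHom.toAdditive j)) := by
  refine AddMonoidHom.ext fun γ => ?_
  obtain ⟨γ, rfl⟩ : ∃ g, Additive.ofMul g = γ := ⟨Additive.toMul γ, rfl⟩
  have hkey : ∀ x, E.cocycle (j γ) (e x) = (u x)⁻¹ * j (D.cocycle γ x) * u (D.next γ x) := by
    intro x
    refine (E.eq_of_rep_mul (y := e (D.next γ x)) ?_).2
    have h := congrArg Φ (D.rep_mul γ x)
    rw [map_mul, map_mul, hu, hu, hj, hj] at h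
    simp only [toGL, Subgroup.coe_mul, Subgroup.coe_inv, map_mul, map_inv] at h ⊢
    simp only [mul_assoc] at h ⊢
    exact eq_inv_mul_of_mul_eq h
  show E.transfer φ (Additive.ofMul (j γ)) = D.transfer _ (Additive.ofMul γ)
  rw [CosetSystem.transfer_apply, CosetSystem.transfer_apply,
    ← e.sum_comp (fun x => φ (Additive.ofMul (E.cocycle (j γ) x)))]
  simp only [hkey, ofMul_mul, ofMul_inv, map_add, map_neg, Finset.sum_add_distrib,
    Finset.sum_neg_distrib]
  rw [show (∑ x, φ (Additive.ofMul (u (D.next γ x)))) = ∑ x, φ (Additive.ofMul (u x)) from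
    Equiv.sum_comp (D.nextPerm γ) (fun y => φ (Additive.ofMul (u y)))]
  simp only [AddMonoidHom.comp_apply, MonoidHom.toAdditive_apply_apply, toMul_ofMul]
  abel

/-- The transfers are `R`-linear when the coefficients form an `R`-module. -/
theorem transfer_smul (D : CosetSystem Γ ι) {R B : Type*} [Semiring R] [AddCommGroup B] [Module R B]
    (c : R) (φ : Additive Γ →+ B) : D.transfer (c • φ) = c • D.transfer φ := by
  refine AddMonoidHom.ext fun γ => ?_
  rw [← ofMul_toMul γ]
  simp only [CosetSystem.transfer_apply, AddMonoidHom.smul_apply, Finset.smul_sum]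

end functorial

section systems

/-- The coset representatives of `U_q`. -/
def repU (q : ℕ) (x : ZMod q) : GL (Fin 2) ℝ := ModularForm.heckeMatrix q x.val

theorem exists_repU_mul {q : ℕ} [NeZero q] (hqN : q ∣ N) (γ : Gamma0 N) (x : ZMod q) :
    ∃ p : ZMod q × Gamma0 N, repU q x * toGL γ = toGL p.2 * repU q p.1 := by
  have hcN : (N : ℤ) ∣ (γ : SL(2, ℤ)) 1 0 :=
    (ZMod.intCast_zmod_eq_zero_iff_dvd _ _).mp (Gamma0_mem.mp γ.2)
  obtain ⟨g', hg', hmul⟩ :=
    P2MW.S_ModularForm_heckeU_slash_eq_self_of_mem_Gamma0.ModularForm.HeckeSlashInvariance.heckeMatrix_mul_of_dvd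
      (γ : SL(2, ℤ)) ((Int.natCast_dvd_natCast.mpr hqN).trans hcN) x
  refine ⟨(_, ⟨g', Gamma0_mem.mpr ?_⟩), hmul⟩
  rw [hg']
  push_cast
  rw [Gamma0_mem.mp γ.2, mul_zero]

theorem eq_of_mapGL_mul_repU {q : ℕ} [NeZero q] (u : SL(2, ℤ)) {x y : ZMod q}
    (h : mapGL ℝ u * repU q x = repU q y) : x = y := by
  have hq : q ≠ 0 := NeZero.ne q
  have hm : ∀ i j : Fin 2, ((mapGL ℝ u * repU q x : GL (Fin 2) ℝ) : Matrix (Fin 2) (Fin 2) ℝ) i j
      = ((repU q y : GL (Fin 2) ℝ) : Matrix (Fin 2) (Fin 2) ℝ) i j := fun i j => by rw [h]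
  have h00 := hm 0 0
  have h01 := hm 0 1
  simp [repU, hq, Matrix.mul_apply, Fin.sum_univ_two] at h00 h01
  rw [h00, Int.cast_one, one_mul, ← ZMod.natCast_val, ← ZMod.natCast_val] at h01
  have h01' : (x.val : ℤ) + u 0 1 * q = y.val := by exact_mod_cast h01
  have := congrArg (Int.cast : ℤ → ZMod q) h01'
  push_cast at this
  rwa [ZMod.natCast_zmod_val, ZMod.natCast_zmod_val, ZMod.natCast_self, mul_zero, add_zero] at this

/-- The coset system of `U_q` on `Γ₀(N)`, `q ∣ N`. -/
def gamma0SystemU (N q : ℕ) [NeZero q] (hqN : q ∣ N) : CosetSystem (Gamma0 N) (ZMod q) where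
  β := repU q
  exists_mul := exists_repU_mul hqN
  inj u _ _ := eq_of_mapGL_mul_repU u

/-- The transfer form of `U_q` on homomorphisms of `Γ₀(N)`. -/
abbrev transferU {N q : ℕ} [NeZero q] (hqN : q ∣ N) {B : Type*} [AddCommGroup B] :
    (Additive (Gamma0 N) →+ B) →+ (Additive (Gamma0 N) →+ B) :=
  (gamma0SystemU N q hqN).transfer

/-- The periods intertwine `U_q` with its transfer. -/
theorem periodMap_heckeULin [NeZero N] {q : ℕ} [NeZero q] (hqN : q ∣ N)
    (f : CuspForm (Gamma0 N) 2) :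
    periodMap N (CuspForm.heckeULin 2 hqN f) = transferU hqN (periodMap N f) := by
  refine periodMap_of_eq_sum_slash (gamma0SystemU N q hqN) (fun x => ?_) f _ ?_
  · rw [← Matrix.GeneralLinearGroup.val_det_apply]
    exact ModularForm.det_heckeMatrix_pos q x.val
  · rw [CuspForm.coe_heckeULin_apply]
    exact P2MW.S_ModularForm_heckeU_slash_eq_self_of_mem_Gamma0.ModularForm.HeckeSlashInvariance.heckeU_eq_sum_zmod
      2 f

end systems

section involution

/-- `diag(1, -1)`. -/
def etaGL : GL (Fin 2) ℝ :=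
  Matrix.GeneralLinearGroup.mkOfDetNeZero !![1, 0; 0, -1] (by simp [Matrix.det_fin_two_of])

/-- Conjugation by `diag(1, -1)`. -/
def etaConj : GL (Fin 2) ℝ →* GL (Fin 2) ℝ := (MulAut.conj etaGL).toMonoidHom

/-- `etaConj A = B` iff `η A = B η`. -/
lemma etaConj_eq_iff {A B : GL (Fin 2) ℝ} :
    etaConj A = B ↔ ((etaGL * A : GL (Fin 2) ℝ) : Matrix (Fin 2) (Fin 2) ℝ)
      = ((B * etaGL : GL (Fin 2) ℝ) : Matrix (Fin 2) (Fin 2) ℝ) := by
  rw [← Units.ext_iff]
  exact mul_inv_eq_iff_eq_mul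

lemma etaConj_toGL (γ : Gamma0 N) : etaConj (toGL γ) = toGL (jConjGamma0 N γ) := by
  rw [etaConj_eq_iff]
  ext i j
  fin_cases i <;> fin_cases j <;>
    simp [etaGL, toGL, jConjMat, Matrix.mul_apply, Fin.sum_univ_two]

/-- The translation `[1, t; 0, 1]` in `Γ₀(N)`. -/
def transl (N : ℕ) (t : ℤ) : Gamma0 N :=
  ⟨(⟨!![1, t; 0, 1], by simp [Matrix.det_fin_two_of]⟩ : SL(2, ℤ)),
    Gamma0_mem.mpr (show (((!![1, t; 0, 1] : Matrix (Fin 2) (Fin 2) ℤ) 1 0 : ℤ) : ZMod N) = 0 by simp)⟩

/-- The matrix of `transl N t`. -/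
lemma coe_transl (N : ℕ) (t : ℤ) :
    ((transl N t : SL(2, ℤ)) : Matrix (Fin 2) (Fin 2) ℤ) = !![1, t; 0, 1] := rfl

lemma exists_etaConj_heckeMatrix {q : ℕ} [NeZero q] (x : ZMod q) :
    ∃ t : Gamma0 N, etaConj (ModularForm.heckeMatrix q x.val) = toGL t * repU q (-x) := by
  have hq : q ≠ 0 := NeZero.ne q
  obtain ⟨t, ht⟩ : (q : ℤ) ∣ (-(x.val : ℤ) - ((-x).val : ℤ)) := by
    rw [← ZMod.intCast_zmod_eq_zero_iff_dvd]
    push_cast
    rw [ZMod.natCast_zmod_val, ZMod.natCast_zmod_val, sub_self]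
  refine ⟨transl N t, ?_⟩
  have ht' : -(x.val : ℝ) - ((-x).val : ℝ) = q * t := by exact_mod_cast ht
  rw [etaConj_eq_iff]
  ext i j
  fin_cases i <;> fin_cases j <;>
    simp [etaGL, toGL, coe_transl, repU, hq, Matrix.mul_apply, Fin.sum_univ_two]
  all_goals (simp only [← ZMod.natCast_val]; linarith)

theorem transferU_charInvolution {q : ℕ} [NeZero q] (hqN : q ∣ N) (R : Type*) [Semiring R]
    {B : Type*} [AddCommGroup B] [Module R B] (φ : Additive (Gamma0 N) →+ B) :
    transferU hqN (charInvolution N R B φ) = charInvolution N R B (transferU hqN φ) := by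
  choose t ht using fun x : ZMod q => exists_etaConj_heckeMatrix (N := N) x
  exact (transfer_comp (gamma0SystemU N q hqN) (gamma0SystemU N q hqN) etaConj (jConjGamma0 N)
    etaConj_toGL (Equiv.neg (ZMod q)) t ht φ).symm

theorem transfer_charInvolution {ℓ : ℕ} [Fact ℓ.Prime] (hℓN : ¬ ℓ ∣ N) (R : Type*) [Semiring R]
    {B : Type*} [AddCommGroup B] [Module R B] (φ : Additive (Gamma0 N) →+ B) :
    HeckeLattice.transfer hℓN (charInvolution N R B φ)
      = charInvolution N R B (HeckeLattice.transfer hℓN φ) := by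
  have hex : ∀ x : Idx ℓ, ∃ t : Gamma0 N,
      etaConj (rep ℓ x) = toGL t * rep ℓ (Equiv.optionCongr (Equiv.neg (ZMod ℓ)) x) := by
    intro x
    cases x using OnePoint.rec with
    | infty =>
      refine ⟨1, ?_⟩
      change etaConj (ModularForm.heckeDiagMatrix ℓ) = toGL (1 : Gamma0 N) * ModularForm.heckeDiagMatrix ℓ
      rw [etaConj_eq_iff]
      have hℓ : ℓ ≠ 0 := (Fact.out : ℓ.Prime).ne_zero
      ext i j
      fin_cases i <;> fin_cases j <;>
        simp [etaGL, toGL, hℓ, Matrix.mul_apply, Fin.sum_univ_two]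
    | coe j => exact exists_etaConj_heckeMatrix j
  choose t ht using hex
  exact (transfer_comp (gamma0System N ℓ hℓN) (gamma0System N ℓ hℓN) etaConj (jConjGamma0 N)
    etaConj_toGL (Equiv.optionCongr (Equiv.neg (ZMod ℓ))) t ht φ).symm

end involution

section pair

variable [NeZero N]

theorem periodHomPair_eq_periods (p : CuspForm (Gamma0 N) 2 × CuspForm (Gamma0 N) 2) :
    periodHomPair N p = periodMap N p.1 + charInvolution N ℂ ℂ (periodMap N p.1)
      + (periodMap N p.2 - charInvolution N ℂ ℂ (periodMap N p.2)) := by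
  obtain ⟨pml, hpml, e⟩ := periodHomPair_def N (EichlerShimura.existsPeriodMapLinear N)
  simp [e, hpml]

/-- `periodHomPair` intertwines `(T_ℓ, T_ℓ)` with the transfer. -/
theorem periodHomPair_heckeTLin {ℓ : ℕ} (hℓ : ℓ.Prime) (hℓN : ¬ ℓ ∣ N)
    (p : CuspForm (Gamma0 N) 2 × CuspForm (Gamma0 N) 2) :
    periodHomPair N (CuspForm.heckeTLin 2 hℓ hℓN p.1, CuspForm.heckeTLin 2 hℓ hℓN p.2)
      = haveI := Fact.mk hℓ; HeckeLattice.transfer hℓN (periodHomPair N p) := by
  have := Fact.mk hℓ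
  rw [periodHomPair_eq_periods, periodHomPair_eq_periods]
  simp only [map_add, map_sub, transfer_charInvolution, HeckeLattice.periodMap_heckeTLin]

/-- `periodHomPair` intertwines `(U_q, U_q)` with the transfer. -/
theorem periodHomPair_heckeULin {q : ℕ} [NeZero q] (hqN : q ∣ N)
    (p : CuspForm (Gamma0 N) 2 × CuspForm (Gamma0 N) 2) :
    periodHomPair N (CuspForm.heckeULin 2 hqN p.1, CuspForm.heckeULin 2 hqN p.2)
      = transferU hqN (periodHomPair N p) := by
  rw [periodHomPair_eq_periods, periodHomPair_eq_periods]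
  simp only [map_add, map_sub, transferU_charInvolution, periodMap_heckeULin]

end pair

end Fermat.Agent.HeckeCohom
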