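import Fermat.Agent.HeckeCohom.Shift
import Fermat.Agent.HeckeCohom.Systems
import Mathlib.NumberTheory.MulChar.Basic

/-!
# Twisting homomorphisms of `Γ₁(M)` by a character mod `q`

`twist ψ φ = ∑_a ψ(a) φ ∘ conj [1, a/q; 0, 1]` sends homomorphisms with character `χ` of level `M`
to homomorphisms with character `χ'` of level `M'` when `χ' ψ² = χ`, and intertwines `ψ(ℓ) T_ℓ`
with `T_ℓ`.
-/

set_option autoImplicit false

noncomputable section

open Matrix CongruenceSubgroup
open scoped MatrixGroups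

namespace Fermat.Agent.HeckeCohom

open Fermat.Agent.GroupH1 (GammaH Adm mem_GammaH GammaH_le_Gamma0 realMat realMat_mul
  realMat_injective coe_mapGL HIdx repInt heckeSystem DoubleSystem toDouble ofAdm det_repInt
  adm_repInt exists_eq_mul_repInt eq_of_mul_repInt_eq repGL coe_repGL transfer_toDouble
  coe_toGL_ofAdm det_realMat)
open Fermat.Agent.HeckeLattice (toGL toGL_mul toGL_injective)

variable {M M' : ℕ}

/-- `Γ₀(M)` normalises `Γ₁(M)`. -/
def conjG1 (g : Gamma0 M) (γ : G1 M) : G1 M :=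
  ⟨(g : SL(2, ℤ)) * γ * (g : SL(2, ℤ))⁻¹, mem_GammaH.mpr (adm_bot_iff.mpr (by
    have hg : ((g.1 1 0 : ℤ) : ZMod M) = 0 := Gamma0_mem.mp g.2
    obtain ⟨h10, h00⟩ := adm_bot_iff.mp (mem_GammaH.mp γ.2)
    have hdet := congrArg (Int.cast : ℤ → ZMod M) g.1.det_coe
    rw [Matrix.det_fin_two] at hdet
    push_cast at hdet
    rw [hg, mul_zero, sub_zero] at hdet
    constructor <;>
      simp [Matrix.SpecialLinearGroup.coe_mul, Matrix.SpecialLinearGroup.coe_inv,
        Matrix.adjugate_fin_two, Matrix.mul_apply, Fin.sum_univ_two, h10, hg, h00, hdet]))⟩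

/-- The matrix of a conjugate in `Γ₁(M)`. -/
lemma coe_conjG1 (g : Gamma0 M) (γ : G1 M) :
    (conjG1 g γ : SL(2, ℤ)) = (g : SL(2, ℤ)) * γ * (g : SL(2, ℤ))⁻¹ := rfl

section chi

variable {R B : Type*} [CommRing R] [AddCommGroup B] [Module R B]

/-- `φ` transforms by the character `χ` (of the lower right entry) under `Γ₀(M)`. -/
def IsChiHom (χ : ZMod M →* R) (φ : Additive (G1 M) →+ B) : Prop :=
  ∀ (g : Gamma0 M) (γ : G1 M),
    φ (Additive.ofMul (conjG1 g γ)) = χ (Gamma0Map M g) • φ (Additive.ofMul γ)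

/-- `Gamma0Map` is the lower right entry mod `M`. -/
lemma Gamma0Map_apply (g : Gamma0 M) : Gamma0Map M g = ((g.1 1 1 : ℤ) : ZMod M) := rfl

/-- Values of `χ` at lower right entries of `Γ₀(M)` only involve units. -/
lemma isUnit_Gamma0Map (g : Gamma0 M) : IsUnit (Gamma0Map M g) :=
  ((Gamma0Map M).toHomUnits g).isUnit

end chi

variable (q : ℕ) [NeZero q] (hqM : q ∣ M) (hM : q * M ∣ M')

/-- `[1, a/q; 0, 1]` as a double system `Γ₁(M) → Γ₁(M')`. -/
def shiftSystem (a : ℤ) : DoubleSystem (G1 M) (G1 M') Unit where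
  β _ := shiftGL q a
  exists_mul γ _ := ⟨((), shiftHom q hqM hM a γ), shiftHom_spec q hqM hM a γ⟩
  inj _ _ _ _ := Subsingleton.elim _ _

lemma transfer_shiftSystem (a : ℤ) {B : Type*} [AddCommGroup B] (φ : Additive (G1 M) →+ B) :
    (shiftSystem q hqM hM a).transfer φ = shift q hqM hM a B φ := by
  refine AddMonoidHom.ext fun γ => ?_
  rw [← ofMul_toMul γ, DoubleSystem.transfer_apply, shift_apply, Fintype.sum_unique,
    ((shiftSystem q hqM hM a).eq_of_rep_mul (y := ())
      (shiftHom_spec q hqM hM a (Additive.toMul γ))).2]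

section hecke

variable {ℓ : ℕ} [hℓ : Fact ℓ.Prime]

/-- `T_ℓ` (or `U_ℓ`) passes through a translation, scaling it by `ℓ`. -/
theorem transfer_shift (hℓq : ¬ ℓ ∣ q) (hiff : ℓ ∣ M ↔ ℓ ∣ M') (a' a : ℤ)
    (ha : (q : ℤ) ∣ a' * ℓ - a) {B : Type*} [AddCommGroup B] (φ : Additive (G1 M) →+ B) :
    (heckeSystem M' ⊥ ℓ).transfer (shift q hqM hM a' B φ)
      = shift q hqM hM a B ((heckeSystem M ⊥ ℓ).transfer φ) := by
  have hq : (q : ℤ) ≠ 0 := Int.natCast_ne_zero.2 (NeZero.ne q)
  have hℓ0 : (ℓ : ℤ) ≠ 0 := Int.natCast_ne_zero.2 hℓ.out.ne_zero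
  have hinjF : ∀ (u : G1 M) (z z' : HIdx M ℓ × Unit),
      toGL u * ((toDouble (heckeSystem M ⊥ ℓ)).β z.1 * (shiftSystem q hqM hM a).β z.2)
        = (toDouble (heckeSystem M ⊥ ℓ)).β z'.1 * (shiftSystem q hqM hM a).β z'.2 → z = z' := by
    intro u z z' h
    refine Prod.ext ((toDouble (heckeSystem M ⊥ ℓ)).inj u _ _ ?_) rfl
    refine mul_right_cancel (b := shiftGL q a) ?_
    rw [mul_assoc]
    exact h
  -- the integral matrices `n` with `[1, a'/q] r = n [1, a/q]`
  have hdiag : ∀ x : HIdx M' ℓ, (q : ℤ) * q ∣ repInt M' ℓ x.1 1 0 ∧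
      (q : ℤ) ∣ a' * repInt M' ℓ x.1 1 1 - a * repInt M' ℓ x.1 0 0 := by
    intro x
    obtain ⟨h10, h00⟩ := adm_bot_iff.mp (adm_repInt (H := (⊥ : Subgroup (ZMod M')ˣ)) x)
    refine ⟨sq_dvd_of_cast_eq_zero hqM hM h10, ?_⟩
    have hcast : ∀ {y : ℤ} {z : ZMod M'}, (y : ZMod M') = z →
        (y : ZMod q) = ZMod.castHom ((dvd_mul_right q M).trans hM) (ZMod q) z := by
      rintro y z rfl
      rw [map_intCast]
    have e10 := hcast h10
    have e00 := hcast h00
    rw [map_zero] at e10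
    rw [map_one] at e00
    have hdet := congrArg (Int.cast : ℤ → ZMod q) (det_repInt x)
    rw [Matrix.det_fin_two] at hdet
    push_cast at hdet
    rw [e10, e00, one_mul, mul_zero, sub_zero] at hdet
    rw [← ZMod.intCast_zmod_eq_zero_iff_dvd] at ha ⊢
    push_cast at ha ⊢
    rwa [hdet, e00, mul_one]
  have hex : ∀ z : Unit × HIdx M' ℓ, ∃ (y : HIdx M ℓ) (k : G1 M),
      shiftMat q a' a (repInt M' ℓ z.2.1) = k.1.1 * repInt M ℓ y.1 := by
    intro z
    obtain ⟨h10, h00⟩ := adm_bot_iff.mp (adm_repInt (H := (⊥ : Subgroup (ZMod M')ˣ)) z.2)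
    obtain ⟨e10, e00, -⟩ := shiftMat_cast (q := q) hM h10 a' a
    have hd : (shiftMat q a' a (repInt M' ℓ z.2.1)).det = ℓ := by
      rw [det_shiftMat (hdiag z.2).1 (hdiag z.2).2, det_repInt]
    have h00' : (repInt M' ℓ z.2.1 0 0 : ZMod M) = 1 := by
      have := congrArg (ZMod.castHom ((dvd_mul_left M q).trans hM) (ZMod M)) h00
      rwa [map_intCast, map_one] at this
    obtain ⟨y, n, hn, hn'⟩ := exists_eq_mul_repInt (M := M) (H := (⊥ : Subgroup (ZMod M)ˣ))
      (adm_bot_iff.mpr ⟨e10, e00.trans h00'⟩) ⟨1, by rw [hd, mul_one]⟩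
    have hn1 : n.det = 1 := by
      rw [hn, Matrix.det_mul, det_repInt (hℓ := hℓ)] at hd
      exact mul_right_cancel₀ hℓ0 (by rw [hd, one_mul])
    exact ⟨y, ofAdm n hn1 hn', hn⟩
  choose y k hk using hex
  have hrel : ∀ z : Unit × HIdx M' ℓ,
      shiftGL q a' * repGL M' ℓ z.2 = toGL (k z) * (repGL M ℓ (y z) * shiftGL q a) := by
    intro z
    refine Units.ext ?_
    simp only [Units.val_mul, coe_repGL, toGL, coe_mapGL]
    rw [← mul_assoc, ← realMat_mul, ← hk z]
    exact shiftGL_mul_eq (hdiag z.2).1 (hdiag z.2).2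
  have hbij : Function.Bijective fun z : Unit × HIdx M' ℓ => ((y z, ()) : HIdx M ℓ × Unit) := by
    rw [Fintype.bijective_iff_injective_and_card]
    refine ⟨fun z z' h => Prod.ext rfl ?_, ?_⟩
    swap
    · rw [Fintype.card_prod, Fintype.card_prod, mul_comm]
      exact congrArg (· * _) (Fintype.card_congr (Equiv.subtypeEquivRight fun x => by rw [hiff]))
    have hyz : y z = y z' := congrArg Prod.fst h
    set u : G1 M := k z * (k z')⁻¹ with hu
    have e : shiftGL q a' * repGL M' ℓ z.2 = toGL u * (shiftGL q a' * repGL M' ℓ z'.2) := by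
      rw [hrel z, hrel z', hyz, ← mul_assoc (toGL u), ← toGL_mul, hu, inv_mul_cancel_right]
    -- `W = r * adj r'` is `ℓ` times an integral matrix
    set r := repInt M' ℓ z.2.1 with hr
    set r' := repInt M' ℓ z'.2.1 with hr'
    set W := r * r'.adjugate with hW
    let V : Matrix (Fin 2) (Fin 2) ℤ :=
      !![q * q * u.1 0 0 - a' * q * u.1 1 0,
         q * q * u.1 0 1 + a' * q * (u.1 0 0 - u.1 1 1) - a' * a' * u.1 1 0;
         q * q * u.1 1 0, q * q * u.1 1 1 + a' * q * u.1 1 0]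
    have hV : ((q : ℤ) * q) • W = (ℓ : ℤ) • V := by
      refine realMat_injective ?_
      have e' : (shiftGL q a' : Matrix (Fin 2) (Fin 2) ℝ) * realMat r
          = realMat u.1.1 * ((shiftGL q a' : Matrix (Fin 2) (Fin 2) ℝ) * realMat r') := by
        have := congrArg Units.val e
        simp only [Units.val_mul, coe_repGL, toGL, coe_mapGL] at this
        exact this
      have e'' : realMat r = (shiftGL q (-a') : Matrix (Fin 2) (Fin 2) ℝ) * (realMat u.1.1 *
          ((shiftGL q a' : Matrix (Fin 2) (Fin 2) ℝ) * realMat r')) := by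
        rw [← e', ← mul_assoc, ← Units.val_mul, shiftGL_add]
        have h1 : (shiftGL q (-a' + a') : Matrix (Fin 2) (Fin 2) ℝ) = 1 := by
          ext i j
          fin_cases i <;> fin_cases j <;> simp
        rw [h1, one_mul]
      have hsm : ∀ (c : ℤ) (A : Matrix (Fin 2) (Fin 2) ℤ), realMat (c • A) = (c : ℝ) • realMat A := by
        intro c A
        ext i j
        show ((c * A i j : ℤ) : ℝ) = (c : ℝ) * ((A i j : ℤ) : ℝ)
        push_cast
        rfl
      have hW' : realMat W = (ℓ : ℝ) • ((shiftGL q (-a') : Matrix (Fin 2) (Fin 2) ℝ) *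
          (realMat u.1.1 * (shiftGL q a' : Matrix (Fin 2) (Fin 2) ℝ))) := by
        rw [hW, realMat_mul, e'']
        simp only [mul_assoc]
        rw [← realMat_mul, Matrix.mul_adjugate, det_repInt, hsm, Int.cast_natCast,
          show realMat (1 : Matrix (Fin 2) (Fin 2) ℤ) = 1 from Matrix.map_one _ (by simp) (by simp)]
        simp only [Matrix.mul_smul, mul_one]
      have hq' : (q : ℝ) ≠ 0 := Nat.cast_ne_zero.2 (NeZero.ne q)
      rw [hsm, hsm, hW', Int.cast_natCast, smul_comm]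
      congr 1
      ext i j
      simp only [Matrix.smul_apply, Matrix.mul_apply, Fin.sum_univ_two]
      fin_cases i <;> fin_cases j <;>
        simp [V, realMat] <;> field_simp <;> ring
    have hcop : ¬ (ℓ : ℤ) ∣ (q : ℤ) * q := fun hd =>
      ((Nat.prime_iff_prime_int.1 hℓ.out).dvd_or_dvd hd).elim
        (fun h => hℓq (Int.natCast_dvd_natCast.1 h)) (fun h => hℓq (Int.natCast_dvd_natCast.1 h))
    have hdvd : ∀ i j, (ℓ : ℤ) ∣ W i j := fun i j =>
      (((Nat.prime_iff_prime_int.1 hℓ.out).dvd_or_dvd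
        ⟨V i j, by simpa using congrFun (congrFun hV i) j⟩)).resolve_left hcop
    choose w hw using hdvd
    have hWw : W = (ℓ : ℤ) • Matrix.of w := by
      ext i j
      simpa using hw i j
    have hwr : Matrix.of w * r' = r := by
      refine smul_right_injective _ hℓ0 ?_
      show (ℓ : ℤ) • (Matrix.of w * r') = (ℓ : ℤ) • r
      rw [← Matrix.smul_mul, ← hWw, hW, mul_assoc, Matrix.adjugate_mul, det_repInt,
        Matrix.mul_smul, mul_one]
    have hw1 : (Matrix.of w).det = 1 := by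
      have := congrArg Matrix.det hwr
      rw [Matrix.det_mul, det_repInt, det_repInt] at this
      exact mul_right_cancel₀ hℓ0 (by rw [this, one_mul])
    exact (eq_of_mul_repInt_eq hw1 hwr).symm
  rw [← transfer_shiftSystem q hqM hM a' φ, ← transfer_shiftSystem q hqM hM a,
    ← transfer_toDouble (heckeSystem M' ⊥ ℓ), ← transfer_toDouble (heckeSystem M ⊥ ℓ),
    DoubleSystem.transfer_comp _ _ hinjF]
  exact DoubleSystem.transfer_transfer _ _ _ (Equiv.ofBijective _ hbij) k (fun z => hrel z) φ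

end hecke

variable {R B : Type*} [CommRing R] [AddCommGroup B] [Module R B]

/-- The shift as a linear map. -/
def shiftₗ (R : Type*) [CommRing R] [Module R B] (a : ℤ) :
    (Additive (G1 M) →+ B) →ₗ[R] (Additive (G1 M') →+ B) where
  toFun := shift q hqM hM a B
  map_add' := map_add (shift q hqM hM a B)
  map_smul' r φ := shift_smul q hqM hM a r φ

/-- The linear shift is `shift`. -/
@[simp] lemma shiftₗ_apply (a : ℤ) (φ : Additive (G1 M) →+ B) :
    shiftₗ q hqM hM R a φ = shift q hqM hM a B φ := rfl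

/-- For a `χ`-homomorphism the shift only depends on `a` mod `q`. -/
theorem shift_congr {χ : ZMod M →* R} {φ : Additive (G1 M) →+ B} (hφ : IsChiHom χ φ) {a a' : ℤ}
    (h : (q : ℤ) ∣ a' - a) : shift q hqM hM a' B φ = shift q hqM hM a B φ := by
  obtain ⟨t, ht⟩ := h
  refine AddMonoidHom.ext fun γ => ?_
  rw [← ofMul_toMul γ, shift_apply, shift_apply]
  set c := Additive.toMul γ
  have hsh : shiftGL q a' = toGL (transl M t) * shiftGL q a := by
    obtain rfl : a' = q * t + a := by linarith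
    ext i j
    have hq' : (q : ℝ) ≠ 0 := Nat.cast_ne_zero.2 (NeZero.ne q)
    fin_cases i <;> fin_cases j <;>
      simp [toGL, coe_transl, Matrix.mul_apply, Fin.sum_univ_two]
    field_simp
    ring
  have he : shiftHom q hqM hM a' c = conjG1 (transl M t) (shiftHom q hqM hM a c) := by
    refine shiftElt_eq_of_mul q hqM hM a' ?_
    rw [hsh, mul_assoc, shiftHom_spec q hqM hM a c]
    simp only [toGL, coe_conjG1, map_mul, map_inv]
    group
  rw [he, hφ, Gamma0Map_apply, coe_transl]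
  simp

/-- The twist by `ψ`. -/
def twist (ψ : MulChar (ZMod q) R) : (Additive (G1 M) →+ B) →ₗ[R] (Additive (G1 M') →+ B) :=
  ∑ a : ZMod q, ψ a • shiftₗ q hqM hM R (a.val : ℤ)

/-- The twist as a sum of shifts. -/
lemma twist_eq_sum (ψ : MulChar (ZMod q) R) (φ : Additive (G1 M) →+ B) :
    twist q hqM hM ψ φ = ∑ a : ZMod q, ψ a • shift q hqM hM (a.val : ℤ) B φ := by
  simp [twist]

/-- The value of a twisted homomorphism. -/
lemma twist_apply (ψ : MulChar (ZMod q) R) (φ : Additive (G1 M) →+ B) (γ : G1 M') :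
    twist q hqM hM ψ φ (Additive.ofMul γ)
      = ∑ a : ZMod q, ψ a • φ (Additive.ofMul (shiftHom q hqM hM (a.val : ℤ) γ)) := by
  simp [twist]

/-- The twist carries character `χ` to any `χ'` with `χ' ψ² = χ`. -/
theorem isChiHom_twist {χ : ZMod M →* R} {χ' : ZMod M' →* R} (ψ : MulChar (ZMod q) R)
    (hχ : ∀ d : (ZMod M')ˣ, χ' d * ψ (ZMod.castHom ((dvd_mul_right q M).trans hM) (ZMod q) d) ^ 2
      = χ (ZMod.castHom ((dvd_mul_left M q).trans hM) (ZMod M) d))
    {φ : Additive (G1 M) →+ B} (hφ : IsChiHom χ φ) : IsChiHom χ' (twist q hqM hM ψ φ) := by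
  intro g γ
  have hg10 : ((g.1 1 0 : ℤ) : ZMod M') = 0 := Gamma0_mem.mp g.2
  have hgq : ((g.1 1 0 : ℤ) : ZMod q) = 0 := by
    have := congrArg (ZMod.castHom ((dvd_mul_right q M).trans hM) (ZMod q)) hg10
    rwa [map_intCast, map_zero] at this
  set d : ZMod q := ((g.1 1 1 : ℤ) : ZMod q) with hd
  have hdd : d * ((g.1 0 0 : ℤ) : ZMod q) = 1 := by
    have hdet := congrArg (Int.cast : ℤ → ZMod q) g.1.det_coe
    rw [Matrix.det_fin_two] at hdet
    push_cast at hdet
    rw [hgq, mul_zero, sub_zero, mul_comm] at hdet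
    exact hdet
  let e : ZMod q ≃ ZMod q := (Units.mulRight (Units.mkOfMulEqOne _ _ hdd * Units.mkOfMulEqOne _ _ hdd))
  have he : ∀ a, e a = a * (d * d) := fun a => rfl
  have key : ∀ a : ZMod q, φ (Additive.ofMul (shiftHom q hqM hM (a.val : ℤ) (conjG1 g γ)))
      = χ ((g.1 1 1 : ℤ) : ZMod M) •
          φ (Additive.ofMul (shiftHom q hqM hM ((e a).val : ℤ) γ)) := by
    intro a
    set a' : ℤ := ((e a).val : ℤ) with ha'
    have hdg : (q : ℤ) ∣ (a.val : ℤ) * g.1 1 1 - a' * g.1 0 0 := by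
      rw [← ZMod.intCast_zmod_eq_zero_iff_dvd, ha']
      push_cast
      rw [ZMod.natCast_zmod_val, ZMod.natCast_zmod_val, he]
      linear_combination -(a * d) * hdd
    have h10 := sq_dvd_of_cast_eq_zero hqM hM hg10
    obtain ⟨n10, -, n11⟩ := shiftMat_cast (q := q) hM hg10 (a.val : ℤ) a'
    let g' : Gamma0 M := ⟨⟨shiftMat q (a.val : ℤ) a' g.1.1, by
      rw [det_shiftMat h10 hdg]; exact g.1.2⟩, Gamma0_mem.mpr n10⟩
    have hgg : shiftGL q (a.val : ℤ) * toGL g = toGL g' * shiftGL q a' := by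
      refine Units.ext ?_
      simp only [Units.val_mul, toGL, coe_mapGL]
      exact shiftGL_mul_eq h10 hdg
    have hsh : shiftHom q hqM hM (a.val : ℤ) (conjG1 g γ) = conjG1 g' (shiftHom q hqM hM a' γ) := by
      refine shiftElt_eq_of_mul q hqM hM _ ?_
      have hginv : shiftGL q a' * (toGL g)⁻¹ = (toGL g')⁻¹ * shiftGL q (a.val : ℤ) := by
        rw [eq_inv_mul_iff_mul_eq, ← mul_assoc, ← hgg, mul_inv_cancel_right]
      calc shiftGL q (a.val : ℤ) * toGL (conjG1 g γ)
          = shiftGL q (a.val : ℤ) * toGL g * toGL γ * (toGL g)⁻¹ := by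
            simp only [toGL, coe_conjG1, map_mul, map_inv, mul_assoc]
        _ = toGL g' * (shiftGL q a' * toGL γ) * (toGL g)⁻¹ := by
            rw [hgg]; simp only [mul_assoc]
        _ = toGL g' * toGL (shiftHom q hqM hM a' γ) * (shiftGL q a' * (toGL g)⁻¹) := by
            rw [shiftHom_spec q hqM hM a' γ]; simp only [mul_assoc]
        _ = _ := by
            rw [hginv]
            simp only [toGL, coe_conjG1, map_mul, map_inv, mul_assoc]
    rw [hsh, hφ, Gamma0Map_apply]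
    exact congrArg (fun t => χ t • _) n11
  have hχd : χ ((g.1 1 1 : ℤ) : ZMod M)
      = χ' (Gamma0Map M' g) * ψ d ^ 2 := by
    have := hχ (isUnit_Gamma0Map g).unit
    rw [IsUnit.unit_spec, Gamma0Map_apply,
      map_intCast (ZMod.castHom ((dvd_mul_right q M).trans hM) (ZMod q)),
      map_intCast (ZMod.castHom ((dvd_mul_left M q).trans hM) (ZMod M))] at this
    rw [← this, Gamma0Map_apply]
  rw [twist_apply, twist_apply, Finset.smul_sum, ← e.sum_comp
    (fun a => χ' (Gamma0Map M' g) • ψ a • φ (Additive.ofMul (shiftHom q hqM hM (a.val : ℤ) γ)))]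
  refine Finset.sum_congr rfl fun a _ => ?_
  rw [key a, smul_smul, smul_smul, hχd, he, map_mul, map_mul]
  congr 1
  ring

/-- The twist intertwines `ψ(ℓ) T_ℓ` on the target with `T_ℓ` on the source. -/
theorem transfer_twist {ℓ : ℕ} [Fact ℓ.Prime] (hℓq : ¬ ℓ ∣ q) (hiff : ℓ ∣ M ↔ ℓ ∣ M')
    (ψ : MulChar (ZMod q) R) (φ : Additive (G1 M) →+ B) :
    ψ (ℓ : ZMod q) • (heckeSystem M' ⊥ ℓ).transfer (twist q hqM hM ψ φ)
      = twist q hqM hM ψ ((heckeSystem M ⊥ ℓ).transfer φ) := by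
  have hu : IsUnit (ℓ : ZMod q) :=
    (ZMod.isUnit_iff_coprime _ _).mpr ((Fact.out : ℓ.Prime).coprime_iff_not_dvd.2 hℓq)
  let e : ZMod q ≃ ZMod q := Units.mulRight hu.unit
  have he : ∀ a, e a = a * (ℓ : ZMod q) := fun a => rfl
  rw [twist_eq_sum, twist_eq_sum, map_sum, Finset.smul_sum,
    ← e.sum_comp (fun a => ψ a • shift q hqM hM (a.val : ℤ) B _)]
  refine Finset.sum_congr rfl fun a _ => ?_
  rw [transfer_smul, smul_smul, he, map_mul, mul_comm (ψ _) (ψ a),
    transfer_shift q hqM hM hℓq hiff (a.val : ℤ) ((e a).val : ℤ) ?_ φ, ← he]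
  rw [← ZMod.intCast_zmod_eq_zero_iff_dvd]
  push_cast
  rw [ZMod.natCast_zmod_val, ZMod.natCast_zmod_val, he, sub_self]

end Fermat.Agent.HeckeCohom
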