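import Fermat.Agent.HeckeCohom.EigenHoms
import Fermat.Agent.HeckeCohom.Boundary
import Fermat.Agent.HeckeCohom.Twist
import Fermat.Agent.GroupH1.HeckePair
import Fermat.Agent.EichlerShimura.Main
import Fermat.Agent.DimFormula.Main

/-!
# From `Γ₁(M)` down to `Γ₀(M)`

`GammaH M ⊤` is `Γ₀(M)` and its Hecke operators are those of `heckeOp`; corestriction divided by
the index descends homomorphisms with trivial character to `Γ₀(M)`. Relations of the Hecke algebra
of cusp forms kill `T_ℓ φ - (1 + ℓ) φ` for every homomorphism `φ`, `ℓ ≡ 1 (mod M)`.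
-/

set_option autoImplicit false

noncomputable section

open Matrix CongruenceSubgroup
open scoped MatrixGroups OnePoint

namespace Fermat.Agent.HeckeCohom

open Fermat.Agent.GroupH1 (GammaH Adm mem_GammaH GammaH_top GammaH_mono realMat coe_mapGL HIdx
  repInt repInt_infty repInt_coe heckeSystem repGL coe_repGL bezA bezB bez_eq DeckData
  deckDataGammaH heckePair resHom resHom_apply DoubleSystem)
open Fermat.Agent.HeckeLattice (toGL CosetSystem rep Idx gamma0System)

/-- Eichler–Shimura at every level. -/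
theorem eichlerShimuraSurjective (N : ℕ) [NeZero N] : EichlerShimuraSurjective N :=
  (Fermat.Agent.EichlerShimura.eichlerShimura_of_le N
    (Fermat.Agent.DimFormula.two_mul_finrank_add_orbits N).ge).2.ge

section top

variable (N : ℕ)

/-- `Γ₀(N)` is `GammaH N ⊤`. -/
def toTop : Gamma0 N ≃* GammaH N (⊤ : Subgroup (ZMod N)ˣ) :=
  MulEquiv.subgroupCongr GammaH_top.symm

/-- Homomorphisms of `GammaH N ⊤` as homomorphisms of `Γ₀(N)`. -/
def topPull (B : Type*) [AddCommGroup B] :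
    (Additive (GammaH N (⊤ : Subgroup (ZMod N)ˣ)) →+ B) →+ (Additive (Gamma0 N) →+ B) :=
  AddMonoidHom.compHom' (toTop N).toMonoidHom.toAdditive

/-- `topPull` evaluates at the image in `GammaH N ⊤`. -/
lemma topPull_apply {B : Type*} [AddCommGroup B]
    (φ : Additive (GammaH N (⊤ : Subgroup (ZMod N)ˣ)) →+ B) (γ : Gamma0 N) :
    topPull N B φ (Additive.ofMul γ) = φ (Additive.ofMul (toTop N γ)) := rfl

/-- `heckeOp` is the operator of `heckeSystem` on `GammaH N ⊤`. -/
theorem heckeOp_topPull (ℓ : ℕ) [hℓ : Fact ℓ.Prime] {B : Type*} [AddCommGroup B]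
    (φ : Additive (GammaH N (⊤ : Subgroup (ZMod N)ˣ)) →+ B) :
    heckeOp N ℓ Fact.out B (topPull N B φ) = topPull N B ((heckeSystem N ⊤ ℓ).transfer φ) := by
  have : NeZero ℓ := ⟨hℓ.out.ne_zero⟩
  have hj : ∀ γ : Gamma0 N, (MonoidHom.id (GL (Fin 2) ℝ)) (toGL γ)
      = toGL ((toTop N).toMonoidHom γ) := fun γ => rfl
  have hℓ0 : ℓ ≠ 0 := hℓ.out.ne_zero
  by_cases h : ℓ ∣ N
  · rw [heckeOp_of_dvd N h]
    refine (transfer_comp (gamma0SystemU N ℓ h) (heckeSystem N ⊤ ℓ) (MonoidHom.id _)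
      (toTop N).toMonoidHom hj
      (Equiv.ofBijective (fun j : ZMod ℓ => (⟨(j : OnePoint (ZMod ℓ)),
        fun e => absurd e (OnePoint.coe_ne_infty j)⟩ : HIdx N ℓ))
        ⟨fun i j e => Option.some_injective _ (congrArg Subtype.val e), fun ⟨x, hx⟩ => by
          cases x using OnePoint.rec with
          | infty => exact absurd h (hx rfl)
          | coe j => exact ⟨j, rfl⟩⟩)
      (fun _ => 1) (fun x => ?_) φ).symm
    refine Units.ext ?_
    show ((repU ℓ x : GL (Fin 2) ℝ) : Matrix (Fin 2) (Fin 2) ℝ) =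
      ((toGL (1 : GammaH N (⊤ : Subgroup (ZMod N)ˣ)) *
        repGL N ℓ ⟨(x : OnePoint (ZMod ℓ)), fun e => absurd e (OnePoint.coe_ne_infty x)⟩ :
          GL (Fin 2) ℝ) : Matrix (Fin 2) (Fin 2) ℝ)
    ext i j
    fin_cases i <;> fin_cases j <;>
      simp [toGL, repU, coe_repGL, repInt_coe, realMat, hℓ0,
        -ZMod.natCast_val]
  · rw [heckeOp_of_not_dvd N h]
    have hb := bez_eq hℓ.out h
    let d : GammaH N (⊤ : Subgroup (ZMod N)ˣ) :=
      ⟨⟨!![(ℓ : ℤ), bezB N ℓ; -(N : ℤ), bezA N ℓ], by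
        rw [Matrix.det_fin_two_of]; linear_combination hb⟩, by
        refine ⟨by simp, ZMod.unitOfCoprime ℓ (hℓ.out.coprime_iff_not_dvd.2 h), trivial, ?_⟩
        simp⟩
    refine (transfer_comp (gamma0System N ℓ h) (heckeSystem N ⊤ ℓ) (MonoidHom.id _)
      (toTop N).toMonoidHom hj
      (Equiv.subtypeUnivEquiv (fun (x : OnePoint (ZMod ℓ)) _ => h)).symm
      (fun x => x.elim d (fun _ => 1)) (fun x => ?_) φ).symm
    refine Units.ext ?_
    have hbR : (bezA N ℓ : ℝ) * ℓ + (bezB N ℓ : ℝ) * N = 1 := by exact_mod_cast hb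
    show ((rep ℓ x : GL (Fin 2) ℝ) : Matrix (Fin 2) (Fin 2) ℝ) = _
    have hd : (toGL d : Matrix (Fin 2) (Fin 2) ℝ) =
        !![(ℓ : ℝ), bezB N ℓ; -(N : ℝ), bezA N ℓ] :=
      (coe_mapGL _).trans (by ext i j; fin_cases i <;> fin_cases j <;> simp [realMat, d])
    cases x using OnePoint.rec with
    | infty =>
      show _ = ((toGL d * repGL N ℓ ⟨∞, fun _ => h⟩ : GL (Fin 2) ℝ) : Matrix (Fin 2) (Fin 2) ℝ)
      rw [Units.val_mul, hd]
      ext i j
      fin_cases i <;> fin_cases j <;>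
        simp [rep, coe_repGL, repInt_infty, realMat, hℓ0,
          Matrix.mul_apply, Fin.sum_univ_two] <;>
        first | ring1 | linear_combination hbR | linear_combination -hbR |
          linear_combination -(ℓ : ℝ) * hbR
    | coe j =>
      ext i k
      fin_cases i <;> fin_cases k <;>
        simp [toGL, rep, heckeSystem, coe_repGL, repInt_coe, realMat, hℓ0,
          -ZMod.natCast_val]

end top

section descend

variable (M : ℕ) [NeZero M]

/-- The units as the quotient `⊤ ⧸ ⊥`. -/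
def topUnits : (⊤ : Subgroup (ZMod M)ˣ) →* (ZMod M)ˣ := Subgroup.topEquiv.toMonoidHom

omit [NeZero M] in
/-- `topUnits M` is surjective. -/
lemma topUnits_surjective : Function.Surjective (topUnits M) := Subgroup.topEquiv.surjective

omit [NeZero M] in
/-- The kernel of `topUnits M` is trivial. -/
lemma mem_bot_iff_topUnits (u : (⊤ : Subgroup (ZMod M)ˣ)) :
    (u : (ZMod M)ˣ) ∈ (⊥ : Subgroup (ZMod M)ˣ) ↔ topUnits M u = 1 := Subgroup.mem_bot

/-- The deck data of `Γ₁(M) ⊆ Γ₀(M)`. -/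
def deckG1 : DeckData (G1 M) (GammaH M (⊤ : Subgroup (ZMod M)ˣ)) (ZMod M)ˣ :=
  deckDataGammaH bot_le (topUnits M) (topUnits_surjective M) (mem_bot_iff_topUnits M)

variable {M} {R B : Type*} [CommRing R] [AddCommGroup B] [Module R B]

/-- The deck transformations of `Γ₁(M)` act on homomorphisms by conjugation. -/
lemma conjSystem_deckG1 (δ : (ZMod M)ˣ) (φ : Additive (G1 M) →+ B) (γ : G1 M) :
    ((deckG1 M).conjSystem δ).transfer φ (Additive.ofMul γ)
      = φ (Additive.ofMul (conjG1 ((toTop M).symm ((deckG1 M).sec δ)) γ)) := by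
  rw [DoubleSystem.transfer_apply, Fintype.sum_unique]
  refine congrArg (fun g => φ (Additive.ofMul g))
    (((deckG1 M).conjSystem δ).eq_of_rep_mul (x := default) (y := default) ?_).2
  simp [DeckData.conjSystem, toGL, coe_conjG1, show ∀ g, (((toTop M).symm g : Gamma0 M) : SL(2, ℤ))
    = (g : SL(2, ℤ)) from fun _ => rfl]

/-- With trivial character the deck transformations act trivially. -/
lemma sum_conjSystem_of_trivial {χ : ZMod M →* R} (hχ : ∀ u : (ZMod M)ˣ, χ u = 1)
    {φ : Additive (G1 M) →+ B} (hφ : IsChiHom χ φ) :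
    ∑ δ, ((deckG1 M).conjSystem δ).transfer φ = Fintype.card (ZMod M)ˣ • φ := by
  rw [← Finset.card_univ, ← Finset.sum_const]
  refine Finset.sum_congr rfl fun δ _ => AddMonoidHom.ext fun γ => ?_
  rw [← ofMul_toMul γ, conjSystem_deckG1, hφ, Gamma0Map_apply,
    show ((((toTop M).symm ((deckG1 M).sec δ) : Gamma0 M).1 1 1 : ℤ) : ZMod M)
      = ((isUnit_Gamma0Map ((toTop M).symm ((deckG1 M).sec δ))).unit : ZMod M) from
      ((IsUnit.unit_spec _).trans (Gamma0Map_apply _)).symm, hχ, one_smul]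

variable (M) (K : Type*) [Field K]

/-- Corestriction to `Γ₀(M)` divided by the index. -/
def descend : (Additive (G1 M) →+ K) →ₗ[K] (Additive (Gamma0 M) →+ K) where
  toFun φ := topPull M K ((Fintype.card (ZMod M)ˣ : K)⁻¹ • (deckG1 M).corSystem.transfer φ)
  map_add' φ ψ := by simp [smul_add]
  map_smul' r φ := by
    have h := ((deckG1 M).corSystem.transferₗ K).map_smul r φ
    simp only [DoubleSystem.transferₗ_apply] at h
    rw [RingHom.id_apply, h, smul_comm]
    exact AddMonoidHom.ext fun _ => rfl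

variable {M K}

/-- `T_ℓ` commutes with `descend`. -/
theorem heckeOp_descend (ℓ : ℕ) [Fact ℓ.Prime] (φ : Additive (G1 M) →+ K) :
    heckeOp M ℓ Fact.out K (descend M K φ)
      = descend M K ((heckeSystem M ⊥ ℓ).transfer φ) := by
  show heckeOp M ℓ Fact.out K (topPull M K _) = topPull M K _
  rw [heckeOp_topPull, transfer_smul]
  refine congrArg (topPull M K) (congrArg _ ?_)
  exact (heckePair bot_le (topUnits M) (topUnits_surjective M) (mem_bot_iff_topUnits M)
    ℓ).transfer_cor φ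

/-- `descend` is a section of restriction on homomorphisms with trivial character. -/
theorem descend_apply_of_trivial [CharZero K] {χ : ZMod M →* K} (hχ : ∀ u : (ZMod M)ˣ, χ u = 1)
    {φ : Additive (G1 M) →+ K} (hφ : IsChiHom χ φ) (γ : G1 M) :
    descend M K φ (Additive.ofMul ⟨γ, GroupH1.GammaH_le_Gamma0 γ.2⟩) = φ (Additive.ofMul γ) := by
  have h := DFunLike.congr_fun ((deckG1 M).res_cor φ) (Additive.ofMul γ)
  rw [sum_conjSystem_of_trivial hχ hφ, resHom_apply] at h
  show (Fintype.card (ZMod M)ˣ : K)⁻¹ •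
    (deckG1 M).corSystem.transfer φ (Additive.ofMul _) = _
  refine (congrArg (_ • ·) h).trans ?_
  rw [AddMonoidHom.nsmul_apply,
    ← Nat.cast_smul_eq_nsmul K, smul_smul, inv_mul_cancel₀ (Nat.cast_ne_zero.2 Fintype.card_ne_zero),
    one_smul]

/-- Descent to `Γ₀(M)` is injective on homomorphisms with trivial character. -/
theorem eq_zero_of_descend_eq_zero [CharZero K] {χ : ZMod M →* K}
    (hχ : ∀ u : (ZMod M)ˣ, χ u = 1) {φ : Additive (G1 M) →+ K} (hφ : IsChiHom χ φ)
    (h : descend M K φ = 0) : φ = 0 :=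
  AddMonoidHom.ext fun γ => by
    rw [← ofMul_toMul γ, ← descend_apply_of_trivial hχ hφ, h]
    rfl

end descend

section relations

variable {N : ℕ} [NeZero N]

omit [NeZero N] in
/-- `T_ℓ φ - (1 + ℓ) φ` is parabolic for `ℓ ≡ 1 (mod N)`. -/
theorem isParabolicHom_heckeOp_sub {ℓ : ℕ} [Fact ℓ.Prime] (h1 : (ℓ : ZMod N) = 1)
    {B : Type*} [AddCommGroup B] [IsAddTorsionFree B] (φ : Additive (Gamma0 N) →+ B) :
    ModularCurve.Period.IsParabolicHom (Gamma0 N)
      (heckeOp N ℓ Fact.out B φ - (1 + ℓ : ℤ) • φ) := by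
  intro γ hγ
  obtain ⟨φ', rfl⟩ : ∃ φ', topPull N B φ' = φ :=
    ⟨φ.comp (toTop N).symm.toMonoidHom.toAdditive, AddMonoidHom.ext fun δ => by simp [topPull]⟩
  rw [heckeOp_topPull, AddMonoidHom.sub_apply, AddMonoidHom.smul_apply, topPull_apply,
    topPull_apply, sub_eq_zero]
  exact nsmul_right_injective two_ne_zero
    (two_nsmul_transfer_apply_parabolic h1 φ' (toTop N γ) hγ)

/-- Relations among Hecke operators on cusp forms kill `T_ℓ φ - (1 + ℓ) φ` for all `φ`. -/
theorem wordAct_heckeOp_sub {S : Set ℕ} {P : FreeAlgebra ℤ (OpIdx S)} (hP : wordEval N S P = 0)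
    {ℓ : ℕ} [Fact ℓ.Prime] (h1 : (ℓ : ZMod N) = 1) {B : Type*} [AddCommGroup B]
    [IsAddTorsionFree B] (φ : Additive (Gamma0 N) →+ B) :
    wordAct N S B P (heckeOp N ℓ Fact.out B φ - (1 + ℓ : ℤ) • φ) = 0 :=
  wordAct_eq_zero_of_wordEval_eq_zero (eichlerShimuraSurjective N) hP _
    (isParabolicHom_heckeOp_sub h1 φ)

omit [NeZero N] in
/-- An eigen homomorphism of `Γ₀(N)` whose eigenvalue at some `ℓ ≡ 1 (mod N)` is not `1 + ℓ` is
parabolic. -/
theorem isParabolicHom_of_heckeOp_eq_smul {ℓ : ℕ} [Fact ℓ.Prime] (h1 : (ℓ : ZMod N) = 1) {c : ℂ}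
    (hc : c ≠ 1 + ℓ) {φ : Additive (Gamma0 N) →+ ℂ} (hφ : heckeOp N ℓ Fact.out ℂ φ = c • φ) :
    ModularCurve.Period.IsParabolicHom (Gamma0 N) φ := by
  intro γ hγ
  have h2 := isParabolicHom_heckeOp_sub h1 φ γ hγ
  rw [hφ, AddMonoidHom.sub_apply, AddMonoidHom.smul_apply, AddMonoidHom.smul_apply,
    ← Int.cast_smul_eq_zsmul ℂ, ← sub_smul, smul_eq_mul] at h2
  refine (mul_eq_zero.mp h2).resolve_left (sub_ne_zero.mpr ?_)
  push_cast
  exact hc

/-- A pair of forms with eigen periods consists of eigenvectors. -/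
theorem heckeTLin_eq_smul_of_periodHomPair {p : CuspForm (Gamma0 N) 2 × CuspForm (Gamma0 N) 2}
    {φ : Additive (Gamma0 N) →+ ℂ} (hp : ModularCurve.periodHomPair N p = φ) {ℓ : ℕ} (hℓ : ℓ.Prime)
    (hn : ¬ ℓ ∣ N) {c : ℂ} (hφ : heckeOp N ℓ hℓ ℂ φ = c • φ) :
    CuspForm.heckeTLin 2 hℓ hn p.1 = c • p.1 ∧ CuspForm.heckeTLin 2 hℓ hn p.2 = c • p.2 := by
  have := Fact.mk hℓ
  have e : ModularCurve.periodHomPair N
      (CuspForm.heckeTLin 2 hℓ hn p.1, CuspForm.heckeTLin 2 hℓ hn p.2)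
      = ModularCurve.periodHomPair N (c • p) := by
    rw [periodHomPair_heckeTLin hℓ hn, map_smul, hp, ← heckeOp_of_not_dvd _ hn, hφ]
  have e' := EichlerShimura.periodHomPair_injective N e
  exact ⟨congrArg Prod.fst e', congrArg Prod.snd e'⟩

end relations

end Fermat.Agent.HeckeCohom
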