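import Fermat.Agent.Lifting.LocalAct
import Fermat.Agent.GroupH1.HeckeMod

/-!
# Actions of `heckeLocal` from residually correct operators

Commuting operators `f` on a finite `O`-module killing all relations of the Hecke algebra, each
congruent to `θ` up to operators nilpotent modulo the maximal ideal, define an action of
`heckeLocal N S O θ`.
-/

set_option autoImplicit false

noncomputable section

open IsLocalRing CuspForm
open scoped TensorProduct

namespace Fermat.Agent.HeckeCohom

section nilp

variable {O : Type} [CommRing O] [IsLocalRing O] [IsNoetherianRing O]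
  {W : Type} [AddCommGroup W] [Module O W] [Module.Finite O W]

/-- Nilpotent modulo the maximal ideal. -/
def IsResNilp (f : Module.End O W) : Prop :=
  ∃ n : ℕ, ∀ w, (f ^ n) w ∈ maximalIdeal O • (⊤ : Submodule O W)

omit [IsNoetherianRing O] in
/-- A unit of `O` minus a residually nilpotent operator is invertible. -/
theorem IsResNilp.isUnit_sub {f : Module.End O W} (hf : IsResNilp f) {c : O} (hc : IsUnit c) :
    IsUnit (algebraMap O (Module.End O W) c - f) := by
  obtain ⟨u, rfl⟩ := hc
  set g : Module.End O W := ((u⁻¹ : Oˣ) : O) • f with hg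
  obtain ⟨n, hn⟩ := hf
  have hgn : ∀ w, (g ^ n) w ∈ maximalIdeal O • (⊤ : Submodule O W) := fun w => by
    rw [hg, smul_pow, LinearMap.smul_apply]
    exact Submodule.smul_mem _ _ (hn w)
  have h1 : IsUnit (1 - g ^ n) := by
    rw [Module.End.isUnit_iff]
    have hsurj : Function.Surjective (1 - g ^ n : Module.End O W) := by
      rw [← LinearMap.range_eq_top]
      refine top_le_iff.1 (Submodule.le_of_le_smul_of_le_jacobson_bot (Module.Finite.fg_top)
        (maximalIdeal_le_jacobson _) fun w _ => ?_)
      rw [← sub_add_cancel w ((g ^ n) w)]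
      exact Submodule.add_mem_sup ⟨w, by simp⟩ (hgn w)
    exact ⟨OrzechProperty.injective_of_surjective_endomorphism _ hsurj, hsurj⟩
  rw [← mul_neg_geom_sum g n] at h1
  have h2 : IsUnit (1 - g) := ((Commute.isUnit_mul_iff
    (Commute.sum_right _ _ _ fun i _ =>
      ((Commute.one_left _).sub_left ((Commute.refl g).pow_right i)))).1 h1).1
  rw [show algebraMap O (Module.End O W) u - f = algebraMap O (Module.End O W) u * (1 - g) by
    rw [mul_sub, mul_one, ← Algebra.smul_def, hg, smul_smul, ← Units.val_mul, mul_inv_cancel,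
      Units.val_one, one_smul]]
  exact (u.isUnit.map _).mul h2

end nilp

section inverse

variable {R E : Type*} [CommRing R] [Ring E] [Algebra R E]

/-- An integral inverse of an element of a subalgebra lies in the subalgebra. -/
theorem mem_of_mul_eq_one (C : Subalgebra R E) {y z : E} (hy : y ∈ C) (hyz : y * z = 1)
    (hzy : z * y = 1) (hz : IsIntegral R z) : z ∈ C := by
  nontriviality E
  obtain ⟨P, hP, hPz⟩ := hz
  change Polynomial.aeval z P = 0 at hPz
  have hd : P.natDegree ≠ 0 := fun h => by
    rw [Polynomial.eq_C_of_natDegree_eq_zero h, Polynomial.aeval_C] at hPz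
    have h1 : P.coeff 0 = 1 := by rw [← h]; exact hP.coeff_natDegree
    rw [h1, map_one] at hPz
    exact one_ne_zero hPz
  obtain ⟨d, hd'⟩ := Nat.exists_eq_succ_of_ne_zero hd
  have hcan : ∀ i ≤ d, z ^ i * y ^ d = y ^ (d - i) := fun i hi => by
    obtain ⟨j, rfl⟩ := Nat.exists_eq_add_of_le hi
    rw [pow_add y, ← mul_assoc, ← (Commute.mul_pow (hzy.trans hyz.symm)), hzy, one_pow, one_mul,
      Nat.add_sub_cancel_left]
  have h := congrArg (· * y ^ d) hPz
  simp only [Polynomial.aeval_eq_sum_range, hd', Finset.sum_range_succ _ (d + 1), add_mul,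
    zero_mul, Finset.sum_mul, Algebra.smul_def, mul_assoc] at h
  rw [show P.coeff (d + 1) = 1 by rw [← Nat.succ_eq_add_one, ← hd']; exact hP.coeff_natDegree,
    map_one, one_mul, pow_succ', mul_assoc, hcan d le_rfl, Nat.sub_self, pow_zero, mul_one,
    add_eq_zero_iff_eq_neg'] at h
  rw [h]
  refine neg_mem (sum_mem fun i hi => mul_mem (C.algebraMap_mem _) ?_)
  rw [hcan i (Nat.lt_succ_iff.1 (Finset.mem_range.1 hi))]
  exact pow_mem hy _

end inverse

section ideal

variable {O : Type} [CommRing O] [IsLocalRing O]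
  {A : Type} [CommRing A] [Algebra O A]
  {W : Type} [AddCommGroup W] [Module O W] [Module A W] [IsScalarTower O A W]

variable (O A W) in
/-- Elements mapping `W` into `𝔪 W`. -/
def resKill : Ideal A where
  carrier := {a | ∀ w : W, a • w ∈ maximalIdeal O • (⊤ : Submodule O W)}
  add_mem' ha hb w := by rw [add_smul]; exact add_mem (ha w) (hb w)
  zero_mem' w := by rw [zero_smul]; exact zero_mem _
  smul_mem' b a ha w := by rw [smul_eq_mul, mul_comm, mul_smul]; exact ha _

lemma isResNilp_lsmul_iff {a : A} :
    IsResNilp (Algebra.lsmul O O W a) ↔ a ∈ (resKill O A W).radical := by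
  simp only [IsResNilp, Ideal.mem_radical_iff, ← map_pow]
  exact Iff.rfl

variable [IsNoetherianRing O] [Module.Finite O W]

/-- Elements of a maximal ideal outside which everything is invertible are residually
nilpotent. -/
theorem isResNilp_of_mem {m : Ideal A} [m.IsMaximal]
    (hinv : ∀ s, s ∉ m → ∃ a : A, ∀ w : W, a • (s • w) = w) {x : A} (hx : x ∈ m) :
    IsResNilp (Algebra.lsmul O O W x) := by
  rw [isResNilp_lsmul_iff, Ideal.radical_eq_sInf, Submodule.mem_sInf]
  rintro (P : Ideal A) ⟨hP, hPp⟩
  set L : A →ₐ[O] Module.End O W := Algebra.lsmul O O W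
  have hker : RingHom.ker L ≤ P := fun a ha => hP fun w => by
    have : L a w = 0 := by rw [RingHom.mem_ker.1 ha]; rfl
    rw [show a • w = L a w from rfl, this]
    exact zero_mem _
  have : IsNoetherian O (Module.End O W) := isNoetherian_of_isNoetherianRing_of_finite O _
  have : Module.Finite O (A ⧸ RingHom.ker L) :=
    Module.Finite.of_injective (Ideal.kerLiftAlg L).toLinearMap (Ideal.kerLiftAlg_injective L)
  have : Module.Finite O (A ⧸ P) :=
    Module.Finite.of_surjective (Ideal.Quotient.factorₐ O hker).toLinearMap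
      (Ideal.Quotient.factor_surjective hker)
  have : P.IsMaximal := by
    have hbot : ((⊥ : Ideal (A ⧸ P)).comap (algebraMap O (A ⧸ P))).IsMaximal := by
      have hprime : ((⊥ : Ideal (A ⧸ P)).comap (algebraMap O (A ⧸ P))).IsPrime := inferInstance
      have hle : maximalIdeal O ≤ (⊥ : Ideal (A ⧸ P)).comap (algebraMap O (A ⧸ P)) := fun r hr => by
        rw [Ideal.mem_comap, Ideal.mem_bot, ← Ideal.Quotient.mk_algebraMap,
          Ideal.Quotient.eq_zero_iff_mem]
        exact hP fun w => by
          rw [algebraMap_smul]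
          exact Submodule.smul_mem_smul hr trivial
      rw [← (maximalIdeal.isMaximal O).eq_of_le hprime.ne_top hle]
      exact maximalIdeal.isMaximal O
    have h := Ideal.isMaximal_of_isIntegral_of_isMaximal_comap (R := O) (⊥ : Ideal (A ⧸ P)) hbot
    have := Ideal.comap_isMaximal_of_surjective (Ideal.Quotient.mk P) Ideal.Quotient.mk_surjective
      (K := ⊥)
    rwa [← RingHom.ker_eq_comap_bot, Ideal.mk_ker] at this
  by_contra hxP
  obtain ⟨s, hsP, hsm⟩ := SetLike.not_le_iff_exists.1 fun hle : P ≤ m =>
    hxP ((this.eq_of_le (Ideal.IsMaximal.ne_top inferInstance) hle).symm ▸ hx)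
  obtain ⟨a, ha⟩ := hinv s hsm
  refine hPp.ne_top (P.eq_top_iff_one.2 ?_)
  rw [← sub_add_cancel (1 : A) (a * s)]
  refine add_mem (hker ?_) (P.mul_mem_left a hsP)
  refine LinearMap.ext fun w => ?_
  show (1 - a * s) • w = 0
  rw [sub_smul, one_smul, mul_smul, ha, sub_self]

end ideal

section lift

variable {O : Type} [CommRing O] [IsDomain O] [IsDiscreteValuationRing O]
  [IsAdicComplete (maximalIdeal O) O]
  {W : Type} [AddCommGroup W] [Module O W] [Module.Finite O W]
  {N : ℕ} [NeZero N] {S : Set ℕ} {θ : heckeAlgebra N 2 S →+* ResidueField O}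

omit [IsAdicComplete (maximalIdeal O) O] in
/-- **Residually correct operators killing all relations give an action of `heckeLocal`.** -/
theorem exists_localLift (C : Subalgebra O (Module.End O W))
    (hC : ∀ x ∈ C, ∀ y ∈ C, x * y = y * x)
    (f : FreeAlgebra ℤ (OpIdx S) →ₐ[ℤ] Module.End O W)
    (hfC : ∀ i, f (FreeAlgebra.ι ℤ i) ∈ C)
    (hkill : ∀ P, wordEval N S P = 0 → f P = 0)
    (hres : ∀ i, ∃ c : O, residue O c = θ (wordEval N S (FreeAlgebra.ι ℤ i)) ∧
      IsResNilp (f (FreeAlgebra.ι ℤ i) - algebraMap O (Module.End O W) c)) :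
    ∃ act : heckeLocal N S O θ →ₐ[O] Module.End O W,
      (∀ x, act x ∈ C) ∧ ∀ P, act (heckeLocal.π N S O θ (wordEval N S P)) = f P := by
  let instC : CommRing C :=
    { (inferInstance : Ring C) with mul_comm := fun a b => Subtype.ext (hC _ a.2 _ b.2) }
  have hfC' : ∀ P, f P ∈ C := fun P => by
    induction P using FreeAlgebra.induction with
    | grade0 r => rw [AlgHom.commutes]; exact intCast_mem C r
    | grade1 i => exact hfC i
    | add a b ha hb => rw [map_add]; exact add_mem ha hb
    | mul a b ha hb => rw [map_mul]; exact mul_mem ha hb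
  let F : FreeAlgebra ℤ (OpIdx S) →+* C := f.toRingHom.codRestrict C hfC'
  have hF : ∀ P, ((F P : C) : Module.End O W) = f P := fun P => rfl
  let ψ : heckeAlgebra N 2 S →+* C :=
    RingHom.liftOfSurjective (wordEval N S).toRingHom wordEval_surjective
      ⟨F, fun P hP => Subtype.ext (hkill P hP)⟩
  have hψ : ∀ P, ψ (wordEval N S P) = F P := fun P =>
    RingHom.liftOfRightInverse_comp_apply _ _ _ _ P
  let Ψ : heckeBaseAlgebra N S O →ₐ[O] C :=
    Algebra.TensorProduct.lift (Algebra.ofId O C)
      (ψ.toIntAlgHom.comp (Lifting.latticeEquiv N S).symm.toAlgHom) fun _ _ => Commute.all _ _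
  have hΨ : ∀ (r : O) (t : heckeAlgebra N 2 S),
      Ψ (latticeBaseChange N S O (r ⊗ₜ t)) = algebraMap O C r * ψ t := fun r t => by
    show algebraMap O C r * ψ ((Lifting.latticeEquiv N S).symm (Lifting.latticeEquiv N S t)) = _
    rw [AlgEquiv.symm_apply_apply]
  let J : Ideal C := (resKill O C W).radical
  have hJ : ∀ y : C, y ∈ J ↔ IsResNilp (y : Module.End O W) := fun y =>
    isResNilp_lsmul_iff.symm
  have hgen : ∀ P, ∃ c : O, residue O c = θ (wordEval N S P) ∧ F P - algebraMap O C c ∈ J := by
    intro P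
    induction P using FreeAlgebra.induction with
    | grade0 r => exact ⟨(r : O), by simp, by simp⟩
    | grade1 i =>
      obtain ⟨c, hc, hn⟩ := hres i
      exact ⟨c, hc, (hJ _).2 hn⟩
    | add a b ha hb =>
      obtain ⟨c, hc, hc'⟩ := ha
      obtain ⟨d, hd, hd'⟩ := hb
      refine ⟨c + d, by rw [map_add, map_add, map_add, hc, hd], ?_⟩
      rw [map_add, map_add, add_sub_add_comm]
      exact add_mem hc' hd'
    | mul a b ha hb =>
      obtain ⟨c, hc, hc'⟩ := ha
      obtain ⟨d, hd, hd'⟩ := hb
      refine ⟨c * d, by rw [map_mul, map_mul, map_mul, hc, hd], ?_⟩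
      rw [map_mul, map_mul, show F a * F b - algebraMap O C c * algebraMap O C d
        = (F a - algebraMap O C c) * F b + algebraMap O C c * (F b - algebraMap O C d) by ring]
      exact add_mem (J.mul_mem_right _ hc') (J.mul_mem_left _ hd')
  have hall : ∀ x : O ⊗[ℤ] heckeAlgebra N 2 S, ∃ c : O,
      residue O c = residualCharacter N S O θ x ∧
        Ψ (latticeBaseChange N S O x) - algebraMap O C c ∈ J := by
    intro x
    induction x using TensorProduct.induction_on with
    | zero => exact ⟨0, by simp, by simp⟩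
    | tmul r t =>
      obtain ⟨P, rfl⟩ := wordEval_surjective (N := N) (S := S) t
      obtain ⟨c, hc, hc'⟩ := hgen P
      refine ⟨r * c, by rw [residualCharacter_tmul, map_mul, hc], ?_⟩
      rw [hΨ, hψ, map_mul, ← mul_sub]
      exact J.mul_mem_left _ hc'
    | add x y hx hy =>
      obtain ⟨c, hc, hc'⟩ := hx
      obtain ⟨d, hd, hd'⟩ := hy
      refine ⟨c + d, by rw [map_add, map_add, hc, hd], ?_⟩
      rw [map_add, map_add, map_add, add_sub_add_comm]
      exact add_mem hc' hd'
  have hunit : ∀ y : heckeLocalSubmonoid N S O θ, IsUnit (Ψ y) := by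
    rintro ⟨_, x, hx, rfl⟩
    obtain ⟨c, hc, hc'⟩ := hall x
    set y := Ψ (latticeBaseChange N S O x)
    have hcu : IsUnit c := notMem_maximalIdeal.1 fun h => Ideal.mem_primeCompl_iff.1 hx
      ((mem_heckeCharKernel_iff N S O θ x).2 (by rw [← hc, (residue_eq_zero_iff c).2 h]))
    have hy : IsUnit (y : Module.End O W) := by
      have := ((hJ _).1 (neg_mem hc')).isUnit_sub hcu
      rwa [show algebraMap O (Module.End O W) c - ((-(y - algebraMap O C c) : C) : Module.End O W)
        = (y : Module.End O W) by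
          rw [neg_sub, AddSubgroupClass.coe_sub, Subalgebra.coe_algebraMap, sub_sub_cancel]] at this
    obtain ⟨u, hu⟩ := hy
    have hmem : ((u⁻¹ : (Module.End O W)ˣ) : Module.End O W) ∈ C :=
      mem_of_mul_eq_one C y.2 (by rw [← hu, Units.mul_inv]) (by rw [← hu, Units.inv_mul])
        (Algebra.IsIntegral.isIntegral _)
    exact IsUnit.of_mul_eq_one (⟨_, hmem⟩ : C)
      (Subtype.ext (show (y : Module.End O W) * _ = 1 by rw [← hu, Units.mul_inv]))
  refine ⟨C.val.comp (IsLocalization.liftAlgHom (M := heckeLocalSubmonoid N S O θ) (f := Ψ) hunit),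
    fun x => ?_, fun P => ?_⟩
  · exact (IsLocalization.liftAlgHom (M := heckeLocalSubmonoid N S O θ) (f := Ψ) hunit x).2
  · rw [AlgHom.comp_apply, ← hF]
    refine congrArg Subtype.val ?_
    simp only [heckeLocal.π, RingHom.comp_apply, IsLocalization.liftAlgHom_apply,
      IsLocalization.lift_eq]
    show Ψ (latticeBaseChange N S O (1 ⊗ₜ wordEval N S P)) = _
    rw [hΨ, map_one, one_mul, hψ]

end lift

end Fermat.Agent.HeckeCohom
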