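import Fermat.Agent.HeckeCohom.Average
import Fermat.Agent.HeckeCohom.Descend

/-!
# Twisting away a character of odd order

For a character `χ` mod `M` of odd order `2 h + 1` which only depends on the residues modulo a set
`s` of primes dividing `M` exactly once, iterated twisting gives a map from `χ`-homomorphisms of
`Γ₁(M)` to homomorphisms of `Γ₀(M ∏ s)`, injective and intertwining `χ(ℓ)^h T_ℓ` with `T_ℓ`
(`χ(ℓ)^h = χ(ℓ)^(-1/2)`).
-/

set_option autoImplicit false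

noncomputable section

open Matrix CongruenceSubgroup
open scoped MatrixGroups

namespace Fermat.Agent.HeckeCohom

open Fermat.Agent.GroupH1 (GammaH Adm mem_GammaH heckeSystem HIdx upperLeft coe_upperLeft
  heckePair)
open Fermat.Agent.HeckeLattice (toGL)

section chiDeck

variable {M : ℕ} [NeZero M] {R B : Type*} [CommRing R] [AddCommGroup B] [Module R B]

/-- The lower right entry of the chosen representative of `δ` is `δ⁻¹`. -/
lemma Gamma0Map_sec (δ : (ZMod M)ˣ) :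
    Gamma0Map M ((toTop M).symm ((deckG1 M).sec δ)) = ((δ⁻¹ : (ZMod M)ˣ) : ZMod M) := by
  have h00 : ((((deckG1 M).sec δ).1 0 0 : ℤ) : ZMod M) = (δ : ZMod M) := by
    have h := (deckG1 M).χ_sec δ
    conv_rhs => rw [← h]
    exact (coe_upperLeft _).symm
  set g := (toTop M).symm ((deckG1 M).sec δ)
  have h10 : ((g.1 1 0 : ℤ) : ZMod M) = 0 := Gamma0_mem.mp g.2
  have hdet := congrArg (Int.cast : ℤ → ZMod M) g.1.det_coe
  rw [Matrix.det_fin_two] at hdet
  push_cast at hdet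
  rw [h10, mul_zero, sub_zero, show ((g.1 0 0 : ℤ) : ZMod M) = δ from h00] at hdet
  rw [Gamma0Map_apply]
  exact (Units.inv_eq_of_mul_eq_one_right hdet).symm

/-- `IsChiHom` in terms of the deck transformations. -/
theorem isChiHom_iff_conjSystem {χ : ZMod M →* R} {φ : Additive (G1 M) →+ B} :
    IsChiHom χ φ ↔ ∀ δ : (ZMod M)ˣ,
      ((deckG1 M).conjSystem δ).transfer φ = χ ((δ⁻¹ : (ZMod M)ˣ) : ZMod M) • φ := by
  constructor
  · intro h δ
    refine AddMonoidHom.ext fun γ => ?_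
    rw [← ofMul_toMul γ, conjSystem_deckG1, h, Gamma0Map_sec]
    rfl
  · intro h g γ
    set δ := topUnits M (upperLeft M ⊤ (toTop M g))
    set s := (toTop M).symm ((deckG1 M).sec δ)
    have hu : ((g : SL(2, ℤ)) * (s : SL(2, ℤ))⁻¹) ∈ G1 M := by
      have hmem := ((deckG1 M).mem_iff (toTop M g * ((deckG1 M).sec δ)⁻¹)).2 (by
        rw [map_mul, map_inv, (deckG1 M).χ_sec]
        exact mul_inv_eq_one.2 rfl)
      exact hmem
    set u : G1 M := ⟨_, hu⟩
    have hg : conjG1 g γ = u * conjG1 s γ * u⁻¹ := Subtype.ext (by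
      simp only [u, Subgroup.coe_mul, Subgroup.coe_inv, coe_conjG1]
      group)
    have hδ : Gamma0Map M g = ((δ⁻¹ : (ZMod M)ˣ) : ZMod M) := by
      have h10 : ((g.1 1 0 : ℤ) : ZMod M) = 0 := Gamma0_mem.mp g.2
      have hdet := congrArg (Int.cast : ℤ → ZMod M) g.1.det_coe
      rw [Matrix.det_fin_two] at hdet
      push_cast at hdet
      rw [h10, mul_zero, sub_zero, show ((g.1 0 0 : ℤ) : ZMod M) = δ from
        (coe_upperLeft (toTop M g)).symm] at hdet
      rw [Gamma0Map_apply]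
      exact (Units.inv_eq_of_mul_eq_one_right hdet).symm
    have hconj := DFunLike.congr_fun (h δ) (Additive.ofMul γ)
    rw [conjSystem_deckG1, AddMonoidHom.smul_apply] at hconj
    rw [hg, ofMul_mul, ofMul_mul, ofMul_inv, map_add, map_add, map_neg, hconj, hδ]
    abel

/-- Hecke operators preserve the character. -/
theorem IsChiHom.transfer {χ : ZMod M →* R} {φ : Additive (G1 M) →+ B} (hφ : IsChiHom χ φ)
    (ℓ : ℕ) [Fact ℓ.Prime] : IsChiHom χ ((heckeSystem M ⊥ ℓ).transfer φ) := by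
  rw [isChiHom_iff_conjSystem] at hφ ⊢
  intro δ
  refine ((heckePair bot_le (topUnits M) (topUnits_surjective M) (mem_bot_iff_topUnits M)
    ℓ).transfer_conj δ φ).symm.trans ?_
  show (heckeSystem M ⊥ ℓ).transfer (((deckG1 M).conjSystem δ).transfer φ) = _
  rw [hφ δ, transfer_smul]

end chiDeck

section shiftZero

variable {M M' : ℕ} (q : ℕ) [NeZero q] (hqM : q ∣ M) (hM : q * M ∣ M')

/-- The shift by `0` is the inclusion. -/
lemma coe_shiftHom_zero (γ : G1 M') : (shiftHom q hqM hM 0 γ : SL(2, ℤ)) = (γ : SL(2, ℤ)) := by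
  have h := shiftHom_spec q hqM hM 0 γ
  rw [show shiftGL q 0 = 1 by ext a b; fin_cases a <;> fin_cases b <;> simp, one_mul, mul_one] at h
  exact (Matrix.SpecialLinearGroup.mapGL_injective h).symm

lemma isChiHom_shift_zero {R B : Type*} [CommRing R] [AddCommGroup B] [Module R B]
    {χ : ZMod M →* R} {φ : Additive (G1 M) →+ B} (hφ : IsChiHom χ φ) :
    IsChiHom (χ.comp (ZMod.castHom ((dvd_mul_left M q).trans hM) (ZMod M) : ZMod M' →* ZMod M))
      (shift q hqM hM 0 B φ) := by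
  intro g γ
  have hd : M ∣ M' := (dvd_mul_left M q).trans hM
  have hg : (g : SL(2, ℤ)) ∈ Gamma0 M := Gamma0_mem.mpr (by
    have := congrArg (ZMod.castHom hd (ZMod M)) (Gamma0_mem.mp g.2)
    rwa [map_intCast, map_zero] at this)
  rw [shift_apply, shift_apply,
    show shiftHom q hqM hM 0 (conjG1 g γ) = conjG1 ⟨_, hg⟩ (shiftHom q hqM hM 0 γ) from
      Subtype.ext (by simp only [coe_shiftHom_zero, coe_conjG1]), hφ]
  simp only [MonoidHom.comp_apply, Gamma0Map_apply, MonoidHom.coe_coe, map_intCast]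

lemma eq_zero_of_shift_zero_eq_zero [NeZero M'] {B : Type*} [AddCommGroup B] [IsAddTorsionFree B]
    (φ : Additive (G1 M) →+ B) (h : shift q hqM hM 0 B φ = 0) : φ = 0 := by
  refine AddMonoidHom.ext fun δ => ?_
  rw [← ofMul_toMul δ]
  set d : G1 M := Additive.toMul δ
  obtain ⟨n, hn, -, hnmem⟩ := Subgroup.exists_pow_mem_of_index_ne_zero
    (GammaH M' (⊥ : Subgroup (ZMod M')ˣ)).index_ne_zero_of_finite (d : SL(2, ℤ))
  have h1 := DFunLike.congr_fun h (Additive.ofMul (⟨_, hnmem⟩ : G1 M'))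
  rw [shift_apply, show shiftHom q hqM hM 0 ⟨_, hnmem⟩ = d ^ n from
    Subtype.ext (coe_shiftHom_zero q hqM hM _), ofMul_pow, map_nsmul] at h1
  exact (nsmul_eq_zero_iff.1 h1).resolve_right (Nat.pos_iff_ne_zero.1 hn)

end shiftZero

section liftQ

variable {m q : ℕ} [hq : Fact q.Prime] (hm : ¬ q ∣ m)

/-- `liftQ u` is `u` mod `q`. -/
lemma castHom_liftQ_right (u : ZMod q) :
    ZMod.castHom (dvd_mul_left q m) (ZMod q) (liftQ hm u) = u := by
  show ZMod.castHom _ _ (liftQFun m q u) = u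
  have : (m : ZMod q) ≠ 0 := fun h => hm ((ZMod.natCast_eq_zero_iff _ _).mp h)
  rw [liftQFun, map_intCast]
  push_cast
  rw [ZMod.natCast_zmod_val]
  field_simp
  ring

/-- `liftQ u` is `1` mod `m`. -/
lemma castHom_liftQ_left (u : ZMod q) :
    ZMod.castHom (dvd_mul_right m q) (ZMod m) (liftQ hm u) = 1 := by
  show ZMod.castHom _ _ (liftQFun m q u) = 1
  rw [liftQFun, map_intCast]
  push_cast
  rw [ZMod.natCast_self, zero_mul, add_zero]

end liftQ

variable {K : Type*} [Field K] [CharZero K]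

/-- `χ` only depends on the residues modulo the primes in `s`. -/
def FactorsThrough (s : Finset ℕ) {M : ℕ} (χ : ZMod M →* K) : Prop :=
  ∀ u : (ZMod M)ˣ, (∀ q ∈ s, ∀ hq : q ∣ M, ZMod.castHom hq (ZMod q) (u : ZMod M) = 1) → χ u = 1

/-- **One step of twisting at `q`.** The character `χ'` agrees with `χ` on residues `≡ 1 (mod q)`
and no longer depends on the residue mod `q`. -/
theorem exists_twistStep (h : ℕ) {m q : ℕ} [hq : Fact q.Prime] (hm : ¬ q ∣ m) [NeZero (m * q)]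
    [NeZero (q * (m * q))] (χ : ZMod (m * q) →* K)
    (hord : ∀ u : (ZMod (m * q))ˣ, χ u ^ (2 * h + 1) = 1) {s : Finset ℕ}
    (hqs : q ∉ s) (hsp : ∀ x ∈ s, x.Prime) (hfac : FactorsThrough (insert q s) χ) :
    ∃ χ' : ZMod (q * (m * q)) →* K, (∀ u : (ZMod (q * (m * q)))ˣ, χ' u ^ (2 * h + 1) = 1) ∧
      FactorsThrough s χ' ∧
      (∀ u : (ZMod (q * (m * q)))ˣ, ZMod.castHom (dvd_mul_right q (m * q)) (ZMod q) (u : ZMod (q * (m * q))) = 1 →
        χ' u = χ (ZMod.castHom (dvd_mul_left (m * q) q) (ZMod (m * q)) (u : ZMod (q * (m * q))))) ∧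
      ∃ T : (Additive (G1 (m * q)) →+ K) →ₗ[K] (Additive (G1 (q * (m * q))) →+ K),
        ∀ φ, IsChiHom χ φ → IsChiHom χ' (T φ) ∧ (T φ = 0 → φ = 0) ∧
          ∀ (ℓ : ℕ) [Fact ℓ.Prime], ¬ ℓ ∣ q → ∀ u : (ZMod (q * (m * q)))ˣ,
            ZMod.castHom (dvd_mul_right q (m * q)) (ZMod q) (u : ZMod (q * (m * q))) = ℓ →
            χ' u ^ h • (heckeSystem (q * (m * q)) ⊥ ℓ).transfer (T φ)
              = χ (ZMod.castHom (dvd_mul_left (m * q) q) (ZMod (m * q)) (u : ZMod (q * (m * q)))) ^ h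
                  • T ((heckeSystem (m * q) ⊥ ℓ).transfer φ) := by
  have hqp : q.Prime := hq.out
  let χq : ZMod q →* K := χ.comp (liftQ hm)
  have hχq : ∀ u : (ZMod q)ˣ, χq u ^ (2 * h + 1) = 1 := fun u =>
    hord (Units.map (liftQ hm) u)
  have hqM1 : q ∣ q * (m * q) := dvd_mul_right _ _
  have hMM1 : m * q ∣ q * (m * q) := dvd_mul_left _ _
  let cq : ZMod (q * (m * q)) →* ZMod q := ZMod.castHom hqM1 (ZMod q)
  let cM : ZMod (q * (m * q)) →* ZMod (m * q) := ZMod.castHom hMM1 (ZMod (m * q))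
  have hcc : ∀ x, ZMod.castHom (dvd_mul_left q m) (ZMod q) (cM x) = cq x := fun x => by
    obtain ⟨x, rfl⟩ := ZMod.intCast_surjective x
    simp [cq, cM]
  let χ' : ZMod (q * (m * q)) →* K := χ.comp cM * (χq.comp cq) ^ (2 * h)
  have hχ' : ∀ x, χ' x = χ (cM x) * χq (cq x) ^ (2 * h) := fun x => rfl
  have hord' : ∀ u : (ZMod (q * (m * q)))ˣ, χ' u ^ (2 * h + 1) = 1 := fun u => by
    rw [hχ', mul_pow, ← pow_mul, mul_comm (2 * h), pow_mul]
    have e1 := hord (Units.map cM u)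
    have e2 := hχq (Units.map cq u)
    simp only [Units.coe_map] at e1 e2
    rw [e1, e2, one_pow, one_mul]
  -- `χ` factors as `χq` times a character trivial on residues `≡ 1` mod the primes in `s`
  have hfac' : FactorsThrough s χ' := by
    intro u hu
    set v : (ZMod (m * q))ˣ := Units.map cM u
    set w : (ZMod (m * q))ˣ := Units.map (liftQ hm) (Units.map cq u)
    have hz : χ ((v * w⁻¹ : (ZMod (m * q))ˣ) : ZMod (m * q)) = 1 := by
      refine hfac _ fun x hx hxM => ?_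
      let c : (ZMod (m * q))ˣ →* (ZMod x)ˣ :=
        Units.map (ZMod.castHom hxM (ZMod x) : ZMod (m * q) →* ZMod x)
      suffices c v = c w by
        show ((c (v * w⁻¹) : (ZMod x)ˣ) : ZMod x) = 1
        rw [map_mul, map_inv, this, mul_inv_cancel, Units.val_one]
      refine Units.ext ?_
      show ZMod.castHom hxM (ZMod x) (cM u) = ZMod.castHom hxM (ZMod x) (liftQ hm (cq u))
      rcases Finset.mem_insert.1 hx with e | hx'
      · subst e
        rw [hcc, castHom_liftQ_right]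
      · have hxp : x.Prime := hsp x hx'
        have hxm : x ∣ m := (hxp.dvd_mul.1 hxM).resolve_right fun e =>
          hqs ((Nat.prime_dvd_prime_iff_eq hxp hqp).1 e ▸ hx')
        have h1 : ZMod.castHom hxM (ZMod x) (cM u) = 1 := by
          rw [← hu x hx' (hxM.trans hMM1)]
          obtain ⟨y, hy⟩ := ZMod.intCast_surjective (u : ZMod (q * (m * q)))
          simp [cM, ← hy]
        rw [h1, show ZMod.castHom hxM (ZMod x) (liftQ hm (cq u)) = ZMod.castHom hxm (ZMod x)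
          (ZMod.castHom (dvd_mul_right m q) (ZMod m) (liftQ hm (cq u))) from by
            obtain ⟨y, hy⟩ := ZMod.intCast_surjective (liftQ hm (cq u))
            simp [← hy], castHom_liftQ_left, map_one]
    have e : χ (cM u) = χq (cq u) := by
      have := congrArg (· * χ (w : ZMod (m * q))) hz
      simp only [one_mul] at this
      rw [← map_mul, ← Units.val_mul, inv_mul_cancel_right] at this
      exact this
    rw [hχ', e, ← pow_succ']
    exact hχq (Units.map cq u)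
  -- the twist by `χq ^ (h + 1)`, or restriction if `χq` is trivial
  obtain ⟨T, hT⟩ : ∃ T : (Additive (G1 (m * q)) →+ K) →ₗ[K] (Additive (G1 (q * (m * q))) →+ K),
      ∀ φ, IsChiHom χ φ → IsChiHom χ' (T φ) ∧ (T φ = 0 → φ = 0) ∧
        ∀ (ℓ : ℕ) [Fact ℓ.Prime], ¬ ℓ ∣ q →
          (heckeSystem (q * (m * q)) ⊥ ℓ).transfer (T φ)
            = χq (ℓ : ZMod q) ^ h • T ((heckeSystem (m * q) ⊥ ℓ).transfer φ) := by
    have hℓdvd : ∀ ℓ : ℕ, ℓ.Prime → ¬ ℓ ∣ q → ¬ ℓ ∣ q ∧ (ℓ ∣ m * q ↔ ℓ ∣ q * (m * q)) :=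
      fun ℓ hℓ hn => ⟨hn, fun e => e.trans (dvd_mul_left _ _),
        fun e => (hℓ.dvd_mul.1 e).elim (absurd · hn) id⟩
    by_cases hram : ∃ u : (ZMod q)ˣ, χ (liftQ hm u) ≠ 1
    · let ψ : MulChar (ZMod q) K :=
        MulChar.ofUnitHom ((χq.comp (Units.coeHom (ZMod q))) ^ (h + 1)).toHomUnits
      have hψu : ∀ u : (ZMod q)ˣ, ψ u = χq u ^ (h + 1) := fun u => by
        rw [MulChar.ofUnitHom_coe]; rfl
      have hψ : ψ ≠ 1 := fun e => by
        obtain ⟨u, hu⟩ := hram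
        refine hu ?_
        have h1 : χq u ^ (h + 1) = 1 := by rw [← hψu, e, MulChar.one_apply_coe]
        calc χq u = χq u * χq u ^ (2 * h + 1) := by rw [hχq, mul_one]
          _ = (χq u ^ (h + 1)) ^ 2 := by ring
          _ = 1 := by rw [h1, one_pow]
      refine ⟨twist q (dvd_mul_left q m) (M' := q * (m * q)) dvd_rfl ψ, fun φ hφ => ⟨?_,
        twist_injective hψ hm dvd_rfl (NeZero.ne _) hram hφ, fun ℓ hℓ hℓM => ?_⟩⟩
      · refine isChiHom_twist q _ _ ψ (fun d => ?_) hφ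
        show χ' d * ψ ((Units.map cq d : (ZMod q)ˣ) : ZMod q) ^ 2 = χ (cM d)
        rw [hψu, hχ', mul_assoc]
        show χ (cM d) * (χq (cq d) ^ (2 * h) * (χq (cq d) ^ (h + 1)) ^ 2) = _
        rw [← pow_mul, ← pow_add, show 2 * h + (h + 1) * 2 = (2 * h + 1) * 2 by ring, pow_mul,
          show χq (cq d) = χq ((Units.map cq d : (ZMod q)ˣ) : ZMod q) from rfl, hχq, one_pow,
          mul_one]
      · obtain ⟨h1, h2⟩ := hℓdvd ℓ hℓ.out hℓM
        rw [← transfer_twist q _ _ h1 h2, smul_smul]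
        set v : (ZMod q)ˣ := ZMod.unitOfCoprime ℓ (hℓ.out.coprime_iff_not_dvd.2 h1)
        have hv : (ℓ : ZMod q) = (v : ZMod q) := rfl
        rw [hv, hψu, ← pow_add, show h + (h + 1) = 2 * h + 1 by ring, hχq, one_smul]
    · push Not at hram
      have hone : ∀ u : (ZMod q)ˣ, χq u = 1 := hram
      refine ⟨shiftₗ q (dvd_mul_left q m) (M' := q * (m * q)) dvd_rfl K 0, fun φ hφ => ⟨?_,
        eq_zero_of_shift_zero_eq_zero q _ _ φ, fun ℓ hℓ hℓM => ?_⟩⟩
      · intro g γ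
        rw [shiftₗ_apply, isChiHom_shift_zero q _ _ hφ g γ, hχ',
          show cq (Gamma0Map _ g) = ((Units.map cq (isUnit_Gamma0Map g).unit : (ZMod q)ˣ) :
            ZMod q) from rfl, hone, one_pow, mul_one]
        rfl
      · obtain ⟨h1, h2⟩ := hℓdvd ℓ hℓ.out hℓM
        rw [show (ℓ : ZMod q) = ((ZMod.unitOfCoprime ℓ (hℓ.out.coprime_iff_not_dvd.2 h1) :
          (ZMod q)ˣ) : ZMod q) from rfl, hone, one_pow, one_smul, shiftₗ_apply, shiftₗ_apply]
        exact transfer_shift q _ _ h1 h2 0 0 (by simp) φ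
  refine ⟨χ', hord', hfac', fun u hu => ?_, T, fun φ hφ => ?_⟩
  · rw [hχ', show cq u = 1 from hu, map_one, one_pow, mul_one]
    rfl
  obtain ⟨hT1, hT2, hT3⟩ := hT φ hφ
  refine ⟨hT1, hT2, fun ℓ hℓ hℓq u hu => ?_⟩
  rw [hT3 ℓ hℓq, smul_smul, hχ', show cq (u : ZMod (q * (m * q))) = (ℓ : ZMod q) from hu,
    show cM (u : ZMod (q * (m * q)))
      = ZMod.castHom hMM1 (ZMod (m * q)) (u : ZMod (q * (m * q))) from rfl]
  set v : (ZMod q)ˣ := ZMod.unitOfCoprime ℓ (hℓ.out.coprime_iff_not_dvd.2 hℓq)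
  rw [show (ℓ : ZMod q) = (v : ZMod q) from rfl, mul_pow, mul_assoc, ← pow_mul, ← pow_add,
    show 2 * h * h + h = (2 * h + 1) * h by ring, pow_mul, hχq, one_pow, mul_one]

/-- **Iterated twisting, keeping the primes in `t`.** -/
theorem exists_twistPartial (h : ℕ) (s : Finset ℕ) :
    ∀ (M M' : ℕ) [NeZero M] [NeZero M'], M' = M * ∏ q ∈ s, q → ∀ (t : Finset ℕ) (χ : ZMod M →* K),
      (∀ q ∈ s, q.Prime ∧ q ∣ M ∧ ¬ q * q ∣ M) → (∀ x ∈ t, x.Prime ∧ x ∉ s) →
      (∀ u : (ZMod M)ˣ, χ u ^ (2 * h + 1) = 1) → FactorsThrough (s ∪ t) χ →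
      ∃ χ' : ZMod M' →* K, (∀ u : (ZMod M')ˣ, χ' u ^ (2 * h + 1) = 1) ∧ FactorsThrough t χ' ∧
        (∀ (hd : M ∣ M') (u : (ZMod M')ˣ),
          (∀ q ∈ s, ∀ hq : q ∣ M', ZMod.castHom hq (ZMod q) (u : ZMod M') = 1) →
            χ' u = χ (ZMod.castHom hd (ZMod M) (u : ZMod M'))) ∧
        ∃ T : (Additive (G1 M) →+ K) →ₗ[K] (Additive (G1 M') →+ K),
          ∀ φ, IsChiHom χ φ → IsChiHom χ' (T φ) ∧ (T φ = 0 → φ = 0) ∧
            ∀ (ℓ : ℕ) [Fact ℓ.Prime], ¬ ℓ ∣ M →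
              χ' (ℓ : ZMod M') ^ h • (heckeSystem M' ⊥ ℓ).transfer (T φ)
                = χ (ℓ : ZMod M) ^ h • T ((heckeSystem M ⊥ ℓ).transfer φ) := by
  classical
  induction s using Finset.induction with
  | empty =>
    intro M M' _ _ hM' t χ _ _ hord hfac
    obtain rfl : M' = M := by simpa using hM'
    exact ⟨χ, hord, by simpa using hfac, fun hd u _ => by rw [ZMod.castHom_self]; rfl,
      LinearMap.id, fun φ hφ => ⟨hφ, fun e => e, fun ℓ _ _ => rfl⟩⟩
  | insert q s hqs ih =>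
    intro M M' _ _ hM' t χ hs ht hord hfac
    obtain ⟨hqp, hqM, hqq⟩ := hs q (Finset.mem_insert_self q s)
    have : Fact q.Prime := ⟨hqp⟩
    obtain ⟨m, rfl⟩ := exists_eq_mul_left_of_dvd hqM
    have hm : ¬ q ∣ m := fun hd => hqq (Nat.mul_dvd_mul_right hd q)
    have : NeZero (q * (m * q)) := ⟨mul_ne_zero hqp.ne_zero (NeZero.ne _)⟩
    have hM1 : M' = q * (m * q) * ∏ x ∈ s, x := by
      rw [hM', Finset.prod_insert hqs]; ring
    have hqst : q ∉ s ∪ t := fun e => (Finset.mem_union.1 e).elim hqs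
      fun e => (ht q e).2 (Finset.mem_insert_self q s)
    have hstp : ∀ x ∈ s ∪ t, x.Prime := fun x e => (Finset.mem_union.1 e).elim
      (fun e => (hs x (Finset.mem_insert_of_mem e)).1) (fun e => (ht x e).1)
    obtain ⟨χ₁, hord₁, hfac₁, hagree₁, T₁, hT₁⟩ :=
      exists_twistStep h hm χ hord hqst hstp (by rwa [← Finset.insert_union])
    have hs' : ∀ x ∈ s, x.Prime ∧ x ∣ q * (m * q) ∧ ¬ x * x ∣ q * (m * q) := by
      intro x hx
      obtain ⟨hxp, hxM, hxx⟩ := hs x (Finset.mem_insert_of_mem hx)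
      have h1 : Nat.Coprime x q := (Nat.coprime_primes hxp hqp).2 fun e => hqs (e ▸ hx)
      exact ⟨hxp, hxM.trans (dvd_mul_left _ _),
        fun hd => hxx ((Nat.Coprime.mul_left h1 h1).dvd_of_dvd_mul_left hd)⟩
    obtain ⟨χ₂, hord₂, hfac₂, hagree₂, T₂, hT₂⟩ := ih (q * (m * q)) M' hM1 t χ₁ hs'
      (fun x hx => ⟨(ht x hx).1, fun e => (ht x hx).2 (Finset.mem_insert_of_mem e)⟩) hord₁ hfac₁
    refine ⟨χ₂, hord₂, hfac₂, fun hd u hu => ?_, T₂.comp T₁, fun φ hφ => ?_⟩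
    · have hd1 : q * (m * q) ∣ M' := hM1 ▸ dvd_mul_right _ _
      let u₁ : (ZMod (q * (m * q)))ˣ :=
        Units.map (ZMod.castHom hd1 (ZMod (q * (m * q))) : ZMod M' →* ZMod (q * (m * q))) u
      have hcc : ∀ {a : ℕ} (ha : a ∣ q * (m * q)) (x : ZMod M'),
          ZMod.castHom ha (ZMod a) (ZMod.castHom hd1 (ZMod (q * (m * q))) x)
            = ZMod.castHom (ha.trans hd1) (ZMod a) x :=
        fun ha x => DFunLike.congr_fun (Subsingleton.elim
          ((ZMod.castHom ha _).comp (ZMod.castHom hd1 (ZMod (q * (m * q)))))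
          (ZMod.castHom (ha.trans hd1) _)) x
      rw [hagree₂ hd1 u fun x hx hxd => hu x (Finset.mem_insert_of_mem hx) hxd,
        show ZMod.castHom hd1 (ZMod (q * (m * q))) (u : ZMod M') = (u₁ : ZMod (q * (m * q))) from rfl,
        hagree₁ u₁ ((hcc _ _).trans (hu q (Finset.mem_insert_self q s) _))]
      exact congrArg χ (hcc _ _)
    · obtain ⟨h1, h2, h3⟩ := hT₁ φ hφ
      obtain ⟨h4, h5, h6⟩ := hT₂ _ h1
      refine ⟨h4, fun e => h2 (h5 e), fun ℓ hℓ hℓM => ?_⟩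
      have hℓM1 : ¬ ℓ ∣ q * (m * q) := fun e => (hℓ.out.dvd_mul.1 e).elim
        (fun e => hℓM (e.trans (dvd_mul_left q m))) hℓM
      have h3' := h3 ℓ (fun e => hℓM (e.trans (dvd_mul_left q m)))
        (ZMod.unitOfCoprime ℓ (hℓ.out.coprime_iff_not_dvd.2 hℓM1)) (map_natCast _ ℓ)
      rw [ZMod.coe_unitOfCoprime, map_natCast (ZMod.castHom (dvd_mul_left (m * q) q) _)] at h3'
      rw [LinearMap.comp_apply, LinearMap.comp_apply, h6 ℓ hℓM1, ← map_smul, h3', map_smul]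

/-- **Iterated twisting.** -/
theorem exists_twistMap (h : ℕ) (s : Finset ℕ) :
    ∀ (M M' : ℕ) [NeZero M] [NeZero M'], M' = M * ∏ q ∈ s, q → ∀ (χ : ZMod M →* K),
      (∀ q ∈ s, q.Prime ∧ q ∣ M ∧ ¬ q * q ∣ M) → (∀ u : (ZMod M)ˣ, χ u ^ (2 * h + 1) = 1) →
      FactorsThrough s χ →
      ∃ Φ : (Additive (G1 M) →+ K) →ₗ[K] (Additive (Gamma0 M') →+ K),
        ∀ φ, IsChiHom χ φ → (Φ φ = 0 → φ = 0) ∧
          ∀ (ℓ : ℕ) [Fact ℓ.Prime], ¬ ℓ ∣ M → heckeOp M' ℓ Fact.out K (Φ φ)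
            = χ (ℓ : ZMod M) ^ h • Φ ((heckeSystem M ⊥ ℓ).transfer φ) := by
  intro M M' _ _ hM' χ hs hord hfac
  obtain ⟨χ', hord', hfac', -, T, hT⟩ := exists_twistPartial h s M M' hM' ∅ χ hs (by simp) hord
    (by simpa using hfac)
  have hχ' : ∀ u : (ZMod M')ˣ, χ' u = 1 := fun u => hfac' u (by simp)
  refine ⟨(descend M' K).comp T, fun φ hφ => ?_⟩
  obtain ⟨h1, h2, h3⟩ := hT φ hφ
  refine ⟨fun e => h2 (eq_zero_of_descend_eq_zero hχ' h1 e), fun ℓ hℓ hℓM => ?_⟩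
  have hℓM' : ¬ ℓ ∣ M' := fun e => by
    rcases hℓ.out.dvd_mul.1 (hM' ▸ e) with e | e
    · exact hℓM e
    · obtain ⟨q, hq, hq'⟩ := (hℓ.out.prime.dvd_finsetProd_iff _).1 e
      obtain rfl := (Nat.prime_dvd_prime_iff_eq hℓ.out (hs q hq).1).1 hq'
      exact hℓM (hs ℓ hq).2.1
  have h4 := h3 ℓ hℓM
  rw [show (ℓ : ZMod M') = ((ZMod.unitOfCoprime ℓ (hℓ.out.coprime_iff_not_dvd.2 hℓM') :
    (ZMod M')ˣ) : ZMod M') from rfl, hχ', one_pow, one_smul] at h4
  rw [LinearMap.comp_apply, LinearMap.comp_apply, heckeOp_descend, h4, map_smul]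

end Fermat.Agent.HeckeCohom
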