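import Fermat.Agent.HeckeCohom.PairPeriods
import Fermat.Agent.HeckeCohom.TwistAll
import Fermat.Agent.TWTwist.Twist

/-!
# Forms with nebentypus behind twisted homomorphisms

If the periods of a pair of forms on `Γ₀(q m q)` restrict to `twist ψ φ` for a homomorphism `φ` of
`Γ₁(m q)` with character `χ` ramified at `q`, both forms are `ψ`-twists of cuspidal functions
transforming by `χ` under `Γ₀(m q)`.
-/

set_option autoImplicit false

noncomputable section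

open Matrix CongruenceSubgroup UpperHalfPlane ModularCurve ModularCurve.Period
open Matrix.SpecialLinearGroup (mapGL)
open scoped MatrixGroups ModularForm

namespace Fermat.Agent.HeckeCohom

open Fermat.Agent.GroupH1 (mem_GammaH GammaH_le_Gamma0)
open Fermat.Agent.HeckeLattice (toGL)
open Fermat.Agent.Newforms (IsCuspidalFun)

section twS

variable (q : ℕ)

lemma etaConj_shiftGL (a : ℤ) : etaConj (shiftGL q a) = shiftGL q (-a) := by
  rw [etaConj_eq_iff]
  ext i j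
  fin_cases i <;> fin_cases j <;>
    simp [etaGL, Matrix.mul_apply, Fin.sum_univ_two]
  all_goals ring

lemma det_shiftGL (a : ℤ) : ((shiftGL q a : GL (Fin 2) ℝ) : Matrix (Fin 2) (Fin 2) ℝ).det = 1 := by
  simp [Matrix.det_fin_two_of]

lemma isCuspidalFun_slash_shiftGL {F : ℍ → ℂ} (hF : IsCuspidalFun 2 F) (a : ℤ) :
    IsCuspidalFun 2 (F ∣[(2 : ℤ)] shiftGL q a) := by
  have : shiftGL q a = Matrix.GeneralLinearGroup.map (Rat.castHom ℝ)
      (Matrix.GeneralLinearGroup.mkOfDetNeZero !![(1 : ℚ), (a : ℚ) / q; 0, 1] (by simp)) := by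
    ext i j
    fin_cases i <;> fin_cases j <;> simp [Matrix.GeneralLinearGroup.mkOfDetNeZero]
  rw [this]
  exact hF.slash_ratMap _

lemma isCuspidalFun_sum {ι : Type*} (s : Finset ι) {F : ι → ℍ → ℂ}
    (h : ∀ i ∈ s, IsCuspidalFun 2 (F i)) : IsCuspidalFun 2 (∑ i ∈ s, F i) :=
  Finset.sum_induction _ (IsCuspidalFun 2) (fun _ _ => IsCuspidalFun.add)
    TWTwist.isCuspidalFun_zero h

/-- Elements of `SL(2, ℤ)` have positive determinant in `GL(2, ℝ)`. -/
lemma det_mapGL_pos (g : SL(2, ℤ)) :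
    (0 : ℝ) < ((mapGL ℝ g : GL (Fin 2) ℝ) : Matrix (Fin 2) (Fin 2) ℝ).det := by
  have : ((mapGL ℝ g : GL (Fin 2) ℝ) : Matrix (Fin 2) (Fin 2) ℝ).det = 1 :=
    (Matrix.SpecialLinearGroup.map (Int.castRingHom ℝ) g).det_coe
  rw [this]
  exact one_pos

variable [NeZero q] (ψ : ZMod q → ℂ)

/-- The twist of a function. -/
def twS (F : ℍ → ℂ) : ℍ → ℂ := ∑ a : ZMod q, ψ a • (F ∣[(2 : ℤ)] shiftGL q (a.val : ℤ))

/-- The twist of a function in the other direction. -/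
def twS' (F : ℍ → ℂ) : ℍ → ℂ := ∑ a : ZMod q, ψ a • (F ∣[(2 : ℤ)] shiftGL q (-(a.val : ℤ)))

variable {q}

theorem isCuspidalFun_twS {F : ℍ → ℂ} (hF : IsCuspidalFun 2 F) : IsCuspidalFun 2 (twS q ψ F) :=
  isCuspidalFun_sum _ fun _ _ => TWTwist.IsCuspidalFun.smul (isCuspidalFun_slash_shiftGL q hF _) _

theorem isCuspidalFun_twS' {F : ℍ → ℂ} (hF : IsCuspidalFun 2 F) : IsCuspidalFun 2 (twS' q ψ F) :=
  isCuspidalFun_sum _ fun _ _ => TWTwist.IsCuspidalFun.smul (isCuspidalFun_slash_shiftGL q hF _) _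

/-- For translation invariant functions the two directions differ by `ψ(-1)`. -/
theorem twS'_eq {ψ : MulChar (ZMod q) ℂ} {N : ℕ} {F : ℍ → ℂ}
    (hF : ∀ t : ℤ, F ∣[(2 : ℤ)] toGL (transl N t) = F) :
    twS' q ψ F = ψ (-1) • twS q ψ F := by
  have hq : (q : ℝ) ≠ 0 := Nat.cast_ne_zero.2 (NeZero.ne q)
  have hcongr : ∀ a b : ℤ, (q : ℤ) ∣ b - a →
      F ∣[(2 : ℤ)] shiftGL q b = F ∣[(2 : ℤ)] shiftGL q a := by
    rintro a b ⟨t, ht⟩
    obtain rfl : b = q * t + a := by linarith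
    rw [show shiftGL q (q * t + a) = toGL (transl N t) * shiftGL q a by
      ext i j
      fin_cases i <;> fin_cases j <;>
        simp [toGL, coe_transl, Matrix.mul_apply, Fin.sum_univ_two]
      field_simp
      ring,
      SlashAction.slash_mul, hF]
  rw [twS, twS', Finset.smul_sum, ← Equiv.sum_comp (Equiv.neg (ZMod q))
    (fun a => ψ (-1) • ψ a • (F ∣[(2 : ℤ)] shiftGL q (a.val : ℤ)))]
  refine Finset.sum_congr rfl fun a _ => ?_
  rw [smul_smul, ← map_mul, Equiv.neg_apply, neg_one_mul, neg_neg]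
  refine congrArg (ψ a • ·) (hcongr _ _ ?_)
  rw [← ZMod.intCast_zmod_eq_zero_iff_dvd]
  push_cast
  simp

end twS

section homs

variable {M M' : ℕ}

/-- `Γ(M') ≤ Γ(M)` for `M ∣ M'`. -/
lemma Gamma_le_of_dvd (h : M ∣ M') :
    CongruenceSubgroup.Gamma M' ≤ CongruenceSubgroup.Gamma M := fun γ hγ => by
  rw [Gamma_mem] at hγ ⊢
  have key : ∀ {x : ℤ} {c : ℤ}, (x : ZMod M') = (c : ZMod M') → (x : ZMod M) = (c : ZMod M) := by
    intro x c e
    have := congrArg (ZMod.castHom h (ZMod M)) e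
    rwa [map_intCast, map_intCast] at this
  obtain ⟨h1, h2, h3, h4⟩ := hγ
  exact ⟨by simpa using key (c := 1) (by simpa using h1), by simpa using key (c := 0) (by simpa using h2),
    by simpa using key (c := 0) (by simpa using h3), by simpa using key (c := 1) (by simpa using h4)⟩

/-- `Γ(M') → Γ₁(M)`. -/
def fullToG1 (h : M ∣ M') : CongruenceSubgroup.Gamma M' →* G1 M :=
  Subgroup.inclusion ((Gamma_le_of_dvd h).trans (Gamma_le_G1 M))

/-- Conjugation as a homomorphism `Γ(n) → Γ(n)`. -/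
def conjFullHom (n : ℕ) (g : SL(2, ℤ)) :
    CongruenceSubgroup.Gamma n →* CongruenceSubgroup.Gamma n where
  toFun γ := ⟨g * γ * g⁻¹, (Gamma_normal n).conj_mem _ γ.2 g⟩
  map_one' := Subtype.ext (by simp)
  map_mul' γ δ := Subtype.ext (by simp [mul_assoc])

lemma toGL_conjFullHom {n : ℕ} (g : SL(2, ℤ)) (γ : CongruenceSubgroup.Gamma n) :
    mapGL ℝ g * toGL γ = toGL (conjFullHom n g γ) * mapGL ℝ g := by
  simp only [toGL, conjFullHom, MonoidHom.coe_mk, OneHom.coe_mk, map_mul, map_inv]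
  group

/-- `conjFull` as a homomorphism. -/
def conjG1Hom (n : ℕ) (g : SL(2, ℤ)) : CongruenceSubgroup.Gamma n →* G1 n :=
  (Subgroup.inclusion (Gamma_le_G1 n)).comp (conjFullHom n g)

lemma conjG1Hom_apply {n : ℕ} (g : SL(2, ℤ)) (γ : CongruenceSubgroup.Gamma n) :
    conjG1Hom n g γ = conjFull g γ := rfl

variable (q : ℕ) [NeZero q] (hqM : q ∣ M) (hM : q * M ∣ M')

/-- Conjugation by the translation on full congruence groups. -/
def shiftFull (a : ℤ) (n : ℕ) (hn : M' ∣ n * q * q) :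
    CongruenceSubgroup.Gamma (n * q * q) →* CongruenceSubgroup.Gamma n where
  toFun γ := ⟨_, shiftHom_mem_Gamma q hqM hM a (n := n) (γ := fullToG1 hn γ) γ.2⟩
  map_one' := Subtype.ext (by simp)
  map_mul' γ δ := Subtype.ext (by simp)

/-- Twisting a pair of forms twists its periods. -/
theorem PairPer.twist (ψ : MulChar (ZMod q) ℂ) {U V : ℍ → ℂ} {φ : Additive (G1 M) →+ ℂ}
    (h : PairPer (G1 M) U V φ) :
    PairPer (G1 M') (twS q ψ U) (twS' q ψ V) (HeckeCohom.twist q hqM hM ψ φ) := by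
  rw [twist_eq_sum, twS, twS']
  refine PairPer.sum _ fun a _ => ?_
  have := (h.comp (shiftGL q (a.val : ℤ)) (by rw [det_shiftGL]; exact one_pos)
    (shiftHom q hqM hM (a.val : ℤ)) (shiftHom_spec q hqM hM (a.val : ℤ))).smul (ψ a)
  rw [etaConj_shiftGL] at this
  exact this

end homs

variable {m q : ℕ} [hq : Fact q.Prime]

/-- **The forms are twists of functions with character `χ`.** -/
theorem exists_nebenForm [NeZero m] (hm : ¬ q ∣ m) [NeZero (q * (m * q))]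
    {χ : ZMod (m * q) →* ℂ} (hram : ∃ u : (ZMod q)ˣ, χ (liftQ hm u) ≠ 1)
    {φ : Additive (G1 (m * q)) →+ ℂ} (hφ : IsChiHom χ φ) {ψ : MulChar (ZMod q) ℂ} (hψ : ψ ≠ 1)
    {u v : CuspForm (Gamma0 (q * (m * q))) 2} {Φ : Additive (Gamma0 (q * (m * q))) →+ ℂ}
    (hpair : PairPer (Gamma0 (q * (m * q))) ⇑u ⇑v Φ)
    (hres : ∀ γ : G1 (q * (m * q)), Φ (Additive.ofMul ⟨γ, GammaH_le_Gamma0 γ.2⟩)
      = twist q (dvd_mul_left q m) dvd_rfl ψ φ (Additive.ofMul γ)) :
    ∀ w ∈ [u, v], ∃ (F : ℍ → ℂ) (c : ℂ), c ≠ 0 ∧ IsCuspidalFun 2 F ∧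
      (∀ γ : SL(2, ℤ), ((m * q : ℕ) : ℤ) ∣ γ 1 0 →
        F ∣[(2 : ℤ)] mapGL ℝ γ = χ ((γ 1 1 : ℤ) : ZMod (m * q)) • F) ∧
      twS q ψ F = c • ⇑w := by
  classical
  have hqM : q ∣ m * q := dvd_mul_left q m
  have hqM1 : q ∣ q * (m * q) := dvd_mul_right _ _
  have hM2 : q * (m * q) ∣ q * (q * (m * q)) := dvd_mul_left _ _
  set n := q * (q * (m * q)) with hn
  have : NeZero n := ⟨mul_ne_zero hq.out.ne_zero (NeZero.ne _)⟩
  -- the pair on `Γ₁(q m q)`
  have h1 : PairPer (G1 (q * (m * q))) ⇑u ⇑v (twist q hqM dvd_rfl ψ φ) := by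
    have := hpair.comp 1 (by simp) (Subgroup.inclusion (GammaH_le_Gamma0 : G1 (q * (m * q)) ≤ Gamma0 (q * (m * q)))) (fun γ => by simp [toGL])
    rw [map_one, SlashAction.slash_one, SlashAction.slash_one] at this
    convert this using 1
    refine AddMonoidHom.ext fun γ => ?_
    obtain ⟨γ, rfl⟩ := Additive.ofMul.surjective γ
    exact (hres γ).symm
  have h2 := h1.twist q hqM1 (M' := n) dvd_rfl ψ⁻¹
  -- averaging
  set g : ZMod q → SL(2, ℤ) := fun i => (lowerElt (m * q) (i.val : ℤ) : SL(2, ℤ))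
  set U := ∑ i, twS q ⇑ψ⁻¹ ⇑u ∣[(2 : ℤ)] mapGL ℝ (g i) with hU
  set V := ∑ i, twS' q ⇑ψ⁻¹ ⇑v ∣[(2 : ℤ)] mapGL ℝ (jConjSL (g i)) with hV
  set c₀ : ℂ := ψ (-1) * ((q : ℂ) * (q - 1)) with hc₀
  have hψ1 : ψ (-1) * ψ (-1) = 1 := by rw [← map_mul, neg_mul_neg, one_mul, map_one]
  have hc0 : c₀ ≠ 0 := mul_ne_zero (left_ne_zero_of_mul_eq_one hψ1)
    (mul_ne_zero (Nat.cast_ne_zero.2 hq.out.ne_zero)
      (sub_ne_zero.mpr (Nat.cast_ne_one.2 hq.out.one_lt.ne')))
  have hdn : m * q ∣ n := (dvd_mul_left _ _).trans hM2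
  set P : Additive (CongruenceSubgroup.Gamma n) →+ ℂ :=
    φ.comp (MonoidHom.toAdditive (fullToG1 hdn)) with hP
  have h3 : PairPer (CongruenceSubgroup.Gamma n) U V (c₀ • P) := by
    have hs := PairPer.sum Finset.univ fun i (_ : i ∈ Finset.univ) =>
      h2.comp (mapGL ℝ (g i)) (det_mapGL_pos _) (conjG1Hom n (g i))
        (fun γ => toGL_conjFullHom (g i) γ)
    simp only [etaConj_mapGL] at hs
    convert hs using 1
    refine AddMonoidHom.ext fun γ => ?_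
    obtain ⟨γ, rfl⟩ := Additive.ofMul.surjective γ
    rw [twist_twist q hφ hqM dvd_rfl hqM1 dvd_rfl hM2 hψ, AddMonoidHom.finsetSum_apply]
    simp only [AddMonoidHom.comp_apply, MonoidHom.toAdditive_apply_apply, toMul_ofMul,
      conjG1Hom_apply, AddMonoidHom.smul_apply, ← Finset.smul_sum, g]
    rw [sum_lower_twistBack hm hM2 hram hφ γ, smul_smul, hc₀]
    refine congrArg (_ • ·) (congrArg (fun z => φ (Additive.ofMul z)) (Subtype.ext ?_))
    rw [coe_shiftHom_zero]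
    simp [conjFull, fullToG1]
  have hUc : IsCuspidalFun 2 U := isCuspidalFun_sum _ fun i _ =>
    (isCuspidalFun_twS _ (Newforms.isCuspidalFun_coe u)).slash_mapGL _
  have hVc : IsCuspidalFun 2 V := isCuspidalFun_sum _ fun i _ =>
    (isCuspidalFun_twS' _ (Newforms.isCuspidalFun_coe v)).slash_mapGL _
  -- the character
  have hinv : ∀ γ : Gamma0 (m * q),
      U ∣[(2 : ℤ)] mapGL ℝ (γ : SL(2, ℤ)) = χ (Gamma0Map _ γ) • U ∧
      V ∣[(2 : ℤ)] mapGL ℝ (jConjSL (γ : SL(2, ℤ))) = χ (Gamma0Map _ γ) • V := by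
    intro γ
    have hc := h3.comp (mapGL ℝ (γ : SL(2, ℤ))) (det_mapGL_pos _) (conjFullHom n γ)
      (fun δ => toGL_conjFullHom _ δ)
    rw [etaConj_mapGL] at hc
    refine PairPer.ext n (hUc.slash_mapGL _) (hVc.slash_mapGL _) (TWTwist.IsCuspidalFun.smul (TWTwist.IsCuspidalFun.smul hUc _) _)
      (TWTwist.IsCuspidalFun.smul (TWTwist.IsCuspidalFun.smul hVc _) _) hc ?_
    convert h3.smul (χ (Gamma0Map _ γ)) using 1
    refine AddMonoidHom.ext fun δ => ?_
    obtain ⟨δ, rfl⟩ := Additive.ofMul.surjective δ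
    simp only [AddMonoidHom.comp_apply, MonoidHom.toAdditive_apply_apply, toMul_ofMul,
      AddMonoidHom.smul_apply, hP]
    rw [show fullToG1 hdn (conjFullHom n (γ : SL(2, ℤ)) δ) = conjG1 γ (fullToG1 hdn δ) from rfl,
      hφ, smul_comm]
  have hUchi : ∀ γ : SL(2, ℤ), ((m * q : ℕ) : ℤ) ∣ γ 1 0 →
      U ∣[(2 : ℤ)] mapGL ℝ γ = χ ((γ 1 1 : ℤ) : ZMod (m * q)) • U := fun γ hγ =>
    (hinv ⟨γ, Gamma0_mem.mpr ((ZMod.intCast_zmod_eq_zero_iff_dvd _ _).mpr hγ)⟩).1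
  have hVchi : ∀ γ : SL(2, ℤ), ((m * q : ℕ) : ℤ) ∣ γ 1 0 →
      V ∣[(2 : ℤ)] mapGL ℝ γ = χ ((γ 1 1 : ℤ) : ZMod (m * q)) • V := fun γ hγ => by
    have hmem : jConjSL γ ∈ Gamma0 (m * q) := jConjSL_mem_Gamma0
      (Gamma0_mem.mpr ((ZMod.intCast_zmod_eq_zero_iff_dvd _ _).mpr hγ))
    have := (hinv ⟨jConjSL γ, hmem⟩).2
    rw [jConjSL_jConjSL, Gamma0Map_apply, jConjSL_coe, jConjMat] at this
    simpa using this
  -- twisting again
  have hd3 : q * (m * q) ∣ n * q * q := dvd_mul_of_dvd_left (dvd_mul_of_dvd_left hM2 _) _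
  have : NeZero (n * q * q) := ⟨mul_ne_zero (mul_ne_zero (NeZero.ne n) hq.out.ne_zero) hq.out.ne_zero⟩
  have h4 : PairPer (CongruenceSubgroup.Gamma (n * q * q)) (twS q ψ U) (twS' q ψ V)
      (c₀ • (twist q hqM dvd_rfl ψ φ).comp (MonoidHom.toAdditive (fullToG1 hd3))) := by
    have hs := PairPer.sum Finset.univ fun (a : ZMod q) (_ : a ∈ Finset.univ) =>
      (h3.comp (shiftGL q (a.val : ℤ)) (by rw [det_shiftGL]; exact one_pos)
        (shiftFull q hqM (M' := q * (m * q)) dvd_rfl (a.val : ℤ) n hd3)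
        (fun γ => shiftHom_spec q hqM dvd_rfl (a.val : ℤ) (fullToG1 hd3 γ))).smul (ψ a)
    simp only [etaConj_shiftGL] at hs
    rw [twS, twS']
    convert hs using 1
    refine AddMonoidHom.ext fun γ => ?_
    obtain ⟨γ, rfl⟩ := Additive.ofMul.surjective γ
    rw [AddMonoidHom.finsetSum_apply]
    simp only [AddMonoidHom.comp_apply, MonoidHom.toAdditive_apply_apply, toMul_ofMul,
      AddMonoidHom.smul_apply, twist_apply, hP, Finset.smul_sum]
    exact Finset.sum_congr rfl fun a _ => smul_comm c₀ (ψ a) (φ _)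
  have h5 : PairPer (CongruenceSubgroup.Gamma (n * q * q)) (c₀ • ⇑u) (c₀ • ⇑v)
      (c₀ • (twist q hqM dvd_rfl ψ φ).comp (MonoidHom.toAdditive (fullToG1 hd3))) := by
    have := (h1.comp 1 (by simp) (fullToG1 hd3) (fun γ => by simp [toGL, fullToG1])).smul c₀
    rwa [map_one, SlashAction.slash_one, SlashAction.slash_one] at this
  obtain ⟨e1, e2⟩ := PairPer.ext (n * q * q) (isCuspidalFun_twS _ hUc) (isCuspidalFun_twS' _ hVc)
    (TWTwist.IsCuspidalFun.smul (TWTwist.IsCuspidalFun.smul (Newforms.isCuspidalFun_coe u) _) _)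
    (TWTwist.IsCuspidalFun.smul (TWTwist.IsCuspidalFun.smul (Newforms.isCuspidalFun_coe v) _) _)
    h4 h5
  rw [twS'_eq (N := m * q) fun t => by
    show V ∣[(2 : ℤ)] mapGL ℝ (transl (m * q) t : SL(2, ℤ)) = V
    rw [hVchi _ (by simp [coe_transl]), coe_transl]
    simp] at e2
  intro w hw
  simp only [List.mem_cons, List.not_mem_nil, or_false] at hw
  rcases hw with rfl | rfl
  · exact ⟨U, c₀, hc0, hUc, hUchi, e1⟩
  · refine ⟨V, ψ (-1) * c₀, mul_ne_zero (left_ne_zero_of_mul_eq_one hψ1) hc0, hVc, hVchi, ?_⟩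
    rw [← smul_smul, ← e2, smul_smul, hψ1, one_smul]

end Fermat.Agent.HeckeCohom
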