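import Fermat.Agent.HeckeCohom.Systems
import Fermat.Agent.Newforms.Forms

/-!
# Periods of pairs of weight two forms on subgroups of `SL(2, ℤ)`

`PairPer Γ U V φ`: `φ γ` is the period of `U` at `γ` plus the period of `V` at `J γ J`. For
cuspidal functions and `Γ = Γ(n)` the pair is determined by `φ`.
-/

set_option autoImplicit false

noncomputable section

open UpperHalfPlane hiding I
open Complex Filter Topology CongruenceSubgroup ModularCurve ModularCurve.Period
open Matrix.SpecialLinearGroup (mapGL)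
open scoped MatrixGroups Manifold ModularForm Real ComplexConjugate

namespace Fermat.Agent.HeckeCohom

open Fermat.Agent.HeckeLattice (toGL isPrim_comp_gl isPrim_sum periodMap_eq_of_isPrim)
open Fermat.Agent.Newforms (IsCuspidalFun)
open Fermat.Agent.EichlerShimura (IsPrim exists_prim_of_periodic conjFun mdifferentiable_conjFun
  isPrim_mdifferentiable tendsto_conjFun jConj_smul_J)

/-- On `SL(2, ℤ)` the conjugation `etaConj` is `jConjSL`. -/
lemma etaConj_mapGL (γ : SL(2, ℤ)) : etaConj (mapGL ℝ γ) = mapGL ℝ (jConjSL γ) := by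
  rw [etaConj_eq_iff]
  ext i j
  fin_cases i <;> fin_cases j <;>
    simp [etaGL, jConjMat, Matrix.mul_apply, Fin.sum_univ_two]

lemma det_etaConj (α : GL (Fin 2) ℝ) :
    ((etaConj α : GL (Fin 2) ℝ) : Matrix (Fin 2) (Fin 2) ℝ).det
      = (α : Matrix (Fin 2) (Fin 2) ℝ).det := by
  show ((etaGL * α * etaGL⁻¹ : GL (Fin 2) ℝ) : Matrix (Fin 2) (Fin 2) ℝ).det = _
  rw [Units.val_mul, Units.val_mul]
  exact Matrix.det_units_conj etaGL _

/-- `φ γ = per U γ + per V (J γ J)` for some primitives. -/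
def PairPer (Γ : Subgroup SL(2, ℤ)) (U V : ℍ → ℂ) (φ : Additive Γ →+ ℂ) : Prop :=
  ∃ (G H : ℍ → ℂ) (a b : Γ → ℂ), IsPrim U G ∧ IsPrim V H ∧ ∀ γ : Γ,
    (∀ τ, G ((γ : SL(2, ℤ)) • τ) = G τ + a γ) ∧
    (∀ τ, H (jConjSL (γ : SL(2, ℤ)) • τ) = H τ + b γ) ∧ φ (Additive.ofMul γ) = a γ + b γ

variable {Γ Γ' : Subgroup SL(2, ℤ)}

/-- Pairs of periods add. -/
theorem PairPer.add {U V U' V' : ℍ → ℂ} {φ φ' : Additive Γ →+ ℂ} (h : PairPer Γ U V φ)
    (h' : PairPer Γ U' V' φ') : PairPer Γ (U + U') (V + V') (φ + φ') := by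
  obtain ⟨G, H, a, b, hG, hH, h⟩ := h
  obtain ⟨G', H', a', b', hG', hH', h'⟩ := h'
  refine ⟨G + G', H + H', a + a', b + b', hG.add hG', hH.add hH', fun γ => ?_⟩
  obtain ⟨h1, h2, h3⟩ := h γ
  obtain ⟨h1', h2', h3'⟩ := h' γ
  refine ⟨fun τ => ?_, fun τ => ?_, ?_⟩
  · simp only [Pi.add_apply, h1, h1']; ring
  · simp only [Pi.add_apply, h2, h2']; ring
  · simp only [Pi.add_apply, AddMonoidHom.add_apply, h3, h3']; ring

theorem pairPer_zero : PairPer Γ 0 0 0 :=
  ⟨0, 0, 0, 0, fun _ => hasDerivAt_const _ _, fun _ => hasDerivAt_const _ _,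
    fun _ => ⟨fun _ => by simp, fun _ => by simp, by simp⟩⟩

/-- Pairs of periods scale. -/
theorem PairPer.smul {U V : ℍ → ℂ} {φ : Additive Γ →+ ℂ} (h : PairPer Γ U V φ) (c : ℂ) :
    PairPer Γ (c • U) (c • V) (c • φ) := by
  obtain ⟨G, H, a, b, hG, hH, h⟩ := h
  refine ⟨c • G, c • H, c • a, c • b, hG.const_smul c, hH.const_smul c, fun γ => ?_⟩
  obtain ⟨h1, h2, h3⟩ := h γ
  refine ⟨fun τ => ?_, fun τ => ?_, ?_⟩
  · simp only [Pi.smul_apply, smul_eq_mul, h1]; ring
  · simp only [Pi.smul_apply, smul_eq_mul, h2]; ring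
  · simp only [Pi.smul_apply, AddMonoidHom.smul_apply, smul_eq_mul, h3]; ring

/-- Pairs of periods sum over finite sets. -/
theorem PairPer.sum {ι : Type*} (s : Finset ι) {U V : ι → ℍ → ℂ} {φ : ι → Additive Γ →+ ℂ}
    (h : ∀ i ∈ s, PairPer Γ (U i) (V i) (φ i)) :
    PairPer Γ (∑ i ∈ s, U i) (∑ i ∈ s, V i) (∑ i ∈ s, φ i) := by
  classical
  induction s using Finset.induction with
  | empty => simpa using pairPer_zero
  | insert i s hi ih =>
    rw [Finset.sum_insert hi, Finset.sum_insert hi, Finset.sum_insert hi]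
    exact (h i (Finset.mem_insert_self i s)).add (ih fun j hj => h j (Finset.mem_insert_of_mem hj))

/-- Pullback along `α γ = j(γ) α`. -/
theorem PairPer.comp {U V : ℍ → ℂ} {φ : Additive Γ →+ ℂ} (h : PairPer Γ U V φ)
    (α : GL (Fin 2) ℝ) (hα : (0 : ℝ) < (α : Matrix (Fin 2) (Fin 2) ℝ).det) (j : Γ' →* Γ)
    (hj : ∀ γ, α * toGL γ = toGL (j γ) * α) :
    PairPer Γ' (U ∣[(2 : ℤ)] α) (V ∣[(2 : ℤ)] etaConj α)
      (φ.comp (MonoidHom.toAdditive j)) := by
  obtain ⟨G, H, a, b, hG, hH, h⟩ := h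
  refine ⟨fun τ => G (α • τ), fun τ => H (etaConj α • τ), a ∘ j, b ∘ j,
    isPrim_comp_gl hG α hα, isPrim_comp_gl hH _ (by rw [det_etaConj]; exact hα), fun γ => ?_⟩
  obtain ⟨h1, h2, h3⟩ := h (j γ)
  refine ⟨fun τ => ?_, fun τ => ?_, h3⟩
  · change G (α • (toGL γ • τ)) = G (α • τ) + a (j γ)
    rw [← mul_smul, hj γ, mul_smul]
    exact h1 _
  · have he : etaConj α * mapGL ℝ (jConjSL (γ : SL(2, ℤ)))
        = mapGL ℝ (jConjSL (j γ : SL(2, ℤ))) * etaConj α := by
      rw [← etaConj_mapGL, ← etaConj_mapGL, ← map_mul, ← map_mul]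
      exact congrArg etaConj (hj γ)
    change H (etaConj α • (mapGL ℝ (jConjSL (γ : SL(2, ℤ))) • τ)) = H (etaConj α • τ) + b (j γ)
    rw [← mul_smul, he, mul_smul]
    exact h2 _

/-- The periods determine the homomorphism of a pair. -/
theorem PairPer.eq {U V : ℍ → ℂ} {φ φ' : Additive Γ →+ ℂ} (h : PairPer Γ U V φ)
    (h' : PairPer Γ U V φ') : φ = φ' := by
  obtain ⟨G, H, a, b, hG, hH, h⟩ := h
  obtain ⟨G', H', a', b', hG', hH', h'⟩ := h'
  obtain ⟨c, hc⟩ := hG.eq_add_const hG'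
  obtain ⟨d, hd⟩ := hH.eq_add_const hH'
  refine AddMonoidHom.ext fun γ => ?_
  obtain ⟨γ, rfl⟩ := Additive.ofMul.surjective γ
  obtain ⟨h1, h2, h3⟩ := h γ
  obtain ⟨h1', h2', h3'⟩ := h' γ
  have e1 := h1 UpperHalfPlane.I
  rw [hc, hc, h1'] at e1
  have e2 := h2 UpperHalfPlane.I
  rw [hd, hd, h2'] at e2
  rw [h3, h3']
  linear_combination -e1 - e2

/-- The periods of a pair of forms on `Γ₀(N)`. -/
theorem pairPer_periodHomPair {N : ℕ} [NeZero N]
    (p : CuspForm (Gamma0 N) 2 × CuspForm (Gamma0 N) 2) :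
    PairPer (Gamma0 N) ⇑(p.1 + p.2) ⇑(p.1 - p.2) (periodHomPair N p) := by
  obtain ⟨F, hF⟩ := EichlerShimura.exists_primitive N p.1
  obtain ⟨G, hG⟩ := EichlerShimura.exists_primitive N p.2
  refine ⟨F + G, F - G,
    fun γ => periodMap N p.1 (Additive.ofMul γ) + periodMap N p.2 (Additive.ofMul γ),
    fun γ => periodMap N p.1 (Additive.ofMul (jConjGamma0 N γ))
      - periodMap N p.2 (Additive.ofMul (jConjGamma0 N γ)),
    IsPrim.add hF.1 hG.1, fun τ => (hF.1 τ).sub (hG.1 τ), fun γ => ⟨fun τ => ?_, fun τ => ?_, ?_⟩⟩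
  · beta_reduce
    rw [periodMap_eq_of_isPrim _ hF.1 γ τ, periodMap_eq_of_isPrim _ hG.1 γ τ]
    simp only [Pi.add_apply]
    ring
  · beta_reduce
    rw [periodMap_eq_of_isPrim _ hF.1 _ τ, periodMap_eq_of_isPrim _ hG.1 _ τ, jConjGamma0_coe]
    simp only [Pi.sub_apply]
    ring
  · rw [EichlerShimura.periodHomPair_apply]
    ring

section full

variable (n : ℕ) [NeZero n]

omit [NeZero n] in
lemma jConjSL_mem_Gamma {γ : SL(2, ℤ)} (h : γ ∈ CongruenceSubgroup.Gamma n) :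
    jConjSL γ ∈ CongruenceSubgroup.Gamma n := by
  rw [CongruenceSubgroup.Gamma_mem] at h ⊢
  obtain ⟨h1, h2, h3, h4⟩ := h
  simp [jConjMat, h1, h2, h3, h4]

omit [NeZero n] in
lemma conj_T_zpow_mem_Gamma (δ : SL(2, ℤ)) :
    δ * ModularGroup.T ^ (n : ℤ) * δ⁻¹ ∈ CongruenceSubgroup.Gamma n := by
  refine (Gamma_normal n).conj_mem _ ?_ δ
  rw [Gamma_mem, ModularGroup.coe_T_zpow]
  simp

local notation "𝕢" => Function.Periodic.qParam

/-- A holomorphic function with purely imaginary periods along `Γ(n)` and a limit at every cusp is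
constant. -/
theorem eq_const_of_re_periods_full (G : ℍ → ℂ) (hG : MDiff G)
    (hper : ∀ γ ∈ CongruenceSubgroup.Gamma n, ∃ c : ℂ, c.re = 0 ∧ ∀ τ, G (γ • τ) = G τ + c)
    (hlim : ∀ δ : SL(2, ℤ), ∃ L : ℂ, Tendsto (fun τ : ℍ => G (δ • τ)) atImInfty (𝓝 L)) :
    ∀ τ : ℍ, G τ = G UpperHalfPlane.I := by
  classical
  have hn : (0 : ℝ) < n := by exact_mod_cast NeZero.pos n
  let d : SL(2, ℤ) ⧸ CongruenceSubgroup.Gamma n → SL(2, ℤ) := fun x => (x.out)⁻¹
  let f : SL(2, ℤ) ⧸ CongruenceSubgroup.Gamma n → ℍ → ℂ := fun x τ => cexp (G (d x • τ))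
  let K : SL(2, ℤ) ⧸ CongruenceSubgroup.Gamma n → ℂ → ℂ := fun x => cuspFunction (n : ℝ) (f x)
  have hcomp : ∀ δ : SL(2, ℤ), MDiff (fun τ : ℍ => G (δ • τ)) := fun δ =>
    hG.comp (mdifferentiable_smul (g := (δ : GL (Fin 2) ℝ))
      (by
        have : ((δ : GL (Fin 2) ℝ) : Matrix (Fin 2) (Fin 2) ℝ).det = 1 :=
          (Matrix.SpecialLinearGroup.map (Int.castRingHom ℝ) δ).det_coe
        simp only [Matrix.GeneralLinearGroup.val_det_apply, this, zero_lt_one]))
  have hper' : ∀ x τ, f x (ModularGroup.T ^ (n : ℤ) • τ) = f x τ := by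
    intro x τ
    obtain ⟨c, -, hc⟩ := hper _ (conj_T_zpow_mem_Gamma n (d x))
    have h1 : ∀ w, G (d x • ModularGroup.T ^ (n : ℤ) • w) = G (d x • w) + c := by
      intro w
      rw [← hc, ← mul_smul, ← mul_smul]
      group
    obtain ⟨L, hL⟩ := hlim (d x)
    have hT : Tendsto (fun w : ℍ => ModularGroup.T ^ (n : ℤ) • w) atImInfty atImInfty := by
      refine (atImInfty_basis.tendsto_iff atImInfty_basis).mpr fun a _ => ⟨a, trivial, fun w hw => ?_⟩
      rw [Set.mem_preimage, modular_T_zpow_smul]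
      simpa using hw
    have : c = 0 := by
      have := tendsto_nhds_unique (hL.comp hT)
        ((hL.add_const c).congr fun w => (h1 w).symm)
      simpa using this.symm
    simp only [f, h1, this, add_zero]
  have hperiodic : ∀ x, Function.Periodic (f x ∘ ofComplex) (n : ℝ) := by
    intro x w
    by_cases hw : 0 < w.im
    · have hw' : 0 < (w + ((n : ℝ) : ℂ)).im := by simpa using hw
      simp only [Function.comp_apply, ofComplex_apply_of_im_pos hw, ofComplex_apply_of_im_pos hw']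
      rw [← hper' x ⟨w, hw⟩, modular_T_zpow_smul]
      refine congrArg _ (UpperHalfPlane.ext ?_)
      simp [add_comm]
    · have hw' : (w + ((n : ℝ) : ℂ)).im ≤ 0 := by simpa using hw
      simp only [Function.comp_apply, ofComplex_apply_of_im_nonpos hw',
        ofComplex_apply_of_im_nonpos (not_lt.mp hw)]
  have hfd : ∀ x, MDiff (f x) := fun x => by
    have h := UpperHalfPlane.mdifferentiable_iff.mp (hcomp (d x))
    exact UpperHalfPlane.mdifferentiable_iff.mpr h.cexp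
  have hKd : ∀ x, DifferentiableOn ℂ (K x) (Metric.ball 0 1) := by
    intro x
    refine differentiableOn_cuspFunction_ball hn (hperiodic x) (hfd x) ?_
    obtain ⟨L, hL⟩ := hlim (d x)
    exact ((Complex.continuous_exp.tendsto L).comp hL).isBigO_one ℝ
  have hKq : ∀ x (τ : ℍ), K x (𝕢 (n : ℝ) τ) = f x τ := fun x τ =>
    eq_cuspFunction τ hn.ne' (hperiodic x)
  set R : ℝ := Real.exp (-π / n) with hR
  have hR0 : 0 ≤ R := (Real.exp_pos _).le
  have hR1 : R < 1 := Real.exp_lt_one_iff.mpr (div_neg_of_neg_of_pos (by linarith [Real.pi_pos]) hn)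
  have hsub : Metric.closedBall (0 : ℂ) R ⊆ Metric.ball 0 1 := Metric.closedBall_subset_ball hR1
  have hmax : ∀ x, ∃ q ∈ Metric.closedBall (0 : ℂ) R,
      IsMaxOn (fun q => ‖K x q‖) (Metric.closedBall (0 : ℂ) R) q := fun x =>
    (isCompact_closedBall _ _).exists_isMaxOn (Metric.nonempty_closedBall.mpr hR0)
      ((hKd x).continuousOn.mono hsub).norm
  choose qx hqx hqmax using hmax
  obtain ⟨x₀, hx₀⟩ := Finite.exists_max fun x => ‖K x (qx x)‖
  set M := ‖K x₀ (qx x₀)‖ with hM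
  have hin : ∀ x, ∀ q ∈ Metric.closedBall (0 : ℂ) R, ‖K x q‖ ≤ M := fun x q hq =>
    (hqmax x hq).trans (hx₀ x)
  have hglob : ∀ τ : ℍ, ‖cexp (G τ)‖ ≤ M := by
    intro τ
    obtain ⟨σ, hσ⟩ := ModularGroup.exists_one_half_le_im_smul τ
    set x : SL(2, ℤ) ⧸ CongruenceSubgroup.Gamma n := QuotientGroup.mk σ with hx
    have hγ : (x.out)⁻¹ * σ ∈ CongruenceSubgroup.Gamma n := by
      rw [← QuotientGroup.eq, QuotientGroup.out_eq']
    obtain ⟨c, hc0, hc⟩ := hper _ hγ
    have hq : 𝕢 (n : ℝ) ↑(σ • τ) ∈ Metric.closedBall (0 : ℂ) R := by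
      rw [mem_closedBall_zero_iff, Function.Periodic.norm_qParam, hR]
      apply Real.exp_le_exp.mpr
      apply div_le_div_of_nonneg_right _ hn.le
      nlinarith [Real.pi_pos, show (1 / 2 : ℝ) ≤ (↑(σ • τ) : ℂ).im from hσ]
    have := hin x _ hq
    rw [hKq] at this
    simp only [f, d] at this
    rw [← mul_smul, hc, Complex.exp_add, norm_mul, Complex.norm_exp c, hc0, Real.exp_zero,
      mul_one] at this
    exact this
  have hball : IsMaxOn (norm ∘ K x₀) (Metric.ball 0 1) (qx x₀) := by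
    intro q hq
    show ‖K x₀ q‖ ≤ ‖K x₀ (qx x₀)‖
    rcases eq_or_ne q 0 with rfl | hq0
    · exact hin x₀ 0 (Metric.mem_closedBall_self hR0)
    · have him := Function.Periodic.im_invQParam_pos_of_norm_lt_one hn
        (mem_ball_zero_iff.mp hq) hq0
      rw [← Function.Periodic.qParam_right_inv hn.ne' hq0, ← UpperHalfPlane.coe_mk _ him, hKq]
      exact hglob _
  have hconst := Complex.eqOn_of_isPreconnected_of_isMaxOn_norm
    (convex_ball (0 : ℂ) 1).isPreconnected Metric.isOpen_ball (hKd x₀) (hsub (hqx x₀)) hball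
  set h : ℂ → ℂ := (fun τ : ℍ => G (d x₀ • τ)) ∘ ofComplex with hh
  have hhd : DifferentiableOn ℂ h {z | 0 < z.im} :=
    UpperHalfPlane.mdifferentiable_iff.mp (hcomp _)
  have hval : ∀ z ∈ {z : ℂ | 0 < z.im}, cexp (h z) = K x₀ (qx x₀) := by
    intro z hz
    have := hconst (x := 𝕢 (n : ℝ) z)
      (mem_ball_zero_iff.mpr (Function.Periodic.norm_qParam_lt_one hn hz))
    rw [← UpperHalfPlane.coe_mk z hz, hKq, Function.const_apply] at this
    rw [← this]
    simp [hh, f, ofComplex_apply_of_im_pos hz]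
  have hderiv : Set.EqOn (deriv h) 0 {z | 0 < z.im} := by
    intro z hz
    have hnb := isOpen_upperHalfPlaneSet.mem_nhds hz
    have h1 := (hhd.differentiableAt hnb).hasDerivAt.cexp
    have h2 : HasDerivAt (fun w => cexp (h w)) 0 z :=
      (hasDerivAt_const z (K x₀ (qx x₀))).congr_of_eventuallyEq
        (Filter.eventuallyEq_of_mem hnb hval)
    exact (mul_eq_zero.mp (h1.unique h2)).resolve_left (Complex.exp_ne_zero _)
  have key := fun (a b : ℍ) => isOpen_upperHalfPlaneSet.is_const_of_deriv_eq_zero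
    (convex_halfSpace_im_gt 0).isPreconnected hhd hderiv a.im_pos b.im_pos
  intro τ
  have := key ((d x₀)⁻¹ • τ) ((d x₀)⁻¹ • UpperHalfPlane.I)
  simpa [hh, ofComplex_apply, smul_inv_smul] using this

/-- A cuspidal function with a primitive which transforms by constants along `Γ(n)` has primitives
with limits at all cusps. -/
theorem exists_tendsto_prim {U G : ℍ → ℂ} (hU : IsCuspidalFun 2 U) (hG : IsPrim U G)
    (hper : ∀ γ ∈ CongruenceSubgroup.Gamma n, ∃ c, ∀ τ, G (γ • τ) = G τ + c) (δ : SL(2, ℤ)) :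
    ∃ L, Tendsto (fun τ => G (δ • τ)) atImInfty (𝓝 L) := by
  have hinvU : ∀ γ ∈ CongruenceSubgroup.Gamma n, U ∣[(2 : ℤ)] γ = U := fun γ hγ => by
    obtain ⟨c, hc⟩ := hper γ hγ
    funext τ
    refine ((hG.comp_smul γ) τ).unique (((hG τ).add_const c).congr_of_eventuallyEq
      (Eventually.of_forall fun z => ?_))
    simp only [Function.comp_apply, hc]
  have hinv : (U ∣[(2 : ℤ)] δ) ∣[(2 : ℤ)] (ModularGroup.T ^ (n : ℤ)) = U ∣[(2 : ℤ)] δ := by
    rw [← SlashAction.slash_mul,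
      show δ * ModularGroup.T ^ (n : ℤ) = (δ * ModularGroup.T ^ (n : ℤ) * δ⁻¹) * δ by group,
      SlashAction.slash_mul, hinvU _ (conj_T_zpow_mem_Gamma n δ)]
  have hperiodic : Function.Periodic ((U ∣[(2 : ℤ)] δ) ∘ ofComplex) (n : ℝ) := by
    intro w
    by_cases hw : 0 < w.im
    · have hw' : 0 < (w + ((n : ℝ) : ℂ)).im := by simpa using hw
      simp only [Function.comp_apply, ofComplex_apply_of_im_pos hw, ofComplex_apply_of_im_pos hw']
      have := congrFun hinv ⟨w, hw⟩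
      rw [ModularForm.SL_slash_apply (γ := ModularGroup.T ^ (n : ℤ))] at this
      have hd : denom ((ModularGroup.T ^ (n : ℤ) : SL(2, ℤ)) : GL (Fin 2) ℝ) (w : ℂ) = 1 := by
        simp [denom, ModularGroup.coe_T_zpow, -map_zpow, -zpow_natCast]
      rw [← this, modular_T_zpow_smul, UpperHalfPlane.coe_mk, hd, one_zpow, mul_one]
      refine congrArg _ (UpperHalfPlane.ext ?_)
      simp [add_comm]
    · have hw' : (w + ((n : ℝ) : ℂ)).im ≤ 0 := by simpa using hw
      simp only [Function.comp_apply, ofComplex_apply_of_im_nonpos hw',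
        ofComplex_apply_of_im_nonpos (not_lt.mp hw)]
  obtain ⟨G', hG', hlim⟩ := exists_prim_of_periodic (h := (n : ℝ))
    (by exact_mod_cast NeZero.pos n) hperiodic (hU.1.slash 2 _)
    (hU.2 _ (isCusp_SL2Z_iff'.mpr ⟨δ, rfl⟩) (δ : GL (Fin 2) ℝ) rfl)
  obtain ⟨c, hc⟩ := (hG.comp_smul δ).eq_add_const hG'
  exact ⟨0 + c, (hlim.add_const c).congr fun τ => (hc τ).symm⟩

/-- **The pair is determined by the periods on `Γ(n)`.** -/
theorem PairPer.eq_zero {U V : ℍ → ℂ} (hU : IsCuspidalFun 2 U) (hV : IsCuspidalFun 2 V)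
    (h : PairPer (CongruenceSubgroup.Gamma n) U V 0) : U = 0 ∧ V = 0 := by
  obtain ⟨G, H, a, b, hG, hH, h⟩ := h
  have hGd : MDiff G := isPrim_mdifferentiable hG
  have hcd : MDiff (conjFun H) := mdifferentiable_conjFun (isPrim_mdifferentiable hH)
  have hab : ∀ γ, b γ = -a γ := fun γ => by
    have := (h γ).2.2
    rw [AddMonoidHom.zero_apply] at this
    linear_combination -this
  have hperG : ∀ γ ∈ CongruenceSubgroup.Gamma n, ∃ c, ∀ τ, G (γ • τ) = G τ + c :=
    fun γ hγ => ⟨_, (h ⟨γ, hγ⟩).1⟩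
  have hperH : ∀ γ ∈ CongruenceSubgroup.Gamma n, ∃ c, ∀ τ, H (γ • τ) = H τ + c := fun γ hγ =>
    ⟨b ⟨jConjSL γ, jConjSL_mem_Gamma n hγ⟩, fun τ => by
      have := (h ⟨jConjSL γ, jConjSL_mem_Gamma n hγ⟩).2.1 τ
      rwa [jConjSL_jConjSL] at this⟩
  have main : ∀ (u e : ℂ), (∀ c : ℂ, (u * (c - e * conj c)).re = 0) →
      ∀ τ, u * (G τ + e * conjFun H τ)
        = u * (G UpperHalfPlane.I + e * conjFun H UpperHalfPlane.I) := by
    intro u e hu
    refine eq_const_of_re_periods_full n (fun τ => u * (G τ + e * conjFun H τ)) ?_ ?_ ?_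
    · exact UpperHalfPlane.mdifferentiable_iff.mpr (((UpperHalfPlane.mdifferentiable_iff.mp hGd).add
        ((UpperHalfPlane.mdifferentiable_iff.mp hcd).const_mul e)).const_mul u)
    · intro γ hγ
      refine ⟨_, hu (a ⟨γ, hγ⟩), fun τ => ?_⟩
      obtain ⟨h1, h2, -⟩ := h ⟨γ, hγ⟩
      have h2' : conjFun H (γ • τ) = conjFun H τ - conj (a ⟨γ, hγ⟩) := by
        rw [conjFun, ← jConj_smul_J, h2 (UpperHalfPlane.J • τ), hab, map_add, map_neg, conjFun]
        ring
      rw [h1 τ, h2']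
      ring
    · intro δ
      obtain ⟨L, hL⟩ := exists_tendsto_prim n hU hG hperG δ
      obtain ⟨L', hL'⟩ := exists_tendsto_prim n hV hH hperH (jConjSL δ)
      exact ⟨_, (hL.add ((tendsto_conjFun δ hL').const_mul e)).const_mul u⟩
  have hp := main 1 1 fun c => by simp
  have hm := main I (-1) fun c => by simp
  have hGc : ∀ τ, G τ = G UpperHalfPlane.I := fun τ => by
    have e1 := hp τ
    have e2 := mul_left_cancel₀ I_ne_zero (hm τ)
    linear_combination (1 / 2 : ℂ) * e1 + (1 / 2 : ℂ) * e2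
  have hHc : ∀ τ, H τ = H UpperHalfPlane.I := fun τ => by
    have hc : ∀ τ, conjFun H τ = conjFun H UpperHalfPlane.I := fun τ => by
      have e1 := hp τ
      rw [hGc τ] at e1
      linear_combination e1
    have := (hc (UpperHalfPlane.J • τ)).trans (hc (UpperHalfPlane.J • UpperHalfPlane.I)).symm
    have hJ : ∀ z : ℍ, UpperHalfPlane.J • UpperHalfPlane.J • z = z := fun z => by
      rw [← mul_smul, show UpperHalfPlane.J * UpperHalfPlane.J = 1 by
        ext i j; fin_cases i <;> fin_cases j <;> simp [Matrix.mul_apply, Fin.sum_univ_two], one_smul]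
    simp only [conjFun, hJ] at this
    exact (starRingEnd ℂ).injective this
  have key : ∀ {W P : ℍ → ℂ}, IsPrim W P → (∀ τ, P τ = P UpperHalfPlane.I) → W = 0 :=
    fun {W P} hW hc => funext fun τ => (hW τ).unique ((hasDerivAt_const _ _).congr_of_eventuallyEq
      (Eventually.of_forall fun z => hc _))
  exact ⟨key hG hGc, key hH hHc⟩

/-- Two pairs with the same periods on `Γ(n)` are equal. -/
theorem PairPer.ext {U V U' V' : ℍ → ℂ} {φ : Additive (CongruenceSubgroup.Gamma n) →+ ℂ}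
    (hU : IsCuspidalFun 2 U) (hV : IsCuspidalFun 2 V) (hU' : IsCuspidalFun 2 ((-1 : ℂ) • U'))
    (hV' : IsCuspidalFun 2 ((-1 : ℂ) • V')) (h : PairPer (CongruenceSubgroup.Gamma n) U V φ)
    (h' : PairPer (CongruenceSubgroup.Gamma n) U' V' φ) : U = U' ∧ V = V' := by
  have := h.add (h'.smul (-1))
  rw [neg_one_smul ℂ φ, add_neg_cancel] at this
  obtain ⟨h1, h2⟩ := PairPer.eq_zero n (hU.add hU') (hV.add hV') this
  rw [neg_one_smul, add_neg_eq_zero] at h1 h2
  exact ⟨h1, h2⟩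

end full

end Fermat.Agent.HeckeCohom
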