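import Fermat.Agent.GroupH1.Hecke

/-!
# Conjugation by rational translations

For `q * M ∣ M'`, conjugation by `[1, a/q; 0, 1]` maps `Γ₁(M')` into `Γ₁(M)`. `shiftMat` is the
integral matrix `n` with `[1, a'/q; 0, 1] * m = n * [1, a/q; 0, 1]`.
-/

set_option autoImplicit false

noncomputable section

open Matrix CongruenceSubgroup
open scoped MatrixGroups

namespace Fermat.Agent.HeckeCohom

open Fermat.Agent.GroupH1 (GammaH Adm mem_GammaH realMat realMat_mul realMat_injective coe_mapGL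
  GammaH_le_Gamma0)
open Fermat.Agent.HeckeLattice (toGL)

/-- `Γ₁(M)`, as a case of `GammaH`. -/
abbrev G1 (M : ℕ) : Subgroup SL(2, ℤ) := GammaH M (⊥ : Subgroup (ZMod M)ˣ)

lemma adm_bot_iff {M : ℕ} {m : Matrix (Fin 2) (Fin 2) ℤ} :
    Adm M ⊥ m ↔ (m 1 0 : ZMod M) = 0 ∧ (m 0 0 : ZMod M) = 1 := by
  refine and_congr_right fun _ => ⟨?_, fun h => ⟨1, rfl, by rw [h, Units.val_one]⟩⟩
  rintro ⟨u, hu, h⟩
  rw [← h, Subgroup.mem_bot.mp hu, Units.val_one]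

/-- `Γ(M) ≤ Γ₁(M)`. -/
lemma Gamma_le_G1 (M : ℕ) : CongruenceSubgroup.Gamma M ≤ G1 M := fun γ hγ => by
  rw [CongruenceSubgroup.Gamma_mem] at hγ
  exact adm_bot_iff.mpr ⟨hγ.2.2.1, hγ.1⟩

/-- The translation `[1, a/q; 0, 1]`. -/
def shiftGL (q : ℕ) (a : ℤ) : GL (Fin 2) ℝ :=
  ModularForm.upperTriangularGL 1 ((a : ℝ) / q) 1 (by norm_num)

@[simp] lemma coe_shiftGL (q : ℕ) (a : ℤ) :
    (shiftGL q a : Matrix (Fin 2) (Fin 2) ℝ) = !![1, (a : ℝ) / q; 0, 1] := rfl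

/-- The shifts compose additively. -/
lemma shiftGL_add (q : ℕ) (a b : ℤ) : shiftGL q a * shiftGL q b = shiftGL q (a + b) := by
  ext i j
  fin_cases i <;> fin_cases j <;> simp [Matrix.mul_apply, Fin.sum_univ_two]
  ring

/-- The integral matrix `n` with `[1, a'/q; 0, 1] m = n [1, a/q; 0, 1]`. -/
def shiftMat (q : ℕ) (a' a : ℤ) (m : Matrix (Fin 2) (Fin 2) ℤ) : Matrix (Fin 2) (Fin 2) ℤ :=
  !![m 0 0 + a' * (m 1 0 / q),
     m 0 1 + (a' * m 1 1 - a * m 0 0) / q - a * a' * (m 1 0 / (q * q));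
     m 1 0, m 1 1 - a * (m 1 0 / q)]

variable {q : ℕ}

/-- `[1, a'/q; 0, 1] m = n [1, a/q; 0, 1]` with `n = shiftMat q a' a m` integral. -/
theorem shiftGL_mul_eq [NeZero q] {a' a : ℤ} {m : Matrix (Fin 2) (Fin 2) ℤ}
    (h10 : (q : ℤ) * q ∣ m 1 0) (hdiag : (q : ℤ) ∣ a' * m 1 1 - a * m 0 0) :
    (shiftGL q a' : Matrix (Fin 2) (Fin 2) ℝ) * realMat m
      = realMat (shiftMat q a' a m) * (shiftGL q a : Matrix (Fin 2) (Fin 2) ℝ) := by
  obtain ⟨c, hc⟩ := h10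
  obtain ⟨e, he⟩ := hdiag
  have hq : (q : ℤ) ≠ 0 := Int.natCast_ne_zero.2 (NeZero.ne q)
  have hq' : (q : ℝ) ≠ 0 := Nat.cast_ne_zero.2 (NeZero.ne q)
  have h1 : m 1 0 / (q : ℤ) = q * c := by
    rw [hc, mul_assoc, Int.mul_ediv_cancel_left _ hq]
  have h2 : m 1 0 / ((q : ℤ) * q) = c := by
    rw [hc, Int.mul_ediv_cancel_left _ (mul_ne_zero hq hq)]
  have h3 : (a' * m 1 1 - a * m 0 0) / (q : ℤ) = e := by
    rw [he, Int.mul_ediv_cancel_left _ hq]
  have heR : (a' : ℝ) * m 1 1 - a * m 0 0 = q * e := by exact_mod_cast he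
  rw [shiftMat, h1, h2, h3]
  ext i j
  fin_cases i <;> fin_cases j <;>
    simp [realMat, Matrix.mul_apply, Fin.sum_univ_two, hc] <;> field_simp <;>
      first | ring1 | linear_combination heR

/-- Shifting does not change the determinant. -/
theorem det_shiftMat [NeZero q] {a' a : ℤ} {m : Matrix (Fin 2) (Fin 2) ℤ}
    (h10 : (q : ℤ) * q ∣ m 1 0) (hdiag : (q : ℤ) ∣ a' * m 1 1 - a * m 0 0) :
    (shiftMat q a' a m).det = m.det := by
  have h := congrArg Matrix.det (shiftGL_mul_eq h10 hdiag)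
  rw [Matrix.det_mul, Matrix.det_mul, coe_shiftGL, coe_shiftGL, Matrix.det_fin_two_of,
    Matrix.det_fin_two_of, GroupH1.det_realMat, GroupH1.det_realMat] at h
  simp only [mul_zero, sub_zero, one_mul, mul_one] at h
  exact_mod_cast h.symm

variable {M M' : ℕ}

/-- Shifting a matrix with lower left entry `0` mod `M'` keeps its lower left entry `0` and its
diagonal mod `M`. -/
lemma shiftMat_cast [NeZero q] (hM : q * M ∣ M') {m : Matrix (Fin 2) (Fin 2) ℤ}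
    (hm : (m 1 0 : ZMod M') = 0) (a' a : ℤ) :
    (shiftMat q a' a m 1 0 : ZMod M) = 0 ∧ (shiftMat q a' a m 0 0 : ZMod M) = m 0 0 ∧
      (shiftMat q a' a m 1 1 : ZMod M) = m 1 1 := by
  have hd : ((q * M : ℕ) : ℤ) ∣ m 1 0 :=
    (Int.natCast_dvd_natCast.mpr hM).trans ((ZMod.intCast_zmod_eq_zero_iff_dvd _ _).mp hm)
  obtain ⟨c, hc⟩ := hd
  have h0 : ((m 1 0 / (q : ℤ) : ℤ) : ZMod M) = 0 := by
    rw [hc, Nat.cast_mul, mul_assoc, Int.mul_ediv_cancel_left _ (Int.natCast_ne_zero.2 (NeZero.ne q))]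
    simp
  refine ⟨?_, ?_, ?_⟩
  · simp [shiftMat, hc]
  · simp [shiftMat, h0]
  · simp [shiftMat, h0]

/-- `q ^ 2` divides the multiples of `M'`. -/
lemma sq_dvd_of_cast_eq_zero (hqM : q ∣ M) (hM : q * M ∣ M') {x : ℤ} (hx : (x : ZMod M') = 0) :
    (q : ℤ) * q ∣ x := by
  refine dvd_trans ?_ ((ZMod.intCast_zmod_eq_zero_iff_dvd _ _).mp hx)
  exact_mod_cast (Nat.mul_dvd_mul_left q hqM).trans hM

lemma dvd_diag_of_mem (hM : q * M ∣ M') {γ : SL(2, ℤ)} (hγ : γ ∈ G1 M') (a : ℤ) :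
    (q : ℤ) ∣ a * γ 1 1 - a * γ 0 0 := by
  obtain ⟨h10, h00⟩ := adm_bot_iff.mp (mem_GammaH.mp hγ)
  rw [← mul_sub]
  refine Dvd.dvd.mul_left ((ZMod.intCast_zmod_eq_zero_iff_dvd _ _).mp ?_) a
  have hdet := congrArg (Int.cast : ℤ → ZMod M') γ.det_coe
  rw [Matrix.det_fin_two] at hdet
  push_cast at hdet
  rw [h10, h00, one_mul, mul_zero, sub_zero] at hdet
  have h11 : ((γ 1 1 - γ 0 0 : ℤ) : ZMod M') = 0 := by push_cast; rw [hdet, h00, sub_self]
  rw [ZMod.intCast_zmod_eq_zero_iff_dvd] at h11 ⊢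
  exact (Int.natCast_dvd_natCast.mpr ((dvd_mul_right q M).trans hM)).trans h11

section shiftHom

variable (q : ℕ) [NeZero q] (hqM : q ∣ M) (hM : q * M ∣ M') (a : ℤ)

/-- Conjugation by `[1, a/q; 0, 1]` on one element. -/
def shiftElt (γ : G1 M') : G1 M :=
  ⟨⟨shiftMat q a a γ.1.1, by
      rw [det_shiftMat (sq_dvd_of_cast_eq_zero hqM hM (adm_bot_iff.mp (mem_GammaH.mp γ.2)).1)
        (dvd_diag_of_mem hM γ.2 a)]
      exact γ.1.2⟩,
    mem_GammaH.mpr (adm_bot_iff.mpr (by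
      obtain ⟨h10, h00⟩ := adm_bot_iff.mp (mem_GammaH.mp γ.2)
      obtain ⟨e10, e00, -⟩ := shiftMat_cast (q := q) hM h10 a a
      refine ⟨e10, e00.trans ?_⟩
      have := congrArg (ZMod.castHom ((dvd_mul_left M q).trans hM) (ZMod M)) h00
      rwa [map_intCast, map_one] at this))⟩

lemma shiftGL_mul_toGL (γ : G1 M') :
    shiftGL q a * toGL γ = toGL (shiftElt q hqM hM a γ) * shiftGL q a := by
  refine Units.ext ?_
  simp only [Units.val_mul, toGL, coe_mapGL]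
  exact shiftGL_mul_eq (sq_dvd_of_cast_eq_zero hqM hM (adm_bot_iff.mp (mem_GammaH.mp γ.2)).1)
    (dvd_diag_of_mem hM γ.2 a)

/-- `shiftElt` is characterised by `[1, a/q; 0, 1] γ = δ [1, a/q; 0, 1]`. -/
lemma shiftElt_eq_of_mul {γ : G1 M'} {δ : G1 M}
    (h : shiftGL q a * toGL γ = toGL δ * shiftGL q a) : shiftElt q hqM hM a γ = δ :=
  HeckeLattice.toGL_injective
    (mul_right_cancel ((shiftGL_mul_toGL q hqM hM a γ).symm.trans h))

/-- Conjugation by `[1, a/q; 0, 1]` as a homomorphism `Γ₁(M') → Γ₁(M)`. -/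
def shiftHom : G1 M' →* G1 M where
  toFun := shiftElt q hqM hM a
  map_one' := shiftElt_eq_of_mul q hqM hM a (by simp)
  map_mul' γ δ := shiftElt_eq_of_mul q hqM hM a (by
    rw [HeckeLattice.toGL_mul, HeckeLattice.toGL_mul, ← mul_assoc, shiftGL_mul_toGL q hqM hM a γ,
      mul_assoc, shiftGL_mul_toGL q hqM hM a δ, mul_assoc])

/-- `shiftHom` is conjugation by `[1, a/q; 0, 1]`. -/
lemma shiftHom_spec (γ : G1 M') :
    shiftGL q a * toGL γ = toGL (shiftHom q hqM hM a γ) * shiftGL q a :=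
  shiftGL_mul_toGL q hqM hM a γ

/-- `φ ↦ φ ∘ (conjugation by [1, a/q; 0, 1])`. -/
def shift (B : Type*) [AddCommGroup B] :
    (Additive (G1 M) →+ B) →+ (Additive (G1 M') →+ B) where
  toFun φ := φ.comp (MonoidHom.toAdditive (shiftHom q hqM hM a))
  map_zero' := rfl
  map_add' _ _ := rfl

/-- The value of a shifted homomorphism. -/
@[simp] lemma shift_apply {B : Type*} [AddCommGroup B] (φ : Additive (G1 M) →+ B) (γ : G1 M') :
    shift q hqM hM a B φ (Additive.ofMul γ) = φ (Additive.ofMul (shiftHom q hqM hM a γ)) := rfl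

/-- Shifting is linear. -/
lemma shift_smul {R B : Type*} [Semiring R] [AddCommGroup B] [Module R B] (r : R)
    (φ : Additive (G1 M) →+ B) :
    shift q hqM hM a B (r • φ) = r • shift q hqM hM a B φ := rfl

/-- Conjugation by the translation keeps full congruence subgroups, losing `q²` in the level. -/
lemma shiftHom_mem_Gamma {n : ℕ} {γ : G1 M'} (hγ : (γ : SL(2, ℤ)) ∈ CongruenceSubgroup.Gamma (n * q * q)) :
    (shiftHom q hqM hM a γ : SL(2, ℤ)) ∈ CongruenceSubgroup.Gamma n := by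
  rw [CongruenceSubgroup.Gamma_mem] at hγ ⊢
  obtain ⟨h00, h01, h10, h11⟩ := hγ
  obtain ⟨c, hc⟩ := (ZMod.intCast_zmod_eq_zero_iff_dvd _ _).mp h10
  have h00' : ((γ.1 0 0 : ℤ) - 1 : ZMod (n * q * q)) = 0 := by rw [h00, sub_self]
  have h11' : ((γ.1 1 1 : ℤ) - 1 : ZMod (n * q * q)) = 0 := by rw [h11, sub_self]
  have h00'' : ((n * q * q : ℕ) : ℤ) ∣ γ.1 0 0 - 1 := by
    rw [← ZMod.intCast_zmod_eq_zero_iff_dvd]; push_cast; exact h00'
  have h11'' : ((n * q * q : ℕ) : ℤ) ∣ γ.1 1 1 - 1 := by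
    rw [← ZMod.intCast_zmod_eq_zero_iff_dvd]; push_cast; exact h11'
  obtain ⟨u, hu⟩ := h00''
  obtain ⟨v, hv⟩ := h11''
  obtain ⟨b, hb⟩ := (ZMod.intCast_zmod_eq_zero_iff_dvd _ _).mp h01
  have hq : (q : ℤ) ≠ 0 := Int.natCast_ne_zero.2 (NeZero.ne q)
  push_cast at hc hb hu hv
  have e1 : γ.1 1 0 / (q : ℤ) = n * q * c := by
    rw [hc, show (n : ℤ) * q * q * c = q * (n * q * c) by ring, Int.mul_ediv_cancel_left _ hq]
  have e2 : γ.1 1 0 / ((q : ℤ) * q) = n * c := by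
    rw [hc, show (n : ℤ) * q * q * c = q * q * (n * c) by ring,
      Int.mul_ediv_cancel_left _ (mul_ne_zero hq hq)]
  have e3 : (a * γ.1 1 1 - a * γ.1 0 0) / (q : ℤ) = a * (n * q) * (v - u) := by
    rw [show a * γ.1 1 1 - a * γ.1 0 0 = q * (a * (n * q) * (v - u)) by
      linear_combination a * hv - a * hu, Int.mul_ediv_cancel_left _ hq]
  have e00 : γ.1 0 0 = 1 + n * q * q * u := by linarith
  have e11 : γ.1 1 1 = 1 + n * q * q * v := by linarith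
  have hn : ((n : ℤ) : ZMod n) = 0 := by simp
  change ((shiftMat q a a γ.1.1 0 0 : ℤ) : ZMod n) = 1 ∧ ((shiftMat q a a γ.1.1 0 1 : ℤ) : ZMod n) = 0 ∧
    ((shiftMat q a a γ.1.1 1 0 : ℤ) : ZMod n) = 0 ∧ ((shiftMat q a a γ.1.1 1 1 : ℤ) : ZMod n) = 1
  rw [shiftMat, e1, e2, e3]
  refine ⟨?_, ?_, ?_, ?_⟩ <;>
    simp [hb, hc, e00, e11]

end shiftHom

end Fermat.Agent.HeckeCohom
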