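import Fermat.Agent.HeckeCohom.NebenForm
import Fermat.Agent.TWTwist.Partial

/-!
# The newform behind a twisted class has exponent two

An eigen homomorphism of `Γ₁(m q)` with character ramified exactly at `q` gives, after twisting
away the character, a newform of level dividing `q m q` with exponent exactly two at `q`.
-/

set_option autoImplicit false

noncomputable section

open Matrix CongruenceSubgroup UpperHalfPlane ModularCurve ModularCurve.Period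
open Matrix.SpecialLinearGroup (mapGL)
open scoped MatrixGroups ModularForm

namespace Fermat.Agent.HeckeCohom

open Fermat.Agent.GroupH1 (GammaH_le_Gamma0 heckeSystem)
open Fermat.Agent.HeckeLattice (toGL)
open Fermat.Agent.Newforms (IsCuspidalFun)
open Fermat.Agent.TWTwist (HasExp CharGoodEigen twistFun)

/-- A translation invariant cuspidal function has a `q`-expansion. -/
theorem exists_hasExp_cuspidal {F : ℍ → ℂ} (hF : IsCuspidalFun 2 F)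
    (hT : F ∣[(2 : ℤ)] TWTwist.transl (1 : ℝ) = F) : ∃ a, HasExp 1 F a := by
  have hper : Function.Periodic (F ∘ ofComplex) ((1 : ℝ) : ℂ) := by
    intro z
    rcases le_or_gt z.im 0 with hz | hz
    · simp only [Function.comp_apply]
      rw [ofComplex_apply_of_im_nonpos (w := z + ((1 : ℝ) : ℂ)) (by simpa using hz),
        ofComplex_apply_of_im_nonpos hz]
    · have hz' : 0 < (z + ((1 : ℝ) : ℂ)).im := by simpa using hz
      have h := congrFun hT ⟨z, hz⟩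
      rw [TWTwist.slash_transl_apply] at h
      simp only [Function.comp_apply, ofComplex_apply_of_im_pos hz, ofComplex_apply_of_im_pos hz']
      rw [← h]
      exact congrArg F (UpperHalfPlane.ext (TWTwist.coe_transl_smul 1 ⟨z, hz⟩).symm)
  have hb : IsBoundedAtImInfty F :=
    (OnePoint.isZeroAt_infty_iff.mp (hF.2 _ (isCusp_SL2Z_iff'.mpr ⟨1, by simp⟩))).isBoundedAtImInfty
  exact ⟨fun n => (qExpansion 1 F).coeff n, fun τ => hasSum_qExpansion one_pos hper hF.1 hb τ⟩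

section twistFun

variable {q : ℕ} [Fact q.Prime]

/-- `twS` is a multiple of `twistFun`. -/
theorem twistFun_eq_twS {ψ : MulChar (ZMod q) ℂ} (hψ : ψ ≠ 1) (F : ℍ → ℂ) :
    twistFun q 2 (fun r => ψ⁻¹ r) F
      = ((q : ℂ)⁻¹ * ZMod.dft (fun r => ψ⁻¹ r) 1) • twS q ψ F := by
  rw [twistFun, twS, Finset.smul_sum]
  refine Finset.sum_congr rfl fun u _ => ?_
  rw [smul_smul]
  congr 1
  · rcases eq_or_ne u 0 with rfl | hu
    · rw [MulChar.map_zero, mul_zero, ZMod.dft_apply]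
      simp [MulChar.sum_eq_zero_of_ne_one (inv_ne_one.mpr hψ), -ZMod.natCast_val]
    · have h := TWTwist.dft_mulChar ψ⁻¹ (Units.mk0 u hu) 1
      rw [Units.val_mk0, mul_one] at h
      have h1 : ψ u * ψ⁻¹ u = 1 := by
        rw [← MulChar.mul_apply, mul_inv_cancel, MulChar.one_apply (Ne.isUnit hu)]
      linear_combination (-((q : ℂ)⁻¹) * ψ u) * h + (-((q : ℂ)⁻¹) * ZMod.dft (fun r => ψ⁻¹ r) u) * h1

theorem dft_inv_one_ne_zero {ψ : MulChar (ZMod q) ℂ} (hψ : ψ ≠ 1) :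
    ZMod.dft (fun r => ψ⁻¹ r) (1 : ZMod q) ≠ 0 := by
  intro h0
  have hall : ZMod.dft (fun r => ψ⁻¹ r) = (0 : ZMod q → ℂ) := by
    funext u
    rcases eq_or_ne u 0 with rfl | hu
    · simp [ZMod.dft_apply, MulChar.sum_eq_zero_of_ne_one (inv_ne_one.mpr hψ)]
    · have h := TWTwist.dft_mulChar ψ⁻¹ (Units.mk0 u hu) 1
      rw [Units.val_mk0, mul_one, h0] at h
      exact (mul_eq_zero.mp h.symm).resolve_left (IsUnit.map ψ⁻¹ (Ne.isUnit hu)).ne_zero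
  have := congrFun (ZMod.dft.injective (hall.trans (map_zero ZMod.dft).symm)) 1
  simp at this

end twistFun

variable {m q : ℕ} [hq : Fact q.Prime]

theorem eq_comp_liftQ_of_factorsThrough (hm : ¬ q ∣ m) {K : Type*} [Field K]
    {χ : ZMod (m * q) →* K} (hfac : FactorsThrough {q} χ) (u : (ZMod (m * q))ˣ) :
    χ u = χ (liftQ hm (ZMod.castHom (dvd_mul_left q m) (ZMod q) (u : ZMod (m * q)))) := by
  set c : ZMod (m * q) →* ZMod q := ↑(ZMod.castHom (dvd_mul_left q m) (ZMod q)) with hc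
  set w : (ZMod (m * q))ˣ := Units.map (liftQ hm) (Units.map c u)
  have h : χ ((u * w⁻¹ : (ZMod (m * q))ˣ) : ZMod (m * q)) = 1 := hfac _ fun x hx hxd => by
    obtain rfl := Finset.mem_singleton.mp hx
    show ((Units.map c (u * w⁻¹) : (ZMod x)ˣ) : ZMod x) = 1
    have hw : Units.map c w = Units.map c u := Units.ext (castHom_liftQ_right hm _)
    rw [map_mul, map_inv, hw, mul_inv_cancel, Units.val_one]
  have e := congrArg (· * χ (w : ZMod (m * q))) h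
  simp only [one_mul] at e
  rw [← map_mul, ← Units.val_mul, inv_mul_cancel_right] at e
  exact e

/-- A nontrivial `χq` with `χq ^ (2 h + 1) = 1` has the square root `ψ = χq ^ (h + 1)`; it is
nontrivial and `ψ⁻¹ = χq ^ h`. -/
theorem exists_mulChar_pow_succ (h : ℕ) {χq : ZMod q →* ℂ}
    (hχq : ∀ u : (ZMod q)ˣ, χq u ^ (2 * h + 1) = 1) (hram : ∃ u : (ZMod q)ˣ, χq u ≠ 1) :
    ∃ ψ : MulChar (ZMod q) ℂ, (∀ u : (ZMod q)ˣ, ψ u = χq u ^ (h + 1)) ∧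
      (∀ u : (ZMod q)ˣ, ψ⁻¹ u = χq u ^ h) ∧ ψ ≠ 1 := by
  let ψ : MulChar (ZMod q) ℂ :=
    MulChar.ofUnitHom ((χq.comp (Units.coeHom (ZMod q))) ^ (h + 1)).toHomUnits
  have hψu : ∀ u : (ZMod q)ˣ, ψ u = χq u ^ (h + 1) := fun u => by
    rw [MulChar.ofUnitHom_coe]; rfl
  have hψinv : ∀ u : (ZMod q)ˣ, ψ⁻¹ u = χq u ^ h := fun u => by
    have h1 : ψ⁻¹ u * ψ u = 1 := by rw [← MulChar.mul_apply, inv_mul_cancel, MulChar.one_apply_coe]
    rw [hψu] at h1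
    have h2 : χq u ^ h * χq u ^ (h + 1) = 1 := by
      rw [← pow_add, show h + (h + 1) = 2 * h + 1 by ring, hχq]
    exact mul_right_cancel₀ (right_ne_zero_of_mul_eq_one h2) (h1.trans h2.symm)
  have hψ : ψ ≠ 1 := fun e => by
    obtain ⟨u, hu⟩ := hram
    refine hu ?_
    have h1 : χq u ^ (h + 1) = 1 := by rw [← hψu, e, MulChar.one_apply_coe]
    calc χq u = χq u * χq u ^ (2 * h + 1) := by rw [hχq, mul_one]
      _ = (χq u ^ (h + 1)) ^ 2 := by ring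
      _ = 1 := by rw [h1, one_pow]
  exact ⟨ψ, hψu, hψinv, hψ⟩

/-- The twist by `ψ` with `ψ ^ 2 = χ` has trivial character. -/
theorem isChiHom_one_twist [NeZero (m * q)] [NeZero (q * (m * q))] (hm : ¬ q ∣ m) (h : ℕ)
    {χ : ZMod (m * q) →* ℂ} (hord : ∀ u : (ZMod (m * q))ˣ, χ u ^ (2 * h + 1) = 1)
    (hfac : FactorsThrough {q} χ) {ψ : MulChar (ZMod q) ℂ}
    (hψu : ∀ u : (ZMod q)ˣ, ψ u = χ (liftQ hm u) ^ (h + 1))
    {φ : Additive (G1 (m * q)) →+ ℂ} (hφ : IsChiHom χ φ) :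
    IsChiHom (1 : ZMod (q * (m * q)) →* ℂ)
      (twist q (dvd_mul_left q m) (M' := q * (m * q)) dvd_rfl ψ φ) := by
  have hqM : q ∣ m * q := dvd_mul_left q m
  let χq : ZMod q →* ℂ := χ.comp (liftQ hm)
  have hχq : ∀ u : (ZMod q)ˣ, χq u ^ (2 * h + 1) = 1 := fun u =>
    hord (Units.map (liftQ hm) u)
  have hχeq : ∀ u : (ZMod (m * q))ˣ,
      χ u = χq (ZMod.castHom hqM (ZMod q) (u : ZMod (m * q))) :=
    eq_comp_liftQ_of_factorsThrough hm hfac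
  refine isChiHom_twist q _ _ ψ (fun d => ?_) hφ
  set cM : ZMod (q * (m * q)) →* ZMod (m * q) :=
    ↑(ZMod.castHom (dvd_mul_left (m * q) q) (ZMod (m * q)))
  set cq : ZMod (q * (m * q)) →* ZMod q := ↑(ZMod.castHom (dvd_mul_right q (m * q)) (ZMod q))
  show (1 : ℂ) * ψ (cq d) ^ 2 = χ (cM d)
  have hcc : ZMod.castHom hqM (ZMod q) (cM d) = cq d := by
    obtain ⟨x, hx⟩ := ZMod.intCast_surjective (d : ZMod (q * (m * q)))
    simp [cq, cM, ← hx]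
  have e := hχeq (Units.map cM d)
  rw [Units.coe_map, hcc] at e
  rw [one_mul, e]
  have e2 : ψ (cq d) = χq (cq d) ^ (h + 1) := hψu (Units.map cq d)
  have e3 : χq (cq d) ^ (2 * h + 1) = 1 := hχq (Units.map cq d)
  rw [e2, ← pow_mul, show (h + 1) * 2 = (2 * h + 1) + 1 by ring, pow_succ, e3, one_mul]

/-- The twist by `ψ` intertwines `χ(ℓ)^h T_ℓ` with `T_ℓ`, `χ(ℓ)^h = χ(ℓ)^(-1/2)`. -/
theorem transfer_twist_eq_smul [NeZero (m * q)] [NeZero (q * (m * q))] (hm : ¬ q ∣ m) (h : ℕ)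
    {χ : ZMod (m * q) →* ℂ} (hfac : FactorsThrough {q} χ) {ψ : MulChar (ZMod q) ℂ}
    (hψinv : ∀ u : (ZMod q)ˣ, ψ⁻¹ u = χ (liftQ hm u) ^ h) {φ : Additive (G1 (m * q)) →+ ℂ}
    {ℓ : ℕ} [hℓ : Fact ℓ.Prime] (hn : ¬ ℓ ∣ m * q) {c : ℂ}
    (hφ : (heckeSystem (m * q) ⊥ ℓ).transfer φ = c • φ) :
    (heckeSystem (q * (m * q)) ⊥ ℓ).transfer
        (twist q (dvd_mul_left q m) (M' := q * (m * q)) dvd_rfl ψ φ)
      = (χ (ℓ : ZMod (m * q)) ^ h * c) •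
          twist q (dvd_mul_left q m) (M' := q * (m * q)) dvd_rfl ψ φ := by
  have hqM : q ∣ m * q := dvd_mul_left q m
  let χq : ZMod q →* ℂ := χ.comp (liftQ hm)
  have hχeq : ∀ u : (ZMod (m * q))ˣ,
      χ u = χq (ZMod.castHom hqM (ZMod q) (u : ZMod (m * q))) :=
    eq_comp_liftQ_of_factorsThrough hm hfac
  have hn' : ¬ ℓ ∣ q * (m * q) := fun e =>
    (hℓ.out.dvd_mul.1 e).elim (fun e => hn (e.trans hqM)) hn
  have hℓq : ¬ ℓ ∣ q := fun e => hn (e.trans hqM)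
  have h1 := transfer_twist q hqM (M' := q * (m * q)) dvd_rfl hℓq
    ⟨fun e => absurd e hn, fun e => absurd e hn'⟩ ψ φ
  rw [hφ, map_smul] at h1
  set v : (ZMod q)ˣ := ZMod.unitOfCoprime ℓ (hℓ.out.coprime_iff_not_dvd.2 hℓq)
  have hv : (ℓ : ZMod q) = (v : ZMod q) := rfl
  have e : χ (ℓ : ZMod (m * q)) = χq v := by
    have := hχeq (ZMod.unitOfCoprime ℓ (hℓ.out.coprime_iff_not_dvd.2 hn))
    rwa [ZMod.coe_unitOfCoprime, map_natCast (ZMod.castHom hqM (ZMod q)), hv] at this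
  rw [hv] at h1
  have h2 := congrArg (ψ⁻¹ (v : ZMod q) • ·) h1
  simp only [smul_smul] at h2
  rw [show ψ⁻¹ (v : ZMod q) * ψ v = 1 by
    rw [← MulChar.mul_apply, inv_mul_cancel, MulChar.one_apply_coe], one_smul, hψinv,
    show χ (liftQ hm (v : ZMod q)) = χ (ℓ : ZMod (m * q)) from e.symm] at h2
  exact h2

/-- A function transforming by `χ` transforms by the character of conductor `q` inducing `χ`,
whose square is nontrivial as its order is odd. -/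
theorem exists_dirichletCharacter_slash [NeZero (m * q)] (hm : ¬ q ∣ m) (h : ℕ)
    {χ : ZMod (m * q) →* ℂ} (hord : ∀ u : (ZMod (m * q))ˣ, χ u ^ (2 * h + 1) = 1)
    (hfac : FactorsThrough {q} χ) (hram : ∃ u : (ZMod q)ˣ, χ (liftQ hm u) ≠ 1) {F : ℍ → ℂ}
    (hFchi : ∀ γ : SL(2, ℤ), ((m * q : ℕ) : ℤ) ∣ γ 1 0 →
      F ∣[(2 : ℤ)] mapGL ℝ γ = χ ((γ 1 1 : ℤ) : ZMod (m * q)) • F) :
    ∃ χT : DirichletCharacter ℂ q, (∀ γ : SL(2, ℤ), ((m * q : ℕ) : ℤ) ∣ γ 1 0 →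
      F ∣[(2 : ℤ)] mapGL ℝ γ = χT ((γ 1 1 : ℤ) : ZMod q) • F) ∧ χT * χT ≠ 1 := by
  have hqM : q ∣ m * q := dvd_mul_left q m
  let χq : ZMod q →* ℂ := χ.comp (liftQ hm)
  have hχq : ∀ u : (ZMod q)ˣ, χq u ^ (2 * h + 1) = 1 := fun u =>
    hord (Units.map (liftQ hm) u)
  have hχeq : ∀ u : (ZMod (m * q))ˣ,
      χ u = χq (ZMod.castHom hqM (ZMod q) (u : ZMod (m * q))) :=
    eq_comp_liftQ_of_factorsThrough hm hfac
  let χT : DirichletCharacter ℂ q :=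
    MulChar.ofUnitHom (χq.comp (Units.coeHom (ZMod q))).toHomUnits
  have hχT : ∀ u : (ZMod q)ˣ, χT u = χq u := fun u => by rw [MulChar.ofUnitHom_coe]; rfl
  have hFT : ∀ γ : SL(2, ℤ), ((m * q : ℕ) : ℤ) ∣ γ 1 0 →
      F ∣[(2 : ℤ)] mapGL ℝ γ = χT ((γ 1 1 : ℤ) : ZMod q) • F := fun γ hγ => by
    rw [hFchi γ hγ]
    have hu := isUnit_Gamma0Map
      (⟨γ, Gamma0_mem.mpr ((ZMod.intCast_zmod_eq_zero_iff_dvd _ _).mpr hγ)⟩ : Gamma0 (m * q))
    have e := hχeq hu.unit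
    rw [IsUnit.unit_spec, Gamma0Map_apply, map_intCast (ZMod.castHom hqM (ZMod q))] at e
    have hu' : IsUnit ((γ 1 1 : ℤ) : ZMod q) := by
      have := hu.map (ZMod.castHom hqM (ZMod q))
      rwa [Gamma0Map_apply, map_intCast (ZMod.castHom hqM (ZMod q))] at this
    rw [e, ← hu'.unit_spec, hχT]
  have hχ2 : χT * χT ≠ 1 := fun e => by
    obtain ⟨u, hu⟩ := hram
    refine hu ?_
    have h1 : χq u * χq u = 1 := by rw [← hχT, ← MulChar.mul_apply, e, MulChar.one_apply_coe]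
    calc χq u = χq u * (χq u * χq u) ^ h := by rw [h1, one_pow, mul_one]
      _ = χq u ^ (2 * h + 1) := by ring
      _ = 1 := hχq u
  exact ⟨χT, hFT, hχ2⟩

/-- The part `E` of `D` prime to `q`: it is divisible by `m`, and `D` and `q E` have the same
prime divisors. -/
theorem exists_ordCompl (hm : ¬ q ∣ m) {D : ℕ} (hD0 : D ≠ 0) (hD : m * q ∣ D) :
    ∃ E : ℕ, ¬ q ∣ E ∧ m ∣ E ∧ ∀ {r : ℕ}, r.Prime → r ∣ D → r ∣ q * E := by
  have hqp : q.Prime := hq.out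
  set E := D / q ^ D.factorization q with hE
  have hqE : ¬ q ∣ E := Nat.not_dvd_ordCompl hqp hD0
  have hDE : q ^ D.factorization q * E = D := Nat.ordProj_mul_ordCompl_eq_self D q
  have hmE : m ∣ E := by
    have h1 : m ∣ q ^ D.factorization q * E := hDE.symm ▸ (dvd_mul_right m q).trans hD
    exact (Nat.Coprime.pow_right _ (hqp.coprime_iff_not_dvd.2 hm).symm).dvd_of_dvd_mul_left h1
  have hDp : ∀ {r : ℕ}, r.Prime → r ∣ D → r ∣ q * E := fun {r} hr e => by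
    rw [← hDE] at e
    exact (hr.dvd_mul.1 e).elim (fun e => (hr.dvd_of_dvd_pow e).mul_right E)
      fun e => e.mul_left q
  exact ⟨E, hqE, hmE, hDp⟩

/-- A ramified eigen class gives an eigenform on `Γ₀(q m q)` with the twisted eigenvalues, the
twist of a form with nebentypus `χ`. -/
theorem exists_eigenform_nebenForm [NeZero m] (hm : ¬ q ∣ m) [NeZero (m * q)]
    [NeZero (q * (m * q))] (h : ℕ) {χ : ZMod (m * q) →* ℂ}
    (hord : ∀ u : (ZMod (m * q))ˣ, χ u ^ (2 * h + 1) = 1) (hfac : FactorsThrough {q} χ)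
    (hram : ∃ u : (ZMod q)ˣ, χ (liftQ hm u) ≠ 1) {ψ : MulChar (ZMod q) ℂ}
    (hψu : ∀ u : (ZMod q)ˣ, ψ u = χ (liftQ hm u) ^ (h + 1))
    (hψinv : ∀ u : (ZMod q)ˣ, ψ⁻¹ u = χ (liftQ hm u) ^ h) (hψ : ψ ≠ 1)
    {φ : Additive (G1 (m * q)) →+ ℂ} (hφ : IsChiHom χ φ) (hφ0 : φ ≠ 0) {D : ℕ}
    (hD : m * q ∣ D) (lam : ℕ → ℂ)
    (hlam : ∀ (ℓ : ℕ) [Fact ℓ.Prime], ¬ ℓ ∣ D →
      (heckeSystem (m * q) ⊥ ℓ).transfer φ = lam ℓ • φ)
    (hℓ₀ : ∃ ℓ₀ : ℕ, ℓ₀.Prime ∧ ¬ ℓ₀ ∣ D ∧ (ℓ₀ : ZMod (q * (m * q))) = 1 ∧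
      lam ℓ₀ ≠ 1 + ℓ₀) :
    ∃ (w : CuspForm (Gamma0 (q * (m * q))) 2) (F : ℍ → ℂ) (c : ℂ), w ≠ 0 ∧
      (∀ (ℓ : ℕ) (hℓ : ℓ.Prime) (hn : ¬ ℓ ∣ q * (m * q)), ¬ ℓ ∣ D →
        CuspForm.heckeTLin 2 hℓ hn w = (χ (ℓ : ZMod (m * q)) ^ h * lam ℓ) • w) ∧
      c ≠ 0 ∧ IsCuspidalFun 2 F ∧
      (∀ γ : SL(2, ℤ), ((m * q : ℕ) : ℤ) ∣ γ 1 0 →
        F ∣[(2 : ℤ)] mapGL ℝ γ = χ ((γ 1 1 : ℤ) : ZMod (m * q)) • F) ∧
      twS q ψ F = c • ⇑w := by
  have hqM : q ∣ m * q := dvd_mul_left q m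
  have hnD : ∀ {ℓ : ℕ}, ¬ ℓ ∣ D → ¬ ℓ ∣ m * q := fun hn e => hn (e.trans hD)
  set φ' := twist q hqM (M' := q * (m * q)) dvd_rfl ψ φ with hφ'
  have hchi1 : IsChiHom (1 : ZMod (q * (m * q)) →* ℂ) φ' :=
    isChiHom_one_twist hm h hord hfac hψu hφ
  have hφ'0 : φ' ≠ 0 := fun e =>
    hφ0 (twist_injective hψ hm dvd_rfl (NeZero.ne _) hram hφ e)
  set lam' : ℕ → ℂ := fun ℓ => χ (ℓ : ZMod (m * q)) ^ h * lam ℓ with hlam'
  have hTφ' : ∀ (ℓ : ℕ) [Fact ℓ.Prime], ¬ ℓ ∣ D →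
      (heckeSystem (q * (m * q)) ⊥ ℓ).transfer φ' = lam' ℓ • φ' := fun ℓ _ hnℓ =>
    transfer_twist_eq_smul hm h hfac hψinv (hnD hnℓ) (hlam ℓ hnℓ)
  set Φ := descend (q * (m * q)) ℂ φ' with hΦ
  have hres : ∀ γ : G1 (q * (m * q)),
      Φ (Additive.ofMul ⟨γ, GammaH_le_Gamma0 γ.2⟩) = φ' (Additive.ofMul γ) :=
    descend_apply_of_trivial (fun _ => rfl) hchi1
  have hΦ0 : Φ ≠ 0 := fun e => hφ'0 (eq_zero_of_descend_eq_zero (fun _ => rfl) hchi1 e)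
  have hTΦ : ∀ (ℓ : ℕ) [Fact ℓ.Prime], ¬ ℓ ∣ D →
      heckeOp (q * (m * q)) ℓ Fact.out ℂ Φ = lam' ℓ • Φ := fun ℓ _ hn => by
    rw [hΦ, heckeOp_descend, hTφ' ℓ hn, map_smul]
  -- parabolicity
  have hpar : IsParabolicHom (Gamma0 (q * (m * q))) Φ := by
    obtain ⟨ℓ₀, hℓ₀p, hℓ₀D, h1, hne⟩ := hℓ₀
    have := Fact.mk hℓ₀p
    have e1 : (ℓ₀ : ZMod (m * q)) = 1 := by
      have := congrArg (ZMod.castHom (dvd_mul_left (m * q) q) (ZMod (m * q))) h1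
      rwa [map_natCast, map_one] at this
    refine isParabolicHom_of_heckeOp_eq_smul h1 (c := lam ℓ₀) hne ?_
    rw [hTΦ ℓ₀ hℓ₀D, show lam' ℓ₀ = lam ℓ₀ by simp [hlam', e1]]
  obtain ⟨p, hp⟩ := eichlerShimuraSurjective (q * (m * q)) hpar
  have heig : ∀ (ℓ : ℕ) (hℓ : ℓ.Prime) (hn : ¬ ℓ ∣ q * (m * q)), ¬ ℓ ∣ D →
      CuspForm.heckeTLin 2 hℓ hn p.1 = lam' ℓ • p.1 ∧
        CuspForm.heckeTLin 2 hℓ hn p.2 = lam' ℓ • p.2 := fun ℓ hℓ hn hn' =>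
    heckeTLin_eq_smul_of_periodHomPair hp hℓ hn (@hTΦ ℓ ⟨hℓ⟩ hn')
  obtain ⟨w, hw, hw0, hwe⟩ : ∃ w ∈ [p.1 + p.2, p.1 - p.2], w ≠ 0 ∧
      ∀ (ℓ : ℕ) (hℓ : ℓ.Prime) (hn : ¬ ℓ ∣ q * (m * q)), ¬ ℓ ∣ D →
        CuspForm.heckeTLin 2 hℓ hn w = lam' ℓ • w := by
    by_cases hu : p.1 + p.2 = 0
    · refine ⟨p.1 - p.2, by simp, fun hv => hΦ0 ?_, fun ℓ hℓ hn hn' => ?_⟩
      · have h2 : (2 : ℂ) • p.1 = 0 := by
          rw [two_smul]
          linear_combination (norm := abel) hu + hv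
        have e1 : p.1 = 0 := (smul_eq_zero.mp h2).resolve_left two_ne_zero
        have e2 : p.2 = 0 := by simpa [e1] using hu
        rw [← hp, show p = 0 from Prod.ext e1 e2, map_zero]
      · rw [map_sub, (heig ℓ hℓ hn hn').1, (heig ℓ hℓ hn hn').2, smul_sub]
    · refine ⟨p.1 + p.2, by simp, hu, fun ℓ hℓ hn hn' => ?_⟩
      rw [map_add, (heig ℓ hℓ hn hn').1, (heig ℓ hℓ hn hn').2, smul_add]
  obtain ⟨F, c, hc, hFc, hFchi, hFw⟩ :=
    exists_nebenForm hm hram hφ hψ (pairPer_periodHomPair p) (fun γ => hp ▸ hres γ) w hw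
  exact ⟨w, F, c, hw0, hwe, hc, hFc, hFchi, hFw⟩

/-- **Exponent two.** An eigenform with the twisted eigenvalues at the primes outside `D` has
exponent exactly two at `q`. -/
theorem factorization_eq_two_of_eigenHom [NeZero m] (hm : ¬ q ∣ m) [NeZero (m * q)]
    [NeZero (q * (m * q))] (h : ℕ) {χ : ZMod (m * q) →* ℂ}
    (hord : ∀ u : (ZMod (m * q))ˣ, χ u ^ (2 * h + 1) = 1) (hfac : FactorsThrough {q} χ)
    (hram : ∃ u : (ZMod q)ˣ, χ (liftQ hm u) ≠ 1)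
    {φ : Additive (G1 (m * q)) →+ ℂ} (hφ : IsChiHom χ φ) (hφ0 : φ ≠ 0) {D : ℕ} (hD0 : D ≠ 0)
    (hD : m * q ∣ D) (lam : ℕ → ℂ)
    (hlam : ∀ (ℓ : ℕ) [Fact ℓ.Prime], ¬ ℓ ∣ D →
      (heckeSystem (m * q) ⊥ ℓ).transfer φ = lam ℓ • φ)
    (hℓ₀ : ∃ ℓ₀ : ℕ, ℓ₀.Prime ∧ ¬ ℓ₀ ∣ D ∧ (ℓ₀ : ZMod (q * (m * q))) = 1 ∧ lam ℓ₀ ≠ 1 + ℓ₀)
    {M' : ℕ} [NeZero M'] (hM' : M' ∣ q * (m * q)) {g : CuspForm (Gamma0 M') 2}
    (hg : g.IsNormalizedEigenform)
    (hgl : ∀ ℓ : ℕ, ℓ.Prime → ¬ ℓ ∣ D →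
      ModularFormClass.qCoeff ⇑g ℓ = χ (ℓ : ZMod (m * q)) ^ h * lam ℓ) :
    M'.factorization q = 2 := by
  classical
  have hqp : q.Prime := hq.out
  have hqM : q ∣ m * q := dvd_mul_left q m
  let χq : ZMod q →* ℂ := χ.comp (liftQ hm)
  have hχq : ∀ u : (ZMod q)ˣ, χq u ^ (2 * h + 1) = 1 := fun u =>
    hord (Units.map (liftQ hm) u)
  obtain ⟨ψ, hψu, hψinv, hψ⟩ := exists_mulChar_pow_succ h hχq hram
  set lam' : ℕ → ℂ := fun ℓ => χ (ℓ : ZMod (m * q)) ^ h * lam ℓ with hlam'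
  obtain ⟨w, F, c, hw0, hwe, hc, hFc, hFchi, hFw⟩ :=
    exists_eigenform_nebenForm hm h hord hfac hram hψu hψinv hψ hφ hφ0 hD lam hlam hℓ₀
  -- coefficients
  obtain ⟨a, ha⟩ := exists_hasExp_cuspidal hFc (by
    rw [show TWTwist.transl (1 : ℝ) = mapGL ℝ (TWTwist.upperZ 1) by
      rw [← TWTwist.transl_natCast]; norm_num, hFchi _ (by simp)]
    simp)
  set κ : ℂ := (q : ℂ)⁻¹ * ZMod.dft (fun r => ψ⁻¹ r) (1 : ZMod q) * c with hκ
  have hκ0 : κ ≠ 0 := mul_ne_zero (mul_ne_zero (inv_ne_zero (Nat.cast_ne_zero.2 hqp.ne_zero))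
    (dft_inv_one_ne_zero hψ)) hc
  have hcoef : ∀ n : ℕ,
      ψ⁻¹ (n : ZMod q) * a n = κ * ModularFormClass.qCoeff ⇑w n := by
    intro n
    have h1 := TWTwist.hasExp_twistFun (k := 2) ha (fun r => ψ⁻¹ r)
    rw [twistFun_eq_twS hψ, hFw, smul_smul, ← hκ] at h1
    have h2 := TWTwist.qCoeff_eq_of_hasExp (κ • w) h1 n
    rw [HeckeEigen.qCoeff_smul] at h2
    exact h2.symm
  obtain ⟨χT, hFT, hχ2⟩ := exists_dirichletCharacter_slash hm h hord hfac hram hFchi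
  have hne : ∃ n, ¬ q ∣ n ∧ a n ≠ 0 := by
    by_contra hcon
    push Not at hcon
    refine hw0 (Newforms.eq_of_qCoeff fun n => ?_)
    rw [HeckeEigen.qCoeff_zero_form]
    have := hcoef n
    by_cases hn : q ∣ n
    · rw [(ZMod.natCast_eq_zero_iff _ _).mpr hn, MulChar.map_zero, zero_mul] at this
      exact (mul_eq_zero.mp this.symm).resolve_left hκ0
    · rw [hcon n hn, mul_zero] at this
      exact (mul_eq_zero.mp this.symm).resolve_left hκ0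
  have hwgood : CharGoodEigen (q * (m * q) * D) (1 : DirichletCharacter ℂ 1)
      (fun n => ModularFormClass.qCoeff ⇑w n) lam' := fun ℓ hℓ hn n => by
    have e := congrArg (fun f : CuspForm (Gamma0 (q * (m * q))) 2 => ModularFormClass.qCoeff ⇑f n)
      (hwe ℓ hℓ (fun e => hn (e.mul_right D)) (fun e => hn (e.mul_left (q * (m * q)))))
    rw [HeckeEigen.qCoeff_heckeTLin, HeckeEigen.qCoeff_smul] at e
    rw [← e, show ((2 : ℤ) - 1) = 1 by norm_num, zpow_one]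
    simp [MulChar.one_apply (isUnit_of_subsingleton _)]
  obtain ⟨E, hqE, hmE, hDp⟩ := exists_ordCompl hm hD0 hD
  refine TWTwist.factorization_eq_two_of_compare (N₀ := m * q) (Q := q) (M := E) (χ := χT)
    (ψ := ψ⁻¹) hqp hqE (fun e => hqE (e ▸ dvd_zero q)) hqM
    ((dvd_of_eq (mul_comm m q)).trans (mul_dvd_mul_left q hmE))
    ((dvd_of_eq (show m * q * q = q ^ 2 * m by ring)).trans (mul_dvd_mul_left _ hmE)) hFT ha hne
    (fun hcop _ => by rw [TWTwist.localChar_self]; exact hχ2)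
    (hM'.trans (dvd_of_eq (by ring))) hg fun d hdM hqd n hn => ?_
  have hd0 : IsUnit (d : ZMod q) := (ZMod.isUnit_iff_coprime _ _).mpr
    (hqp.coprime_iff_not_dvd.2 hqd).symm
  have hprimes : ∀ r : ℕ, r.Prime → r ∣ q * (m * q) * D → r ∣ q * E := fun r hr e =>
    (hr.dvd_mul.1 e).elim (fun e => (hr.dvd_mul.1 e).elim (fun e => e.mul_right E)
      fun e => hDp hr (e.trans hD)) (hDp hr)
  have h1 := TWTwist.twist_coeff_eq (Q := 1) (ψ := 1) (D := q * E) (by simp) hwgood hg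
    (fun e => hqp.ne_one (Nat.dvd_one.mp (e ▸ dvd_mul_right q E)))
    (fun r hr e => hprimes r hr (by rwa [mul_one] at e))
    (fun r hr e => hprimes r hr ((e.trans hM').mul_right D))
    (fun ℓ hℓ e => by
      rw [hgl ℓ hℓ fun e' => e (hDp hℓ e'), MulChar.one_apply (isUnit_of_subsingleton _), one_mul])
    (d := d) (fun r hr e => dvd_mul_of_dvd_right (hdM r hr e) q) n hn
  rw [MulChar.one_apply (isUnit_of_subsingleton _), one_mul] at h1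
  have h2 := hcoef (d * n)
  rw [Nat.cast_mul, map_mul, h1, ← mul_assoc κ, ← hcoef d, mul_assoc, mul_assoc] at h2
  exact mul_left_cancel₀ (IsUnit.map ψ⁻¹ hd0).ne_zero h2

end Fermat.Agent.HeckeCohom
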